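import Mathlib
import Fermat.Prelude.Def_ModularCurve_GenusNumerics

/-!
# Cosets fixed by the elliptic generators

In `SL(2, ℤ) ⧸ Γ₀(N)`, the cosets fixed by `S` and by `ST` are counted by `nuTwo N` and
`nuThree N` (`card_fixed_S`, `card_fixed_ST`): a fixed coset with first column `(a, c)` has `c` a
unit mod `N`, and `a/c` is a root of the quadratic (`card_fixed_aux`).
-/

set_option autoImplicit false

noncomputable section

open CongruenceSubgroup ModularCurve
open scoped MatrixGroups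

namespace FLTAgent.ModularPlaces

variable {N : ℕ}

/-- The upper left entry of an integral matrix of determinant one. -/
def topEntry (g : SL(2, ℤ)) : ℤ := g.1 0 0

/-- The lower left entry of an integral matrix of determinant one. -/
def botEntry (g : SL(2, ℤ)) : ℤ := g.1 1 0

theorem isCoprime_col (g : SL(2, ℤ)) : IsCoprime (topEntry g) (botEntry g) := by
  refine ⟨g.1 1 1, -g.1 0 1, ?_⟩
  have h := g.2
  rw [Matrix.det_fin_two] at h
  simp only [topEntry, botEntry]
  linarith

theorem topEntry_mul (a b : SL(2, ℤ)) :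
    topEntry (a * b) = a.1 0 0 * topEntry b + a.1 0 1 * botEntry b := by
  simp [topEntry, botEntry, Matrix.mul_apply, Fin.sum_univ_two]

theorem botEntry_mul (a b : SL(2, ℤ)) :
    botEntry (a * b) = a.1 1 0 * topEntry b + a.1 1 1 * botEntry b := by
  simp [topEntry, botEntry, Matrix.mul_apply, Fin.sum_univ_two]

theorem mk_eq_mk_iff (g g' : SL(2, ℤ)) :
    (g : SL(2, ℤ) ⧸ Gamma0 N) = (g' : SL(2, ℤ) ⧸ Gamma0 N) ↔
      (N : ℤ) ∣ topEntry g * botEntry g' - topEntry g' * botEntry g := by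
  rw [QuotientGroup.eq, Gamma0_mem, ZMod.intCast_zmod_eq_zero_iff_dvd]
  simp [topEntry, botEntry, Matrix.mul_apply, Fin.sum_univ_two,
    Matrix.SpecialLinearGroup.coe_inv, Matrix.adjugate_fin_two]
  ring_nf

theorem smul_mk_eq_iff (a g : SL(2, ℤ)) :
    a • (g : SL(2, ℤ) ⧸ Gamma0 N) = (g : SL(2, ℤ) ⧸ Gamma0 N) ↔
      (N : ℤ) ∣ topEntry (a * g) * botEntry g - topEntry g * botEntry (a * g) :=
  mk_eq_mk_iff _ _

theorem isUnit_intCast_of_forall {a c : ℤ} (h : IsCoprime a c)
    (hp : ∀ p : ℤ, Prime p → p ∣ c → p ∣ (N : ℤ) → p ∣ a) :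
    IsUnit ((c : ℤ) : ZMod N) := by
  rw [ZMod.coe_int_isUnit_iff_isCoprime]
  refine isCoprime_of_prime_dvd ?_ ?_
  · rintro ⟨hN, hc⟩
    simp only [Nat.cast_eq_zero] at hN
    subst hN hc
    have ha := hp 2 Int.prime_two (dvd_zero _) (dvd_zero _)
    have := h.isUnit_of_dvd' ha (dvd_zero _)
    exact Int.prime_two.not_isUnit this
  · intro p hpp hpN hpc
    exact hpp.not_isUnit (h.isUnit_of_dvd' (hp p hpp hpc hpN) hpc)

theorem isUnit_botEntry {g : SL(2, ℤ)} {u v : ℤ}
    (h : (N : ℤ) ∣ topEntry g * (topEntry g * u) + botEntry g * v) (hu : IsUnit u) :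
    IsUnit ((botEntry g : ℤ) : ZMod N) := by
  refine isUnit_intCast_of_forall (isCoprime_col g) fun p hp hpc hpN => ?_
  have h1 : p ∣ topEntry g * (topEntry g * u) :=
    (dvd_add_left (hpc.mul_right v)).mp (hpN.trans h)
  rcases hp.dvd_or_dvd h1 with h2 | h2
  · exact h2
  rcases hp.dvd_or_dvd h2 with h3 | h3
  · exact h3
  · exact absurd (isUnit_of_dvd_unit h3 hu) hp.not_isUnit

/-- The value `a / c` of a matrix with first column `(a, c)`. -/
def colRatio (N : ℕ) (g : SL(2, ℤ)) : ZMod N :=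
  (topEntry g : ZMod N) * Ring.inverse (botEntry g : ZMod N)

theorem colRatio_mul_bot {g : SL(2, ℤ)} (h : IsUnit ((botEntry g : ℤ) : ZMod N)) :
    colRatio N g * (botEntry g : ZMod N) = (topEntry g : ZMod N) := by
  rw [colRatio, mul_assoc, Ring.inverse_mul_cancel _ h, mul_one]

theorem colRatio_eq_iff {g g' : SL(2, ℤ)} (h : IsUnit ((botEntry g : ℤ) : ZMod N))
    (h' : IsUnit ((botEntry g' : ℤ) : ZMod N)) :
    colRatio N g = colRatio N g' ↔
      (g : SL(2, ℤ) ⧸ Gamma0 N) = (g' : SL(2, ℤ) ⧸ Gamma0 N) := by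
  rw [mk_eq_mk_iff, ← ZMod.intCast_zmod_eq_zero_iff_dvd]
  push_cast
  rw [sub_eq_zero, ← colRatio_mul_bot h, ← colRatio_mul_bot h']
  constructor
  · intro e; rw [e]; ring
  · intro e
    have : colRatio N g * ((botEntry g : ZMod N) * (botEntry g' : ZMod N))
        = colRatio N g' * ((botEntry g : ZMod N) * (botEntry g' : ZMod N)) := by
      linear_combination e
    exact (h.mul h').mul_right_cancel this

/-- A matrix with first column `(k, 1)`. -/
def colMatrix (k : ℤ) : SL(2, ℤ) := ⟨!![k, -1; 1, 0], by simp [Matrix.det_fin_two_of]⟩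

theorem topEntry_colMatrix (k : ℤ) : topEntry (colMatrix k) = k := rfl

theorem botEntry_colMatrix (k : ℤ) : botEntry (colMatrix k) = 1 := rfl

/-- A general count of fixed cosets: the fixed points are given by roots of a quadratic. -/
theorem card_fixed_aux (a : SL(2, ℤ)) (t : ℤ)
    (ha : ∀ g : SL(2, ℤ), topEntry (a * g) * botEntry g - topEntry g * botEntry (a * g) =
      -(topEntry g * topEntry g + t * topEntry g * botEntry g + botEntry g * botEntry g)) :
    Nat.card {x : SL(2, ℤ) ⧸ Gamma0 N // a • x = x}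
      = Nat.card {x : ZMod N // x ^ 2 + (t : ZMod N) * x + 1 = 0} := by
  classical
  have hfix : ∀ g : SL(2, ℤ), a • (g : SL(2, ℤ) ⧸ Gamma0 N) = (g : SL(2, ℤ) ⧸ Gamma0 N) →
      IsUnit ((botEntry g : ℤ) : ZMod N) ∧
        colRatio N g ^ 2 + (t : ZMod N) * colRatio N g + 1 = 0 := by
    intro g hg
    rw [smul_mk_eq_iff, ha, dvd_neg] at hg
    have hu : IsUnit ((botEntry g : ℤ) : ZMod N) := by
      refine isUnit_botEntry (g := g) (u := 1) (v := t * topEntry g + botEntry g) ?_ isUnit_one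
      rwa [show topEntry g * (topEntry g * 1) + botEntry g * (t * topEntry g + botEntry g) =
        topEntry g * topEntry g + t * topEntry g * botEntry g + botEntry g * botEntry g by ring]
    refine ⟨hu, ?_⟩
    have h0 := (ZMod.intCast_zmod_eq_zero_iff_dvd _ N).mpr hg
    push_cast at h0
    rw [← colRatio_mul_bot hu] at h0
    exact (hu.mul hu).mul_left_eq_zero.mp (by linear_combination h0)
  let f : {x : SL(2, ℤ) ⧸ Gamma0 N // a • x = x} →
      {x : ZMod N // x ^ 2 + (t : ZMod N) * x + 1 = 0} := fun x =>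
    ⟨colRatio N x.1.out, (hfix x.1.out (by rw [QuotientGroup.out_eq']; exact x.2)).2⟩
  refine Nat.card_eq_of_bijective f ⟨?_, ?_⟩
  · rintro ⟨x, hx⟩ ⟨y, hy⟩ e
    have e' : colRatio N x.out = colRatio N y.out := congrArg Subtype.val e
    rw [colRatio_eq_iff (hfix _ (by rw [QuotientGroup.out_eq']; exact hx)).1
      (hfix _ (by rw [QuotientGroup.out_eq']; exact hy)).1, QuotientGroup.out_eq',
      QuotientGroup.out_eq'] at e'
    exact Subtype.ext e'
  · rintro ⟨r, hr⟩
    obtain ⟨k, rfl⟩ := ZMod.intCast_surjective r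
    have hk : a • (colMatrix k : SL(2, ℤ) ⧸ Gamma0 N)
        = (colMatrix k : SL(2, ℤ) ⧸ Gamma0 N) := by
      rw [smul_mk_eq_iff, ha, dvd_neg, ← ZMod.intCast_zmod_eq_zero_iff_dvd,
        topEntry_colMatrix, botEntry_colMatrix]
      push_cast
      linear_combination hr
    refine ⟨⟨_, hk⟩, Subtype.ext ?_⟩
    show colRatio N (Quotient.out _) = _
    have hu := (hfix (colMatrix k) hk).1
    have hu' := (hfix _ ((QuotientGroup.out_eq' (colMatrix k : SL(2, ℤ) ⧸ Gamma0 N)).symm ▸ hk)).1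
    rw [(colRatio_eq_iff hu' hu).mpr (QuotientGroup.out_eq' _)]
    simp [colRatio, topEntry_colMatrix, botEntry_colMatrix]

/-- The cosets fixed by `S` are counted by `nuTwo`. -/
theorem card_fixed_S :
    Nat.card {x : SL(2, ℤ) ⧸ Gamma0 N // ModularGroup.S • x = x} = nuTwo N := by
  rw [card_fixed_aux ModularGroup.S 0]
  · simp [nuTwo]
  · intro g
    rw [topEntry_mul, botEntry_mul]
    simp [ModularGroup.coe_S]
    ring

/-- The cosets fixed by `ST` are counted by `nuThree`. -/
theorem card_fixed_ST :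
    Nat.card {x : SL(2, ℤ) ⧸ Gamma0 N // (ModularGroup.S * ModularGroup.T) • x = x}
      = nuThree N := by
  rw [card_fixed_aux (ModularGroup.S * ModularGroup.T) 1]
  · simp [nuThree]
  · intro g
    rw [topEntry_mul, botEntry_mul]
    simp [ModularGroup.coe_S, ModularGroup.coe_T, Matrix.mul_apply, Fin.sum_univ_two]
    ring

end FLTAgent.ModularPlaces
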