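import Fermat.Agent.ModularPlaces.Counting

/-!
# Cusps of `Γ₀(N)`

`card_orbits_T`: the orbits of the translations on `SL(2, ℤ) ⧸ Γ₀(N)` number `cuspCount N`. The
orbit of a first column `(a, c)` is classified by `d = gcd(c, N)` and a unit mod `gcd(d, N/d)`
(`cuspLevel_dvd_of_orbit`, `cuspOrbit_eq_of_dvd`).
-/

set_option autoImplicit false

noncomputable section

open CongruenceSubgroup ModularCurve
open scoped MatrixGroups

namespace FLTAgent.ModularPlaces

variable {N : ℕ} [NeZero N]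

theorem topEntry_T_zpow_mul (n : ℤ) (g : SL(2, ℤ)) :
    topEntry (ModularGroup.T ^ n * g) = topEntry g + n * botEntry g := by
  rw [topEntry_mul, ModularGroup.coe_T_zpow]; simp

theorem botEntry_T_zpow_mul (n : ℤ) (g : SL(2, ℤ)) :
    botEntry (ModularGroup.T ^ n * g) = botEntry g := by
  rw [botEntry_mul, ModularGroup.coe_T_zpow]; simp

/-- The orbit of a coset under the translations. -/
def cuspOrbit (N : ℕ) (g : SL(2, ℤ)) :
    MulAction.orbitRel.Quotient (Subgroup.zpowers ModularGroup.T) (SL(2, ℤ) ⧸ Gamma0 N) :=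
  Quotient.mk'' (g : SL(2, ℤ) ⧸ Gamma0 N)

omit [NeZero N] in
theorem cuspOrbit_surjective : Function.Surjective (cuspOrbit N) := by
  intro x
  obtain ⟨y, rfl⟩ := Quotient.mk''_surjective x
  obtain ⟨g, rfl⟩ := QuotientGroup.mk_surjective y
  exact ⟨g, rfl⟩

omit [NeZero N] in
theorem cuspOrbit_eq_iff (g g' : SL(2, ℤ)) :
    cuspOrbit N g = cuspOrbit N g' ↔ ∃ n : ℤ, (N : ℤ) ∣
      topEntry g * botEntry g' - topEntry g' * botEntry g + n * (botEntry g * botEntry g') := by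
  have key : ∀ n : ℤ, ((ModularGroup.T ^ n * g : SL(2, ℤ)) : SL(2, ℤ) ⧸ Gamma0 N) =
      (g' : SL(2, ℤ) ⧸ Gamma0 N) ↔ (N : ℤ) ∣
      topEntry g * botEntry g' - topEntry g' * botEntry g + n * (botEntry g * botEntry g') := by
    intro n
    rw [mk_eq_mk_iff, topEntry_T_zpow_mul, botEntry_T_zpow_mul]
    rw [show (topEntry g + n * botEntry g) * botEntry g' - topEntry g' * botEntry g =
      topEntry g * botEntry g' - topEntry g' * botEntry g + n * (botEntry g * botEntry g')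
      by ring]
  rw [cuspOrbit, cuspOrbit, Quotient.eq'', MulAction.orbitRel_apply]
  constructor
  · rintro ⟨⟨t, n, rfl⟩, ht⟩
    refine ⟨-n, (key (-n)).mp ?_⟩
    have h : (ModularGroup.T ^ n * g' : SL(2, ℤ)) = ((g : SL(2, ℤ)) : SL(2, ℤ) ⧸ Gamma0 N) := ht
    show ModularGroup.T ^ (-n) • (g : SL(2, ℤ) ⧸ Gamma0 N) = _
    rw [← h]
    show ((ModularGroup.T ^ (-n) * (ModularGroup.T ^ n * g') : SL(2, ℤ)) : SL(2, ℤ) ⧸ Gamma0 N) = _
    simp
  · rintro ⟨n, hn⟩
    refine ⟨⟨ModularGroup.T ^ (-n), -n, rfl⟩, ?_⟩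
    show ModularGroup.T ^ (-n) • (g' : SL(2, ℤ) ⧸ Gamma0 N) = _
    rw [← (key n).mpr hn]
    show ((ModularGroup.T ^ (-n) * (ModularGroup.T ^ n * g) : SL(2, ℤ)) : SL(2, ℤ) ⧸ Gamma0 N) = _
    simp

/-- The divisor of `N` attached to a cusp. -/
def cuspLevel (N : ℕ) (g : SL(2, ℤ)) : ℕ := Int.gcd (botEntry g) N

theorem cuspLevel_mem (g : SL(2, ℤ)) : cuspLevel N g ∈ N.divisors :=
  Nat.mem_divisors.mpr ⟨Int.natCast_dvd_natCast.mp (Int.gcd_dvd_right _ _), NeZero.ne N⟩

omit [NeZero N] in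
theorem cuspOrbit_eq_of_dvd {g g' : SL(2, ℤ)} {d : ℕ} {u u' : ℤ} (hd : d ∣ N)
    (hu : botEntry g = d * u) (hu' : botEntry g' = d * u')
    (hcop : IsCoprime u ((N / d : ℕ) : ℤ)) (hcop' : IsCoprime u' ((N / d : ℕ) : ℤ))
    (h : ((Nat.gcd d (N / d) : ℕ) : ℤ) ∣ topEntry g * u' - topEntry g' * u) :
    cuspOrbit N g = cuspOrbit N g' := by
  obtain ⟨q, hq⟩ := h
  have hb : ((Nat.gcd d (N / d) : ℕ) : ℤ) =
      d * Int.gcdA d (N / d : ℕ) + (N / d : ℕ) * Int.gcdB d (N / d : ℕ) := by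
    rw [← Int.gcd_natCast_natCast]; exact Int.gcd_eq_gcd_ab _ _
  obtain ⟨w, r, hw⟩ := hcop.mul_left hcop'
  refine (cuspOrbit_eq_iff g g').mpr ⟨-q * Int.gcdA d (N / d : ℕ) * w,
    q * Int.gcdB d (N / d : ℕ) + q * Int.gcdA d (N / d : ℕ) * r * d, ?_⟩
  have hN : (N : ℤ) = d * (N / d : ℕ) := by exact_mod_cast (Nat.mul_div_cancel' hd).symm
  rw [hu, hu', hN]
  linear_combination (d : ℤ) * hq + (d : ℤ) * q * hb +
    (-(d : ℤ) * d * q * Int.gcdA d (N / d : ℕ)) * hw

omit [NeZero N] in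
theorem cuspLevel_dvd_of_orbit {g g' : SL(2, ℤ)} (h : cuspOrbit N g = cuspOrbit N g') :
    cuspLevel N g ∣ cuspLevel N g' := by
  obtain ⟨n, hn⟩ := (cuspOrbit_eq_iff g g').mp h
  have hdN : (cuspLevel N g : ℤ) ∣ (N : ℤ) := Int.gcd_dvd_right _ _
  have hdc : (cuspLevel N g : ℤ) ∣ botEntry g := Int.gcd_dvd_left _ _
  refine Int.dvd_gcd ?_ hdN
  have hac : IsCoprime (cuspLevel N g : ℤ) (topEntry g) :=
    ((isCoprime_col g).of_isCoprime_of_dvd_right hdc).symm
  refine hac.dvd_of_dvd_mul_left ?_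
  have : (cuspLevel N g : ℤ) ∣ topEntry g * botEntry g' := by
    have h2 := dvd_sub (hdN.trans hn)
      ((dvd_mul_of_dvd_left hdc (n * botEntry g' - topEntry g')))
    rwa [show topEntry g * botEntry g' - topEntry g' * botEntry g + n * (botEntry g * botEntry g')
      - botEntry g * (n * botEntry g' - topEntry g') = topEntry g * botEntry g' by ring] at h2
  exact this

/-- A matrix with a prescribed first column. -/
def colMatrix' {a c : ℤ} (h : IsCoprime a c) : SL(2, ℤ) :=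
  ⟨!![a, -h.choose_spec.choose; c, h.choose], by
    simp [Matrix.det_fin_two_of]
    linarith [h.choose_spec.choose_spec]⟩

theorem topEntry_colMatrix' {a c : ℤ} (h : IsCoprime a c) : topEntry (colMatrix' h) = a := rfl

theorem botEntry_colMatrix' {a c : ℤ} (h : IsCoprime a c) : botEntry (colMatrix' h) = c := rfl

/-- The translation orbits on cosets are counted by `cuspCount`. -/
theorem card_orbits_T :
    Nat.card (MulAction.orbitRel.Quotient (Subgroup.zpowers ModularGroup.T)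
      (SL(2, ℤ) ⧸ Gamma0 N)) = cuspCount N := by
  classical
  have hne : ∀ d : N.divisors, NeZero (Nat.gcd d.1 (N / d.1)) := fun d =>
    ⟨(Nat.gcd_pos_of_pos_left _ (Nat.pos_of_mem_divisors d.2)).ne'⟩
  have hne' : ∀ d : N.divisors, NeZero d.1 := fun d => ⟨(Nat.pos_of_mem_divisors d.2).ne'⟩
  have hlift : ∀ (d : N.divisors) (v : (ZMod (Nat.gcd d.1 (N / d.1)))ˣ),
      ∃ a : ℤ, IsCoprime a d.1 ∧ (a : ZMod (Nat.gcd d.1 (N / d.1))) = v := by
    intro d v
    obtain ⟨w, rfl⟩ := ZMod.unitsMap_surjective (Nat.gcd_dvd_left d.1 (N / d.1)) v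
    refine ⟨((w : ZMod d.1).val : ℤ), ?_, ?_⟩
    · exact_mod_cast Nat.isCoprime_iff_coprime.mpr (ZMod.val_coe_unit_coprime w)
    · rw [ZMod.unitsMap_val, ZMod.cast_eq_val]; simp
  choose a ha hav using hlift
  let f : (Σ d : N.divisors, (ZMod (Nat.gcd d.1 (N / d.1)))ˣ) →
      MulAction.orbitRel.Quotient (Subgroup.zpowers ModularGroup.T) (SL(2, ℤ) ⧸ Gamma0 N) :=
    fun p => cuspOrbit N (colMatrix' (ha p.1 p.2))
  have hlev : ∀ p : (Σ d : N.divisors, (ZMod (Nat.gcd d.1 (N / d.1)))ˣ),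
      cuspLevel N (colMatrix' (ha p.1 p.2)) = p.1.1 := by
    intro p
    rw [cuspLevel, botEntry_colMatrix']
    simp only [Int.gcd_natCast_natCast]
    exact Nat.gcd_eq_left (Nat.dvd_of_mem_divisors p.1.2)
  have hcop : ∀ d : N.divisors, IsCoprime (1 : ℤ) ((N / d.1 : ℕ) : ℤ) := fun d => isCoprime_one_left
  have hbij : Function.Bijective f := by
    constructor
    · rintro ⟨d, v⟩ ⟨d', v'⟩ e
      have hdd : d = d' := Subtype.ext <| by
        have h1 := cuspLevel_dvd_of_orbit e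
        have h2 := cuspLevel_dvd_of_orbit e.symm
        rw [hlev ⟨d, v⟩, hlev ⟨d', v'⟩] at h1 h2
        exact Nat.dvd_antisymm h1 h2
      subst hdd
      congr 1
      apply Units.ext
      rw [← hav d v, ← hav d v']
      obtain ⟨n, hn⟩ := (cuspOrbit_eq_iff _ _).mp e
      rw [topEntry_colMatrix', topEntry_colMatrix', botEntry_colMatrix', botEntry_colMatrix'] at hn
      simp only [] at hn
      obtain ⟨m, hm⟩ : ∃ m : ℕ, m = N / d.1 := ⟨_, rfl⟩
      have hN : (N : ℤ) = (d.1 : ℤ) * m := by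
        rw [hm]; exact_mod_cast (Nat.mul_div_cancel' (Nat.dvd_of_mem_divisors d.2)).symm
      rw [hN, show a d v * (d.1 : ℤ) - a d v' * d.1 + n * ((d.1 : ℤ) * d.1) =
        (d.1 : ℤ) * (a d v - a d v' + n * d.1) by ring,
        mul_dvd_mul_iff_left (by exact_mod_cast (hne' d).1)] at hn
      have h3 : ((Nat.gcd d.1 m : ℕ) : ℤ) ∣ a d v - a d v' := by
        have h4 := dvd_sub ((Int.natCast_dvd_natCast.mpr (Nat.gcd_dvd_right d.1 m)).trans hn)
          ((Int.natCast_dvd_natCast.mpr (Nat.gcd_dvd_left d.1 m)).mul_left n)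
        simpa using h4
      rw [ZMod.intCast_eq_intCast_iff_dvd_sub, ← dvd_neg, neg_sub]
      rw [hm] at h3
      exact h3
    · intro x
      obtain ⟨g, rfl⟩ := cuspOrbit_surjective x
      obtain ⟨d, rfl⟩ : ∃ d : ℕ, d = cuspLevel N g := ⟨_, rfl⟩
      set d := cuspLevel N g with hd
      have hdN : d ∣ N := Nat.dvd_of_mem_divisors (cuspLevel_mem g)
      have hd0 : d ≠ 0 := (Nat.pos_of_mem_divisors (cuspLevel_mem g)).ne'
      obtain ⟨u, hu⟩ : (d : ℤ) ∣ botEntry g := Int.gcd_dvd_left _ _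
      set m := N / d with hm
      have hN : N = d * m := (Nat.mul_div_cancel' hdN).symm
      have hum : IsCoprime u (m : ℤ) := by
        rw [Int.isCoprime_iff_gcd_eq_one]
        have h : d = Int.gcd (botEntry g) N := hd
        rw [hu, hN, Nat.cast_mul, Int.gcd_mul_left] at h
        simpa [hd0] using h
      have hug : IsUnit ((u : ℤ) : ZMod (Nat.gcd d m)) :=
        (ZMod.coe_int_isUnit_iff_isCoprime _ _).mpr
          (hum.of_isCoprime_of_dvd_right (Int.natCast_dvd_natCast.mpr (Nat.gcd_dvd_right d m))).symm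
      have hag : IsUnit ((topEntry g : ℤ) : ZMod (Nat.gcd d m)) :=
        (ZMod.coe_int_isUnit_iff_isCoprime _ _).mpr
          (((isCoprime_col g).of_isCoprime_of_dvd_right (Dvd.intro u hu.symm)).of_isCoprime_of_dvd_right
            (Int.natCast_dvd_natCast.mpr (Nat.gcd_dvd_left d m))).symm
      let v : (ZMod (Nat.gcd d m))ˣ := hag.unit * hug.unit⁻¹
      let D : N.divisors := ⟨d, cuspLevel_mem g⟩
      refine ⟨⟨D, v⟩, ?_⟩
      show cuspOrbit N (colMatrix' (ha D v)) = cuspOrbit N g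
      refine cuspOrbit_eq_of_dvd hdN (u := 1) (u' := u) ?_ hu isCoprime_one_left hum ?_
      · rw [botEntry_colMatrix', mul_one]
      · rw [← ZMod.intCast_zmod_eq_zero_iff_dvd, topEntry_colMatrix']
        push_cast
        rw [hav D v]
        show (((hag.unit * hug.unit⁻¹ : (ZMod (Nat.gcd d m))ˣ)) : ZMod (Nat.gcd d m)) * _ - _ = 0
        rw [Units.val_mul, mul_assoc, IsUnit.val_inv_mul, IsUnit.unit_spec, mul_one,
          sub_self]
  rw [← Nat.card_eq_of_bijective f hbij, Nat.card_sigma, cuspCount]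
  rw [← Finset.sum_attach N.divisors (fun d => Nat.totient (Nat.gcd d (N / d))),
    ← Finset.univ_eq_attach]
  refine Finset.sum_congr rfl fun d _ => ?_
  rw [Nat.card_eq_fintype_card, ZMod.card_units_eq_totient]

end FLTAgent.ModularPlaces
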