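import Fermat.Agent.ModularPlaces.JMapLocal

/-!
# Elliptic points of `SL(2, ℤ)`

`S` fixes `i` and `ST` fixes `ρ`, `j(i) = 1728`, `j(ρ) = 0`, and `ellOrder 1` is `2` at `i`, `3`
at `ρ` and `1` at points with other values of `j` (`ellOrder_one_I`, `ellOrder_one_rho`,
`ellOrder_one_generic`), using the stabilisers in the fundamental domain.
-/

set_option autoImplicit false

noncomputable section

open UpperHalfPlane Filter Topology ModularGroup
open scoped MatrixGroups

namespace FLTAgent.ModularPlaces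

open FLTAgent.Modular

theorem den_S (z : ℂ) : den S z = z := by
  simp [den, coe_S]

theorem den_ST (z : ℂ) : den (S * T) z = z + 1 := by
  simp [den, coe_S, coe_T, Matrix.mul_apply, Fin.sum_univ_two]

theorem S_smul_I : S • UpperHalfPlane.I = UpperHalfPlane.I :=
  stabilizer_I.mpr (by simp)

theorem ST_smul_rho : (S * T) • UpperHalfPlane.ρ = UpperHalfPlane.ρ :=
  stabilizer_ρ.mpr (by simp)

theorem jE_I : jE UpperHalfPlane.I = 1728 := by
  have h := levelOne_smul ModularForm.E₆ S UpperHalfPlane.I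
  rw [S_smul_I, den_S, coe_I] at h
  have h6 : ModularForm.E₆ UpperHalfPlane.I = 0 := by
    have hI : Complex.I ^ ((6 : ℕ) : ℤ) = -1 := by
      rw [zpow_natCast, show (6 : ℕ) = 2 + 2 + 2 from rfl, pow_add, pow_add, Complex.I_sq]; norm_num
    norm_num at hI
    norm_num [hI] at h
    linear_combination h / 2
  have hΔ := ModularForm.discriminant_eq_E₄_cube_sub_E₆_sq UpperHalfPlane.I
  rw [h6] at hΔ
  rw [jE, div_eq_iff (ModularForm.discriminant_ne_zero _), hΔ]
  ring

theorem jE_rho : jE UpperHalfPlane.ρ = 0 := by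
  have h := levelOne_smul ModularForm.E₄ (S * T) UpperHalfPlane.ρ
  rw [ST_smul_rho, den_ST] at h
  set u : ℂ := (UpperHalfPlane.ρ : ℂ) + 1 with hu
  have hu2 : u ^ 2 = u - 1 := by
    have h3 : ((Real.sqrt 3 : ℝ) : ℂ) ^ 2 = 3 := by
      exact_mod_cast Real.sq_sqrt (show (0 : ℝ) ≤ 3 by norm_num)
    have hre : u = 1 / 2 + ((Real.sqrt 3 : ℝ) : ℂ) / 2 * Complex.I := by
      rw [hu]
      apply Complex.ext <;> simp [UpperHalfPlane.ρ]
      norm_num
    rw [hre]
    linear_combination (Complex.I ^ 2 / 4) * h3 + (3 / 4 : ℂ) * Complex.I_sq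
  have h4 : u ^ (4 : ℤ) = -u := by
    rw [show (4 : ℤ) = ((4 : ℕ) : ℤ) from rfl, zpow_natCast]
    linear_combination (u ^ 2 + u) * hu2
  rw [h4] at h
  have him : u.im ≠ 0 := by
    rw [hu]
    simpa using UpperHalfPlane.ρ.im_pos.ne'
  have h0 : ModularForm.E₄ UpperHalfPlane.ρ = 0 := by
    by_contra hne
    apply him
    have : u = -1 := by
      have h' : (u + 1) * ModularForm.E₄ UpperHalfPlane.ρ = 0 := by linear_combination h
      linear_combination (mul_eq_zero.mp h').resolve_right hne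
    simp [this]
  rw [jE, h0]
  simp

theorem ellOrder_one_I : ellOrder 1 UpperHalfPlane.I = 2 := by
  have h := ellOrder_one_eq UpperHalfPlane.I
  rw [Nat.card_congr (Equiv.subtypeEquivRight (q := fun g => g ∈ ({1, -1, S, -S} : Finset SL(2, ℤ)))
    fun g => MulAction.mem_stabilizer_iff.trans stabilizer_I)] at h
  rw [Nat.card_eq_fintype_card, Fintype.card_coe] at h
  have h4 : ({1, -1, S, -S} : Finset SL(2, ℤ)).card = 4 := by decide
  omega

theorem ellOrder_one_rho : ellOrder 1 UpperHalfPlane.ρ = 3 := by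
  have h := ellOrder_one_eq UpperHalfPlane.ρ
  rw [Nat.card_congr (Equiv.subtypeEquivRight
    (q := fun g => g ∈ ({1, -1, S * T, -(S * T), T⁻¹ * S, -(T⁻¹ * S)} : Finset SL(2, ℤ)))
    fun g => MulAction.mem_stabilizer_iff.trans stabilizer_ρ)] at h
  rw [Nat.card_eq_fintype_card, Fintype.card_coe] at h
  have h6 : ({1, -1, S * T, -(S * T), T⁻¹ * S, -(T⁻¹ * S)} : Finset SL(2, ℤ)).card = 6 := by decide
  omega

theorem stabilizer_generic {z : ℍ} (h0 : jE z ≠ 0) (h1 : jE z ≠ 1728) {g : SL(2, ℤ)}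
    (hg : g • z = z) : g = 1 ∨ g = -1 := by
  obtain ⟨s, hs⟩ := exists_smul_mem_fd z
  have hj : jE (s • z) = jE z := jE_smul s z
  have hI : s • z ≠ UpperHalfPlane.I := fun h => h1 (by rw [← hj, h, jE_I])
  have hρ : s • z ≠ UpperHalfPlane.ρ := fun h => h0 (by rw [← hj, h, jE_rho])
  have hρ' : s • z ≠ (1 : ℝ) +ᵥ UpperHalfPlane.ρ := fun h => h0 (by
    rw [← hj, h, ← modular_T_smul, jE_smul, jE_rho])
  have hfix : (s * g * s⁻¹) • (s • z) = s • z := by
    rw [← mul_smul, inv_mul_cancel_right, mul_smul, hg]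
  rcases stabilizer_of_ne hs hfix hI hρ hρ' with h | h
  · left
    rw [show g = s⁻¹ * (s * g * s⁻¹) * s by group, h]
    group
  · right
    rw [show g = s⁻¹ * (s * g * s⁻¹) * s by group, h, mul_neg, mul_one, neg_mul, inv_mul_cancel]

theorem ellOrder_one_generic {z : ℍ} (h0 : jE z ≠ 0) (h1 : jE z ≠ 1728) : ellOrder 1 z = 1 := by
  have h := ellOrder_one_eq z
  rw [Nat.card_congr (Equiv.subtypeEquivRight (q := fun g => g ∈ ({1, -1} : Finset SL(2, ℤ)))
    fun g => ?_)] at h
  · rw [Nat.card_eq_fintype_card, Fintype.card_coe] at h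
    have h2 : ({1, -1} : Finset SL(2, ℤ)).card = 2 := by decide
    omega
  · rw [MulAction.mem_stabilizer_iff, Finset.mem_insert, Finset.mem_singleton]
    refine ⟨stabilizer_generic h0 h1, ?_⟩
    rintro (rfl | rfl)
    · exact one_smul _ _
    · rw [ModularGroup.SL_neg_smul, one_smul]

end FLTAgent.ModularPlaces
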