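import Mathlib

/-!
# Fibres of a map constant on orbits

`orbit_fibres`: for a map on a finite `G`-set constant on orbits, with multiplicities bounded by
orbit sizes and adding up to the size of the set, the fibres are exactly the orbits and the
multiplicities their sizes. `card_image_eq_card_orbits` and `mul_card_image` count the image.
-/

set_option autoImplicit false

open MulAction Finset

namespace FLTAgent.ModularPlaces

variable {G X P : Type*} [Group G] [MulAction G X] [Fintype X] [DecidableEq P]

theorem card_orbit_le_fibre (f : X → P) (hf : ∀ (g : G) (x : X), f (g • x) = f x) (x : X) :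
    Nat.card (orbit G x) ≤ #{y | f y = f x} := by
  classical
  rw [← Fintype.card_subtype, ← Nat.card_eq_fintype_card]
  refine Nat.card_le_card_of_injective (fun y => ⟨y.1, ?_⟩) fun a b h => Subtype.ext ?_
  · obtain ⟨g, hg⟩ := y.2
    rw [← hg]
    exact hf g x
  · simpa using h

theorem orbit_fibres (f : X → P) (m : P → ℕ) (hf : ∀ (g : G) (x : X), f (g • x) = f x)
    (hle : ∀ x, m (f x) ≤ Nat.card (orbit G x))
    (hsum : ∑ v ∈ univ.image f, m v = Fintype.card X) :
    (∀ x, m (f x) = Nat.card (orbit G x) ∧ m (f x) = #{y | f y = f x}) ∧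
      (∀ x y, f x = f y ↔ x ∈ orbit G y) := by
  classical
  have hfib : ∀ v ∈ univ.image f, m v ≤ #{y | f y = v} := by
    intro v hv
    obtain ⟨x, -, rfl⟩ := mem_image.mp hv
    exact (hle x).trans (card_orbit_le_fibre f hf x)
  have htot : ∑ v ∈ univ.image f, #{y | f y = v} = Fintype.card X :=
    (card_eq_sum_card_image f univ).symm
  have heq := (sum_eq_sum_iff_of_le hfib).mp (hsum.trans htot.symm)
  have h1 : ∀ x, m (f x) = Nat.card (orbit G x) ∧ m (f x) = #{y | f y = f x} := fun x => by
    have := heq _ (mem_image_of_mem f (mem_univ x))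
    refine ⟨le_antisymm (hle x) ?_, this⟩
    rw [this]
    exact card_orbit_le_fibre f hf x
  refine ⟨h1, fun x y => ⟨fun h => ?_, fun h => ?_⟩⟩
  · have hsub : (orbit G y).toFinset ⊆ univ.filter (fun z => f z = f y) := by
      intro z hz
      obtain ⟨g, rfl⟩ := Set.mem_toFinset.mp hz
      simpa using hf g y
    have hcard : #(univ.filter fun z => f z = f y) ≤ #(orbit G y).toFinset := by
      rw [← (h1 y).2, (h1 y).1, Set.toFinset_card, Nat.card_eq_fintype_card]
    have := eq_of_subset_of_card_le hsub hcard
    rw [← Set.mem_toFinset, this]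
    simp [h]
  · obtain ⟨g, rfl⟩ := h
    exact hf g y

theorem card_image_eq_card_orbits (f : X → P) (hf : ∀ x y, f x = f y ↔ x ∈ orbit G y) :
    #(univ.image f) = Nat.card (orbitRel.Quotient G X) := by
  classical
  rw [← Fintype.card_coe, ← Nat.card_eq_fintype_card]
  refine (Nat.card_congr (Equiv.ofBijective
    (Quotient.lift (fun x => (⟨f x, mem_image_of_mem f (mem_univ x)⟩ : ↥(univ.image f)))
      fun x y h => Subtype.ext ((hf x y).mpr h)) ⟨?_, ?_⟩)).symm
  · intro a b h
    induction a using Quotient.inductionOn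
    induction b using Quotient.inductionOn
    exact Quotient.sound ((hf _ _).mp (congrArg Subtype.val h))
  · rintro ⟨v, hv⟩
    obtain ⟨x, -, rfl⟩ := mem_image.mp hv
    exact ⟨Quotient.mk _ x, rfl⟩

/-- The number of fibres when the multiplicities are `1` or `k`. -/
theorem mul_card_image (f : X → P) (m : P → ℕ) (k : ℕ)
    (hm : ∀ x, m (f x) = #{y | f y = f x}) (hk : ∀ x, m (f x) = 1 ∨ m (f x) = k) :
    k * #(univ.image f) + #{x | m (f x) = 1}
      = Fintype.card X + k * #{x | m (f x) = 1} := by
  classical
  have h1 : #{x | m (f x) = 1} = ∑ v ∈ univ.image f, #{x ∈ univ.filter (fun x => m (f x) = 1) | f x = v} :=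
    card_eq_sum_card_fiberwise fun x _ => mem_coe.mpr (mem_image_of_mem f (mem_univ x))
  have h2 : Fintype.card X = ∑ v ∈ univ.image f, #{y | f y = v} := card_eq_sum_card_image f univ
  rw [h1, h2, mul_sum, mul_comm k, card_eq_sum_ones, sum_mul, ← sum_add_distrib, ← sum_add_distrib]
  refine sum_congr rfl fun v hv => ?_
  obtain ⟨x, -, rfl⟩ := mem_image.mp hv
  rw [filter_filter]
  by_cases h : m (f x) = 1
  · have : univ.filter (fun y => m (f y) = 1 ∧ f y = f x) = univ.filter (fun y => f y = f x) := by
      refine filter_congr fun y _ => ?_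
      exact ⟨And.right, fun hy => ⟨by rw [hy, h], hy⟩⟩
    rw [this, ← hm x, h]
    ring
  · have : univ.filter (fun y => m (f y) = 1 ∧ f y = f x) = ∅ := by
      refine filter_eq_empty_iff.mpr fun y _ hy => h ?_
      rw [← hy.2, hy.1]
    rw [this, card_empty, ← hm x, (hk x).resolve_left h]
    simp

end FLTAgent.ModularPlaces
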