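import Fermat.Agent.ModularPlaces.Exhaust
import Fermat.Agent.ModularPlaces.OrbitCount
import Fermat.Agent.ModularPlaces.EllipticPoints
import Fermat.Agent.ModularPlaces.CuspCount
import Fermat.Agent.ModularPlaces.Counting

/-!
# The fibres of `j` on the places

Places are the `Γ₀(N)`-orbits of points and the cusps (`placeZ_or_placeCusp`, `placeZ_eq_iff`,
`placeCusp_eq_iff`), `degZ = ellOrder N` and `degCusp = 1` (`degZ_eq`, `degCusp_eq_one`).
Comparing `∑ e_v = dedekindPsi N` with orbit sizes on the cosets gives this (`fibre_structure`,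
`cusp_structure`), and the number of places over `i`, `ρ`, `∞` (`card_placesOver_I`,
`card_placesOver_rho`, `card_placesInf`).
-/

set_option autoImplicit false

noncomputable section

open UpperHalfPlane CongruenceSubgroup Filter Topology Function AlgebraicCurve ModularCurve
open scoped MatrixGroups

namespace FLTAgent.ModularPlaces

open FLTAgent.Modular

variable {N : ℕ} [NeZero N]

local notation "E" y => ev ((y : FC N) : LaurentSeries ℂ)

theorem transcendental_jC_sub (c : ℂ) : Transcendental ℂ (jC N - algebraMap ℂ (FC N) c) :=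
  fun h => transcendental_jC N (by simpa using h.add (isAlgebraic_algebraMap c))

theorem adjoin_jC_sub (c : ℂ) :
    IntermediateField.adjoin ℂ ({jC N - algebraMap ℂ (FC N) c} : Set (FC N))
      = IntermediateField.adjoin ℂ ({jC N} : Set (FC N)) := by
  refine le_antisymm ?_ ?_ <;> rw [IntermediateField.adjoin_simple_le_iff]
  · exact sub_mem (IntermediateField.mem_adjoin_simple_self ℂ _)
      (IntermediateField.algebraMap_mem _ c)
  · have := add_mem (IntermediateField.mem_adjoin_simple_self ℂ (jC N - algebraMap ℂ (FC N) c))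
      (IntermediateField.algebraMap_mem _ c)
    simpa using this

theorem sum_ord_eq_psi (c : ℂ) (s : Finset (Place ℂ (FC N)))
    (hs : ∀ v : Place ℂ (FC N), 0 < v.ord (jC N - algebraMap ℂ (FC N) c) → v ∈ s) :
    ∑ v ∈ s, max 0 (v.ord (jC N - algebraMap ℂ (FC N) c)) = (dedekindPsi N : ℤ) := by
  have ht := transcendental_jC_sub (N := N) c
  have := FF.isSeparable_adjoin_of_charZero ht
  have h := FF.degree_zeroDivisor ht
  rw [FF.degree_eq_sum, Finsupp.sum_of_support_subset _ (s := s) (fun v hv => hs v ?_) _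
    (fun _ _ => rfl)] at h
  · simp only [FF.zeroDivisor_apply] at h
    rw [h, congrArg (fun K : IntermediateField ℂ (FC N) => (Module.finrank K (FC N) : ℤ))
      (adjoin_jC_sub c), finrank_jC]
  · have := Finsupp.mem_support_iff.mp hv
    rw [FF.zeroDivisor_apply] at this
    omega

theorem sum_pole_eq_psi (s : Finset (Place ℂ (FC N)))
    (hs : ∀ v : Place ℂ (FC N), v.ord (jC N) < 0 → v ∈ s) :
    ∑ v ∈ s, max 0 (-v.ord (jC N)) = (dedekindPsi N : ℤ) := by
  have := FF.isSeparable_adjoin_of_charZero (transcendental_jC N)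
  have h := FF.degree_poleDivisor (transcendental_jC N)
  rw [FF.degree_eq_sum, Finsupp.sum_of_support_subset _ (s := s) (fun v hv => hs v ?_) _
    (fun _ _ => rfl), finrank_jC] at h
  · simp only [FF.poleDivisor_apply] at h
    exact h
  · have := Finsupp.mem_support_iff.mp hv
    rw [FF.poleDivisor_apply] at this
    omega

/-! ### Points -/

theorem mk_smul_eq_iff (s γ : SL(2, ℤ)) :
    s • (γ : Cos N) = (γ : Cos N) ↔ γ⁻¹ * s * γ ∈ Gamma0 N := by
  show ((s * γ : SL(2, ℤ)) : Cos N) = _ ↔ _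
  rw [QuotientGroup.eq, ← inv_mem_iff]
  simp [mul_assoc]

theorem card_orbit_mul_ellOrder (z : ℍ) (γ : SL(2, ℤ)) :
    Nat.card (MulAction.orbit (MulAction.stabilizer SL(2, ℤ) z) (γ : Cos N))
      * ellOrder N (γ⁻¹ • z) = ellOrder 1 z := by
  classical
  have := finite_stabilizer z
  let := Fintype.ofFinite (MulAction.stabilizer SL(2, ℤ) z)
  have h := MulAction.card_orbit_mul_card_stabilizer_eq_card_group
    (MulAction.stabilizer SL(2, ℤ) z) (γ : Cos N)
  rw [← Nat.card_eq_fintype_card, ← Nat.card_eq_fintype_card, ← Nat.card_eq_fintype_card,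
    ellOrder_one_eq] at h
  have e : Nat.card (MulAction.stabilizer (MulAction.stabilizer SL(2, ℤ) z) (γ : Cos N))
      = Nat.card {g : Gamma0 N // (g : SL(2, ℤ)) • (γ⁻¹ • z) = γ⁻¹ • z} := by
    refine Nat.card_congr
      { toFun := fun s => ⟨⟨γ⁻¹ * (s.1 : SL(2, ℤ)) * γ, (mk_smul_eq_iff _ γ).mp s.2⟩, ?_⟩
        invFun := fun g => ⟨⟨γ * (g.1 : SL(2, ℤ)) * γ⁻¹, ?_⟩, ?_⟩
        left_inv := fun s => Subtype.ext (Subtype.ext ?_)
        right_inv := fun g => Subtype.ext (Subtype.ext ?_) }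
    · show (γ⁻¹ * (s.1 : SL(2, ℤ)) * γ) • (γ⁻¹ • z) = γ⁻¹ • z
      rw [← mul_smul, mul_inv_cancel_right, mul_smul, s.1.2]
    · show (γ * (g.1 : SL(2, ℤ)) * γ⁻¹) • z = z
      rw [mul_smul, mul_smul, g.2, smul_inv_smul]
    · show (γ * (g.1 : SL(2, ℤ)) * γ⁻¹) • (γ : Cos N) = (γ : Cos N)
      rw [mk_smul_eq_iff]
      simp [mul_assoc]
    · show γ * (γ⁻¹ * (s.1 : SL(2, ℤ)) * γ) * γ⁻¹ = _
      group
    · show γ⁻¹ * (γ * (g.1 : SL(2, ℤ)) * γ⁻¹) * γ = _
      group
  rw [e, card_fixed_eq] at h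
  linarith

theorem ellOrder_one_eq_of_jE {z w : ℍ} (h : jE w = jE z) : ellOrder 1 w = ellOrder 1 z := by
  obtain ⟨γ, rfl⟩ := jE_injective_mod h
  have h1 := ellOrder_one_eq w
  have h2 := ellOrder_one_eq (γ • w)
  have := Nat.card_congr (MulAction.stabilizerEquivStabilizer (g := γ) (a := w) rfl).toEquiv
  omega

/-- The place attached to a coset over `z`. -/
def fibreMap (z : ℍ) (x : Cos N) : Place ℂ (FC N) := placeZ (x.out⁻¹ • z)

theorem fibreMap_mk (z : ℍ) (γ : SL(2, ℤ)) :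
    fibreMap z (γ : Cos N) = placeZ (γ⁻¹ • z) := by
  obtain ⟨g, hg⟩ := QuotientGroup.mk_out_eq_mul (Gamma0 N) γ
  rw [fibreMap, hg, mul_inv_rev, mul_smul]
  exact placeZ_smul (inv_mem g.2) _

theorem fibreMap_smul (z : ℍ) (s : MulAction.stabilizer SL(2, ℤ) z) (x : Cos N) :
    fibreMap z (s • x) = fibreMap z x := by
  induction x using QuotientGroup.induction_on with
  | _ γ =>
    show fibreMap z (((s : SL(2, ℤ)) * γ : SL(2, ℤ)) : Cos N) = _
    rw [fibreMap_mk, fibreMap_mk, mul_inv_rev, mul_smul, inv_smul_eq_iff.mpr s.2.symm]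

/-- The multiplicity over `j = a`. -/
def multAt (a : ℂ) (v : Place ℂ (FC N)) : ℕ := (v.ord (jC N - algebraMap ℂ (FC N) a)).toNat

theorem degZ_mul_ord (z : ℍ) (γ : SL(2, ℤ)) :
    (degZ N (γ⁻¹ • z) : ℤ) * (fibreMap z (γ : Cos N)).ord (jC N - algebraMap ℂ (FC N) (jE z))
      = ellOrder 1 z := by
  rw [fibreMap_mk, ← ord_placeZ _ (jC_sub_ne_zero _), ← ellOrder_one_eq_of_jE (jE_smul γ⁻¹ z),
    ← ordH_jC_sub (N := N) (γ⁻¹ • z), jE_smul]

theorem ord_fibreMap_pos (z : ℍ) (x : Cos N) :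
    0 < (fibreMap z x).ord (jC N - algebraMap ℂ (FC N) (jE z)) := by
  induction x using QuotientGroup.induction_on with
  | _ γ =>
    have h := degZ_mul_ord (N := N) z γ
    by_contra hc
    have := mul_nonpos_of_nonneg_of_nonpos (Int.natCast_nonneg (degZ N (γ⁻¹ • z))) (not_lt.mp hc)
    have := ellOrder_pos 1 z
    omega

theorem degZ_mul_multAt (z : ℍ) (γ : SL(2, ℤ)) :
    degZ N (γ⁻¹ • z) * multAt (jE z) (fibreMap z (γ : Cos N)) = ellOrder 1 z := by
  have h := degZ_mul_ord (N := N) z γ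
  have h' := ord_fibreMap_pos (N := N) z (γ : Cos N)
  rw [multAt]
  have : ((((fibreMap z (γ : Cos N)).ord (jC N - algebraMap ℂ (FC N) (jE z))).toNat : ℕ) : ℤ)
      = (fibreMap z (γ : Cos N)).ord (jC N - algebraMap ℂ (FC N) (jE z)) := Int.toNat_of_nonneg h'.le
  rw [← this] at h
  exact_mod_cast h

open Classical in
/-- The places over `j = jE z`. -/
def placesOver (N : ℕ) [NeZero N] (z : ℍ) : Finset (Place ℂ (FC N)) :=
  Finset.univ.image (fibreMap (N := N) z)

theorem mem_placesOver {z : ℍ} {v : Place ℂ (FC N)} :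
    v ∈ placesOver N z ↔ 0 < v.ord (jC N - algebraMap ℂ (FC N) (jE z)) := by
  classical
  rw [placesOver, Finset.mem_image]
  constructor
  · rintro ⟨x, -, rfl⟩
    exact ord_fibreMap_pos z x
  · intro h
    obtain ⟨x, hx⟩ := exists_placeZ_eq v z h
    exact ⟨x, Finset.mem_univ x, hx⟩

theorem sum_multAt (z : ℍ) : ∑ v ∈ placesOver N z, multAt (jE z) v = dedekindPsi N := by
  have h := sum_ord_eq_psi (N := N) (jE z) (placesOver N z) fun v hv => mem_placesOver.mpr hv
  rw [← Nat.cast_inj (R := ℤ), ← h, Nat.cast_sum]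
  refine Finset.sum_congr rfl fun v _ => ?_
  rw [multAt, Int.ofNat_toNat, max_comm]

open Classical in
theorem fibre_structure (z : ℍ) :
    (∀ x : Cos N, multAt (jE z) (fibreMap z x)
        = Nat.card (MulAction.orbit (MulAction.stabilizer SL(2, ℤ) z) x) ∧
      multAt (jE z) (fibreMap z x) = (Finset.univ.filter fun y => fibreMap z y = fibreMap z x).card) ∧
    ∀ x y : Cos N, fibreMap z x = fibreMap z y ↔
      x ∈ MulAction.orbit (MulAction.stabilizer SL(2, ℤ) z) y := by
  refine orbit_fibres (fibreMap z) (multAt (jE z)) (fibreMap_smul z) (fun x => ?_) ?_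
  · induction x using QuotientGroup.induction_on with
    | _ γ =>
      have h1 := degZ_mul_multAt (N := N) z γ
      have h2 := card_orbit_mul_ellOrder (N := N) z γ
      have h3 := Nat.le_of_dvd (degZ_pos _) (ellOrder_dvd_degZ (N := N) (γ⁻¹ • z))
      refine Nat.le_of_mul_le_mul_right ?_ (ellOrder_pos N (γ⁻¹ • z))
      rw [h2, ← h1, mul_comm (degZ N _)]
      exact Nat.mul_le_mul_left _ h3
  · rw [← placesOver, sum_multAt, ← card_cos, Nat.card_eq_fintype_card]

/-- The factor at a point is the order of its elliptic stabiliser. -/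
theorem degZ_eq (z : ℍ) : degZ N z = ellOrder N z := by
  have h1 := degZ_mul_multAt (N := N) z 1
  have h2 := card_orbit_mul_ellOrder (N := N) z 1
  rw [((fibre_structure z).1 _).1, ← h2, inv_one, one_smul, mul_comm (Nat.card _)] at h1
  refine Nat.eq_of_mul_eq_mul_right ?_ h1
  exact @Nat.card_pos _ ⟨⟨_, MulAction.mem_orbit_self _⟩⟩ _

/-- Two points give the same place iff they are `Γ₀(N)`-equivalent. -/
theorem placeZ_eq_iff (z z' : ℍ) :
    (placeZ z : Place ℂ (FC N)) = placeZ z' ↔ ∃ γ : Gamma0 N, (γ : SL(2, ℤ)) • z = z' := by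
  constructor
  · intro h
    have p1 : 0 < (placeZ z : Place ℂ (FC N)).ord (jC N - algebraMap ℂ (FC N) (jE z)) := by
      simpa [fibreMap_mk] using ord_fibreMap_pos (N := N) z ((1 : SL(2, ℤ)) : Cos N)
    have p2 : 0 < (placeZ z' : Place ℂ (FC N)).ord (jC N - algebraMap ℂ (FC N) (jE z')) := by
      simpa [fibreMap_mk] using ord_fibreMap_pos (N := N) z' ((1 : SL(2, ℤ)) : Cos N)
    rw [← h] at p2
    have hj : jE z = jE z' := by
      by_contra hne
      set v : Place ℂ (FC N) := placeZ z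
      have hc : algebraMap ℂ (FC N) (jE z' - jE z) ≠ 0 :=
        fun hh => hne (by
          have := (algebraMap ℂ (FC N)).injective (hh.trans (map_zero _).symm)
          exact (sub_eq_zero.mp this).symm)
      have h0 := FF.ord_algebraMap v (jE z' - jE z)
      have hlt : (jC N - algebraMap ℂ (FC N) (jE z') = 0) ∨
          v.ord (algebraMap ℂ (FC N) (jE z' - jE z)) < v.ord (jC N - algebraMap ℂ (FC N) (jE z')) :=
        Or.inr (by rw [h0]; exact p2)
      have h2 := (FF.ord_add_of_lt v hc hlt).2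
      rw [show algebraMap ℂ (FC N) (jE z' - jE z) + (jC N - algebraMap ℂ (FC N) (jE z'))
          = jC N - algebraMap ℂ (FC N) (jE z) by rw [map_sub]; ring, h0] at h2
      omega
    obtain ⟨γ, rfl⟩ := jE_injective_mod hj
    have hf : fibreMap z ((γ⁻¹ : SL(2, ℤ)) : Cos N) = fibreMap z ((1 : SL(2, ℤ)) : Cos N) := by
      rw [fibreMap_mk, fibreMap_mk, inv_inv, inv_one, one_smul, h]
    obtain ⟨s, hs⟩ := ((fibre_structure z).2 _ _).mp hf
    have hs' : (((s : SL(2, ℤ)) * 1 : SL(2, ℤ)) : Cos N) = ((γ⁻¹ : SL(2, ℤ)) : Cos N) := hs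
    rw [mul_one, QuotientGroup.eq] at hs'
    refine ⟨⟨γ * s, ?_⟩, ?_⟩
    · simpa using inv_mem hs'
    · show (γ * (s : SL(2, ℤ))) • z = γ • z
      rw [mul_smul, s.2]
  · rintro ⟨γ, rfl⟩
    exact (placeZ_smul γ.2 z).symm

/-- Over `j = jE z`, when all ramification indices are `1` or `k`, with `p` fixed cosets. -/
theorem card_placesOver (z : ℍ) {k : ℕ} (hk : ellOrder 1 z = k) (hk1 : k = 1 ∨ k.Prime) :
    k * (placesOver N z).card
      + Nat.card {x : Cos N // ∀ s ∈ MulAction.stabilizer SL(2, ℤ) z, s • x = x}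
      = dedekindPsi N
      + k * Nat.card {x : Cos N // ∀ s ∈ MulAction.stabilizer SL(2, ℤ) z, s • x = x} := by
  classical
  obtain ⟨h1, -⟩ := fibre_structure (N := N) z
  have h := mul_card_image (fibreMap z) (multAt (jE z)) k (fun x => (h1 x).2) fun x => ?_
  · rw [← card_cos, Nat.card_eq_fintype_card, Nat.card_eq_fintype_card, Fintype.card_subtype,
      placesOver]
    have hfix : ∀ x : Cos N, multAt (jE z) (fibreMap z x) = 1 ↔
        ∀ s ∈ MulAction.stabilizer SL(2, ℤ) z, s • x = x := fun x => by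
      rw [(h1 x).1, Nat.card_eq_one_iff_unique]
      constructor
      · rintro ⟨hsub, -⟩ s hs
        exact congrArg Subtype.val (hsub.elim ⟨_, MulAction.mem_orbit x (⟨s, hs⟩ : MulAction.stabilizer SL(2, ℤ) z)⟩ ⟨x, MulAction.mem_orbit_self x⟩)
      · refine fun hx => ⟨⟨fun a b => Subtype.ext ?_⟩, ⟨⟨x, MulAction.mem_orbit_self x⟩⟩⟩
        obtain ⟨⟨s, hs⟩, hsa⟩ := a.2
        obtain ⟨⟨t, ht⟩, htb⟩ := b.2
        rw [← hsa, ← htb]
        exact (hx s hs).trans (hx t ht).symm
    rw [Finset.filter_congr (fun x _ => (hfix x).symm)]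
    exact h
  · induction x using QuotientGroup.induction_on with
    | _ γ =>
      have h2 := card_orbit_mul_ellOrder (N := N) z γ
      rw [← (h1 _).1, hk] at h2
      have hd : multAt (jE z) (fibreMap z (γ : Cos N)) ∣ k := ⟨_, h2.symm⟩
      rcases hk1 with rfl | hp
      · exact Or.inl (Nat.dvd_one.mp hd)
      · exact hp.eq_one_or_self_of_dvd _ hd

theorem neg_one_smul_cos (x : Cos N) : (-1 : SL(2, ℤ)) • x = x := by
  induction x using QuotientGroup.induction_on with
  | _ γ =>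
    rw [mk_smul_eq_iff, mul_neg, mul_one, neg_mul, inv_mul_cancel]
    simp [Gamma0_mem]

theorem neg_smul_cos (s : SL(2, ℤ)) (x : Cos N) : (-s) • x = s • x := by
  rw [← neg_one_mul, mul_smul, neg_one_smul_cos]

theorem fixed_iff_I (x : Cos N) :
    (∀ s ∈ MulAction.stabilizer SL(2, ℤ) UpperHalfPlane.I, s • x = x) ↔
      ModularGroup.S • x = x := by
  refine ⟨fun hx => hx _ (MulAction.mem_stabilizer_iff.mpr S_smul_I), fun hx s hs => ?_⟩
  have := ModularGroup.stabilizer_I.mp (MulAction.mem_stabilizer_iff.mp hs)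
  simp only [Finset.mem_insert, Finset.mem_singleton] at this
  rcases this with rfl | rfl | rfl | rfl
  · exact one_smul _ _
  · exact neg_one_smul_cos x
  · exact hx
  · rw [neg_smul_cos, hx]

theorem fixed_iff_rho (x : Cos N) :
    (∀ s ∈ MulAction.stabilizer SL(2, ℤ) UpperHalfPlane.ρ, s • x = x) ↔
      (ModularGroup.S * ModularGroup.T) • x = x := by
  refine ⟨fun hx => hx _ (MulAction.mem_stabilizer_iff.mpr ST_smul_rho), fun hx s hs => ?_⟩
  have := ModularGroup.stabilizer_ρ.mp (MulAction.mem_stabilizer_iff.mp hs)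
  simp only [Finset.mem_insert, Finset.mem_singleton] at this
  have hinv : ModularGroup.T⁻¹ * ModularGroup.S = -(ModularGroup.S * ModularGroup.T)⁻¹ := by
    rw [mul_inv_rev, ModularGroup.S_inv, mul_neg, neg_neg]
  rcases this with rfl | rfl | rfl | rfl | rfl | rfl
  · exact one_smul _ _
  · exact neg_one_smul_cos x
  · exact hx
  · rw [neg_smul_cos, hx]
  · rw [hinv, neg_smul_cos, inv_smul_eq_iff, hx]
  · rw [neg_smul_cos, hinv, neg_smul_cos, inv_smul_eq_iff, hx]

theorem card_placesOver_I :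
    2 * (placesOver N UpperHalfPlane.I).card = dedekindPsi N + nuTwo N := by
  have h := card_placesOver (N := N) UpperHalfPlane.I ellOrder_one_I (Or.inr Nat.prime_two)
  rw [Nat.card_congr (Equiv.subtypeEquivRight fixed_iff_I), card_fixed_S] at h
  omega

theorem card_placesOver_rho :
    3 * (placesOver N UpperHalfPlane.ρ).card = dedekindPsi N + 2 * nuThree N := by
  have h := card_placesOver (N := N) UpperHalfPlane.ρ ellOrder_one_rho (Or.inr Nat.prime_three)
  rw [Nat.card_congr (Equiv.subtypeEquivRight fixed_iff_rho), card_fixed_ST] at h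
  omega

theorem ord_eq_one_generic (v : Place ℂ (FC N)) {a : ℂ} (h0 : a ≠ 0) (h1 : a ≠ 1728)
    (hv : 0 < v.ord (jC N - algebraMap ℂ (FC N) a)) :
    v.ord (jC N - algebraMap ℂ (FC N) a) = 1 := by
  obtain ⟨z, rfl⟩ := exists_jE_eq a
  obtain ⟨x, hx⟩ := exists_placeZ_eq v z hv
  obtain ⟨g, rfl⟩ := QuotientGroup.mk_surjective x
  have h2 := card_orbit_mul_ellOrder (N := N) z g
  rw [ellOrder_one_generic h0 h1] at h2
  have h3 := ((fibre_structure (N := N) z).1 (g : Cos N)).1
  rw [Nat.eq_one_of_mul_eq_one_right h2, multAt, fibreMap, hx] at h3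
  omega

/-! ### Cusps -/

/-- The multiplicity over `j = ∞`. -/
def multInf (v : Place ℂ (FC N)) : ℕ := (-v.ord (jC N)).toNat

/-- The place attached to a coset at infinity. -/
def cuspMap (x : Cos N) : Place ℂ (FC N) := placeCusp x.out⁻¹

theorem cuspMap_mk (γ : SL(2, ℤ)) : cuspMap (γ : Cos N) = placeCusp γ⁻¹ := by
  obtain ⟨g, hg⟩ := QuotientGroup.mk_out_eq_mul (Gamma0 N) γ
  rw [cuspMap, hg, mul_inv_rev]
  have := placeCusp_mul (inv_mem g.2) γ⁻¹ 0
  rwa [zpow_zero, mul_one] at this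

theorem cuspMap_smul (s : Subgroup.zpowers ModularGroup.T) (x : Cos N) :
    cuspMap (s • x) = cuspMap x := by
  obtain ⟨_, n, rfl⟩ := s
  induction x using QuotientGroup.induction_on with
  | _ γ =>
    show cuspMap ((ModularGroup.T ^ n * γ : SL(2, ℤ)) : Cos N) = _
    rw [cuspMap_mk, cuspMap_mk, mul_inv_rev, ← zpow_neg]
    have := placeCusp_mul (one_mem (Gamma0 N)) γ⁻¹ (-n)
    rwa [one_mul] at this

theorem degCusp_mul_multInf (γ : SL(2, ℤ)) :
    degCusp N γ * multInf (placeCusp γ : Place ℂ (FC N)) = cuspWidth N γ := by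
  have h := ord_placeCusp γ (jC_ne_zero (N := N))
  rw [cuspOrd_jC] at h
  have h' := placeCusp_ord_jC_neg (N := N) γ
  have : ((multInf (placeCusp γ : Place ℂ (FC N)) : ℕ) : ℤ) = -(placeCusp γ).ord (jC N) :=
    Int.toNat_of_nonneg (by omega)
  rw [← Nat.cast_inj (R := ℤ), Nat.cast_mul, this, mul_neg, ← h, neg_neg]

open Classical in
/-- The places over `j = ∞`. -/
def placesInf (N : ℕ) [NeZero N] : Finset (Place ℂ (FC N)) :=
  Finset.univ.image (cuspMap (N := N))

theorem mem_placesInf {v : Place ℂ (FC N)} : v ∈ placesInf N ↔ v.ord (jC N) < 0 := by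
  classical
  rw [placesInf, Finset.mem_image]
  constructor
  · rintro ⟨x, -, rfl⟩
    exact placeCusp_ord_jC_neg _
  · intro h
    obtain ⟨x, hx⟩ := exists_placeCusp_eq v h
    exact ⟨x, Finset.mem_univ x, hx⟩

theorem sum_multInf : ∑ v ∈ placesInf N, multInf v = dedekindPsi N := by
  have h := sum_pole_eq_psi (N := N) (placesInf N) fun v hv => mem_placesInf.mpr hv
  rw [← Nat.cast_inj (R := ℤ), ← h, Nat.cast_sum]
  refine Finset.sum_congr rfl fun v _ => ?_
  rw [multInf, Int.ofNat_toNat, max_comm]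

open Classical in
theorem cusp_structure :
    (∀ x : Cos N, multInf (cuspMap x)
        = Nat.card (MulAction.orbit (Subgroup.zpowers ModularGroup.T) x) ∧
      multInf (cuspMap x) = (Finset.univ.filter fun y => cuspMap y = cuspMap x).card) ∧
    ∀ x y : Cos N, cuspMap x = cuspMap y ↔
      x ∈ MulAction.orbit (Subgroup.zpowers ModularGroup.T) y := by
  refine orbit_fibres cuspMap multInf cuspMap_smul (fun x => ?_) ?_
  · induction x using QuotientGroup.induction_on with
    | _ γ =>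
      have h1 := degCusp_mul_multInf (N := N) γ⁻¹
      rw [← cuspMap_mk, ← card_orbit_eq_cuspWidth, inv_inv] at h1
      rw [← h1]
      exact Nat.le_mul_of_pos_left _ (degCusp_pos _)
  · rw [← placesInf, sum_multInf, ← card_cos, Nat.card_eq_fintype_card]

/-- The orders at a cusp have gcd one. -/
theorem degCusp_eq_one (γ : SL(2, ℤ)) : degCusp N γ = 1 := by
  have h1 := degCusp_mul_multInf (N := N) γ
  have h2 := ((cusp_structure (N := N)).1 ((γ⁻¹ : SL(2, ℤ)) : Cos N)).1
  rw [cuspMap_mk, inv_inv, card_orbit_eq_cuspWidth] at h2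
  have h3 := (cuspWidth_spec (N := N) γ).1
  rw [h2] at h1
  exact Nat.eq_of_mul_eq_mul_right h3 (h1.trans (one_mul _).symm)

theorem card_placesInf : (placesInf N).card = cuspCount N := by
  classical
  rw [placesInf, card_image_eq_card_orbits (G := Subgroup.zpowers ModularGroup.T) _
    (cusp_structure (N := N)).2, card_orbits_T]

theorem placeCusp_eq_iff (γ γ' : SL(2, ℤ)) :
    (placeCusp γ : Place ℂ (FC N)) = placeCusp γ' ↔
      ∃ (g : Gamma0 N) (n : ℤ), (g : SL(2, ℤ)) * γ * ModularGroup.T ^ n = γ' ∨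
        (g : SL(2, ℤ)) * γ * ModularGroup.T ^ n = -γ' := by
  have hneg : (-1 : SL(2, ℤ)) ∈ Gamma0 N := by simp [Gamma0_mem]
  constructor
  · intro h
    have hf : cuspMap ((γ'⁻¹ : SL(2, ℤ)) : Cos N) = cuspMap ((γ⁻¹ : SL(2, ℤ)) : Cos N) := by
      rw [cuspMap_mk, cuspMap_mk, inv_inv, inv_inv, h]
    obtain ⟨⟨_, n, rfl⟩, hs⟩ := ((cusp_structure (N := N)).2 _ _).mp hf
    have hs' : ((ModularGroup.T ^ n * γ⁻¹ : SL(2, ℤ)) : Cos N) = ((γ'⁻¹ : SL(2, ℤ)) : Cos N) := hs
    rw [QuotientGroup.eq] at hs'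
    refine ⟨⟨_, inv_mem hs'⟩, -n, Or.inl ?_⟩
    simp only []
    group
  · rintro ⟨g, n, h | h⟩
    · rw [← h, placeCusp_mul g.2]
    · rw [show γ' = (-1 * g : SL(2, ℤ)) * γ * ModularGroup.T ^ n by
        rw [mul_assoc, mul_assoc, ← mul_assoc (g : SL(2, ℤ)), h, neg_one_mul, neg_neg],
        placeCusp_mul (mul_mem hneg g.2)]

/-! ### Characterisations of the places -/

theorem exists_place_ellOrder (z : ℍ) : ∃ v : Place ℂ (FC N), ∀ y : FC N, y ≠ 0 →
    (ellOrder N z : ℤ) * v.ord y = ordH (ev (y : LaurentSeries ℂ)) z :=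
  ⟨placeZ z, fun y hy => by rw [ord_placeZ z hy, degZ_eq]⟩

theorem eq_placeZ {z : ℍ} {v : Place ℂ (FC N)} (h : ∀ y : FC N, y ≠ 0 →
    (ellOrder N z : ℤ) * v.ord y = ordH (ev (y : LaurentSeries ℂ)) z) : v = placeZ z := by
  refine FF.place_eq_of_ord_nonneg fun y hy0 => ?_
  rcases eq_or_ne y 0 with rfl | hy
  · simp
  have h1 := h y hy
  rw [ord_placeZ z hy, degZ_eq] at h1
  rwa [← mul_left_cancel₀ (by exact_mod_cast (ellOrder_pos N z).ne') h1]

theorem exists_place_cusp (γ : SL(2, ℤ)) : ∃ v : Place ℂ (FC N), ∀ y : FC N, y ≠ 0 →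
    ∃ c : ℂ, c ≠ 0 ∧ Tendsto (fun z : ℍ => ev (y : LaurentSeries ℂ) (γ • z) *
      qPow (cuspWidth N γ : ℝ) (-(v.ord y)) z) atImInfty (𝓝 c) :=
  ⟨placeCusp γ, fun y hy => by
    have h := hasCuspOrder_cuspOrd hy γ
    rwa [ord_placeCusp γ hy, degCusp_eq_one, Nat.cast_one, one_mul] at h⟩

theorem eq_placeCusp {γ : SL(2, ℤ)} {v : Place ℂ (FC N)} (h : ∀ y : FC N, y ≠ 0 →
    ∃ c : ℂ, c ≠ 0 ∧ Tendsto (fun z : ℍ => ev (y : LaurentSeries ℂ) (γ • z) *
      qPow (cuspWidth N γ : ℝ) (-(v.ord y)) z) atImInfty (𝓝 c)) : v = placeCusp γ := by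
  refine FF.place_eq_of_ord_nonneg fun y hy0 => ?_
  rcases eq_or_ne y 0 with rfl | hy
  · simp
  have h1 := cuspOrd_eq hy (h y hy)
  rw [ord_placeCusp γ hy, degCusp_eq_one, Nat.cast_one, one_mul] at h1
  rwa [h1]

theorem placeZ_ne_placeCusp (z : ℍ) (γ : SL(2, ℤ)) :
    (placeZ z : Place ℂ (FC N)) ≠ placeCusp γ := fun h => by
  have h1 : 0 < (placeZ z : Place ℂ (FC N)).ord (jC N - algebraMap ℂ (FC N) (jE z)) := by
    simpa [fibreMap_mk] using ord_fibreMap_pos (N := N) z ((1 : SL(2, ℤ)) : Cos N)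
  have h2 := ord_jC_nonneg_of_sub _ h1
  rw [h] at h2
  exact absurd h2 (not_le.mpr (placeCusp_ord_jC_neg γ))

/-- Every place comes from a point or a cusp. -/
theorem placeZ_or_placeCusp (v : Place ℂ (FC N)) :
    (∃ z : ℍ, v = placeZ z) ∨ ∃ γ : SL(2, ℤ), v = placeCusp γ := by
  by_cases hv : v.ord (jC N) < 0
  · obtain ⟨x, hx⟩ := exists_placeCusp_eq v hv
    exact Or.inr ⟨_, hx.symm⟩
  · obtain ⟨c, hc⟩ := FF.exists_residue v ((FF.mem_iff v (jC N)).mpr (Or.inr (not_lt.mp hv)))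
    have hc' := hc.resolve_left fun h => jC_sub_ne_zero c (sub_eq_zero.mpr h)
    obtain ⟨z, rfl⟩ := exists_jE_eq c
    obtain ⟨x, hx⟩ := exists_placeZ_eq v z hc'
    exact Or.inl ⟨_, hx.symm⟩

end FLTAgent.ModularPlaces
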