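import Fermat.Agent.FF.PlacesMain
import Fermat.Agent.FF.Differentials

/-!
# Genus from ramification over `0`, `1728`, `∞`

`genusFF_of_counts`: for `x` of degree `ψ` unramified outside these three values, with
`(ψ + 2n₃)/3`, `(ψ + n₂)/2` and `c` places over them, the genus is
`1 + ψ/12 - n₂/4 - n₃/3 - c/2`, by Riemann–Hurwitz.
-/

set_option autoImplicit false

noncomputable section

open AlgebraicCurve IntermediateField

namespace FLTAgent.ModularPlaces

variable {K F : Type*} [Field K] [Field F] [Algebra K F] [IsAlgClosed K] [CharZero K] [FF.IsFF K F]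

theorem transcendental_sub_const {x : F} (hx : Transcendental K x) (c : K) :
    Transcendental K (x - algebraMap K F c) :=
  fun h => hx (by simpa using h.add (isAlgebraic_algebraMap c))

theorem adjoin_sub_const (x : F) (c : K) :
    IntermediateField.adjoin K ({x - algebraMap K F c} : Set F)
      = IntermediateField.adjoin K ({x} : Set F) := by
  refine le_antisymm ?_ ?_ <;> rw [IntermediateField.adjoin_simple_le_iff]
  · exact sub_mem (mem_adjoin_simple_self K _) (IntermediateField.algebraMap_mem _ c)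
  · have := add_mem (mem_adjoin_simple_self K (x - algebraMap K F c))
      (IntermediateField.algebraMap_mem _ c)
    simpa using this

theorem isSep_of_transcendental {x : F} (hx : Transcendental K x) : FF.IsSep K x :=
  ⟨hx, FF.finiteDimensional_adjoin_of_transcendental hx, FF.isSeparable_adjoin_of_charZero hx⟩

theorem sum_ramX_finite {x : F} (hx : Transcendental K x) (c : K) (s : Finset (Place K F))
    (hs : ∀ v, v ∈ s ↔ 0 < v.ord (x - algebraMap K F c)) :
    ∑ v ∈ s, (FF.ramX x v : ℤ) = Module.finrank (IntermediateField.adjoin K ({x} : Set F)) F := by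
  have ht := transcendental_sub_const hx c
  have := FF.isSeparable_adjoin_of_charZero ht
  have h := FF.degree_zeroDivisor ht
  rw [FF.degree_eq_sum, Finsupp.sum_of_support_subset _ (s := s) (fun v hv => (hs v).mpr ?_) _
    (fun _ _ => rfl)] at h
  · rw [congrArg (fun E : IntermediateField K F => (Module.finrank E F : ℤ))
      (adjoin_sub_const x c)] at h
    rw [← h]
    refine Finset.sum_congr rfl fun v hv => ?_
    have hp := (hs v).mp hv
    rw [FF.zeroDivisor_apply, ← FF.ord_sub_eq_ramX (isSep_of_transcendental hx) v hp]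
    omega
  · have := Finsupp.mem_support_iff.mp hv
    rw [FF.zeroDivisor_apply] at this
    omega

theorem sum_ramX_infinite {x : F} (hx : Transcendental K x) (s : Finset (Place K F))
    (hs : ∀ v, v ∈ s ↔ v.ord x < 0) :
    ∑ v ∈ s, (FF.ramX x v : ℤ) = Module.finrank (IntermediateField.adjoin K ({x} : Set F)) F := by
  have := FF.isSeparable_adjoin_of_charZero hx
  have h := FF.degree_poleDivisor hx
  rw [FF.degree_eq_sum, Finsupp.sum_of_support_subset _ (s := s) (fun v hv => (hs v).mpr ?_) _
    (fun _ _ => rfl)] at h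
  · rw [← h]
    refine Finset.sum_congr rfl fun v hv => ?_
    have hp := (hs v).mp hv
    have := FF.ord_eq_neg_ramX (isSep_of_transcendental hx) v hp
    rw [FF.poleDivisor_apply]
    omega
  · have := Finsupp.mem_support_iff.mp hv
    rw [FF.poleDivisor_apply] at this
    omega

/-- The genus from the counts of places over `0`, `1728` and `∞`. -/
theorem genusFF_of_counts {x : F} (hx : Transcendental K x) (ψ n2 n3 c : ℕ)
    (hdeg : Module.finrank (IntermediateField.adjoin K ({x} : Set F)) F = ψ)
    (P0 P1 Pi : Finset (Place K F))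
    (h0 : ∀ v, v ∈ P0 ↔ 0 < v.ord (x - algebraMap K F 0))
    (h1 : ∀ v, v ∈ P1 ↔ 0 < v.ord (x - algebraMap K F 1728))
    (hi : ∀ v, v ∈ Pi ↔ v.ord x < 0)
    (c0 : 3 * P0.card = ψ + 2 * n3) (c1 : 2 * P1.card = ψ + n2) (ci : Pi.card = c)
    (hgen : ∀ (v : Place K F) (a : K), a ≠ 0 → a ≠ 1728 → 0 < v.ord (x - algebraMap K F a) →
      v.ord (x - algebraMap K F a) = 1) :
    (genusFF K F : ℚ) = 1 + (ψ : ℚ) / 12 - (n2 : ℚ) / 4 - (n3 : ℚ) / 3 - (c : ℚ) / 2 := by
  classical
  have hsep := isSep_of_transcendental hx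
  have hne : ∀ a : K, x - algebraMap K F a ≠ 0 := fun a h => hx (by
    rw [sub_eq_zero.mp h]; exact isAlgebraic_algebraMap a)
  have hout : ∀ v : Place K F, v ∉ P0 ∪ P1 ∪ Pi → FF.ramX x v = 1 := fun v hv => by
    simp only [Finset.mem_union, h0, h1, hi, not_or] at hv
    obtain ⟨⟨hv0, hv1⟩, hvi⟩ := hv
    obtain ⟨a, ha⟩ := FF.exists_residue v ((FF.mem_iff v x).mpr (Or.inr (not_lt.mp hvi)))
    have ha' := ha.resolve_left fun h => hne a (sub_eq_zero.mpr h)
    have := hgen v a (fun h => hv0 (h ▸ ha')) (fun h => hv1 (h ▸ ha')) ha'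
    rw [FF.ord_sub_eq_ramX hsep v ha'] at this
    exact_mod_cast this
  have hd01 : Disjoint P0 P1 := Finset.disjoint_left.mpr fun v hv hv' => by
    rw [h0] at hv; rw [h1] at hv'
    have hc : algebraMap K F (1728 - 0) ≠ 0 := by
      rw [sub_zero, Ne, map_eq_zero]; norm_num
    have hlt : v.ord (algebraMap K F (1728 - 0)) < v.ord (x - algebraMap K F 1728) := by
      rwa [FF.ord_algebraMap]
    have h2 := (FF.ord_add_of_lt v hc (Or.inr hlt)).2
    rw [show algebraMap K F (1728 - 0) + (x - algebraMap K F 1728) = x - algebraMap K F 0 by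
      rw [map_sub]; ring, FF.ord_algebraMap] at h2
    omega
  have hpos : ∀ (v : Place K F) (a : K), 0 < v.ord (x - algebraMap K F a) → 0 ≤ v.ord x :=
    fun v a h => by
      refine FF.ord_nonneg_of_mem_placeRing v ?_
      have := add_mem ((FF.mem_iff v _).mpr (Or.inr h.le)) (v.algebraMap_mem' a)
      simpa using this
  have hdi : Disjoint (P0 ∪ P1) Pi := Finset.disjoint_left.mpr fun v hv hv' => by
    rw [hi] at hv'
    rcases Finset.mem_union.mp hv with h | h
    · have := hpos v _ ((h0 v).mp h); omega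
    · have := hpos v _ ((h1 v).mp h); omega
  have hRH := FF.riemannHurwitz hsep
    (fun v => Nat.cast_ne_zero.mpr (FF.ramX_pos hsep v).ne') (P0 ∪ P1 ∪ Pi) hout
  rw [Finset.sum_union hdi, Finset.sum_union hd01, Finset.sum_sub_distrib, Finset.sum_sub_distrib,
    Finset.sum_sub_distrib, sum_ramX_finite hx 0 P0 h0, sum_ramX_finite hx 1728 P1 h1,
    sum_ramX_infinite hx Pi hi, hdeg] at hRH
  simp only [Finset.sum_const, nsmul_eq_mul, mul_one] at hRH
  have e : (2 : ℚ) * (genusFF K F : ℚ) - 2
      = -2 * (ψ : ℚ) + (((ψ : ℚ) - P0.card) + ((ψ : ℚ) - P1.card) + ((ψ : ℚ) - Pi.card)) := by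
    exact_mod_cast hRH
  have e0 : (3 : ℚ) * P0.card = ψ + 2 * n3 := by exact_mod_cast c0
  have e1 : (2 : ℚ) * P1.card = ψ + n2 := by exact_mod_cast c1
  have ei : (Pi.card : ℚ) = c := by exact_mod_cast ci
  linear_combination e / 2 - e0 / 6 - e1 / 4 - ei / 2

end FLTAgent.ModularPlaces
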