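import Fermat.Agent.ModularPlaces.Fields
import Fermat.Agent.ModularPlaces.Fibres
import Fermat.Agent.ModularPlaces.GenusCount
import Fermat.Agent.Torsion.ExtC
import Fermat.Agent.FF.Differentials
import Fermat.Prelude.Def_ModularCurve_GenusNumerics

/-!
# The genus of `X₀(N)`

`genusFF_FC` and `genusFF_bar`: the function fields of `X₀(N)` over `ℂ` and over `ℚ̄` have
genus `genusFormula N`. Over `ℂ` this is the ramification of `j` found in `Fibres`; over `ℚ̄`
the places over `0`, `1728`, `∞` correspond to those over `ℂ` under extension of constants.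
-/

set_option autoImplicit false

noncomputable section

open ModularCurve AlgebraicCurve

namespace FLTAgent.ModularPlaces

open FLTAgent.Modular

variable (N : ℕ) [NeZero N]

/-- The genus of `X₀(N)` over `ℂ`. -/
theorem genusFF_FC : (genusFF ℂ (FC N) : ℚ) = genusFormula N := by
  refine genusFF_of_counts (transcendental_jC N) _ _ _ _ (finrank_jC N)
    (placesOver N UpperHalfPlane.ρ) (placesOver N UpperHalfPlane.I) (placesInf N)
    (fun v => by rw [mem_placesOver, jE_rho]) (fun v => by rw [mem_placesOver, jE_I])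
    (fun v => mem_placesInf) card_placesOver_rho card_placesOver_I card_placesInf
    (fun v a => ord_eq_one_generic v)

theorem embFC_jB (ι : Torsion.Qb →+* ℂ) : Torsion.embFC N ι (jB N) = jC N := by
  apply Subtype.ext
  rw [Torsion.coe_embFC]
  show coeffMap ι (coeffMap (algebraMap ℚ Torsion.Qb) jq) = coeffMap (algebraMap ℚ ℂ) jq
  rw [coeffMap_coeffMap]
  exact coeffMap_congr (Subsingleton.elim _ _) _

theorem embFC_jB_sub (ι : Torsion.Qb →+* ℂ) (a : Torsion.Qb) :
    Torsion.embFC N ι (jB N - algebraMap _ _ a) = jC N - algebraMap ℂ (FC N) (ι a) := by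
  rw [map_sub, embFC_jB, (Torsion.isConstExt_embFC ι).map_algebraMap]

theorem ord_placeExt_jB_sub (ι : Torsion.Qb →+* ℂ)
    (v : Place Torsion.Qb (modularFunctionFieldBar N)) (a : Torsion.Qb) :
    (Torsion.placeExt ι v).ord (jC N - algebraMap ℂ (FC N) (ι a))
      = v.ord (jB N - algebraMap _ _ a) := by
  rw [← embFC_jB_sub, Torsion.ord_placeExt]

/-- The genus of `X₀(N)` over `ℚ̄`. -/
theorem genusFF_bar :
    (genusFF (AlgebraicClosure ℚ) ↥(modularFunctionFieldBar N) : ℚ) = genusFormula N := by
  classical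
  let ι : Torsion.Qb →+* ℂ := ModularCosets.iotaBar
  have hinj : Function.Injective (Torsion.placeExt (N := N) ι) := Torsion.placeExt_injective ι
  have key : ∀ S : Finset (Place ℂ (FC N)),
      (∀ w ∈ S, ∃ v, w = Torsion.placeExt ι v) →
      ((S.preimage (Torsion.placeExt ι) hinj.injOn).card = S.card) := by
    intro S hS
    rw [Finset.card_preimage, Finset.filter_true_of_mem]
    intro w hw
    obtain ⟨v, rfl⟩ := hS w hw
    exact Set.mem_range_self v
  have hfin : ∀ z : UpperHalfPlane, ∀ a : Torsion.Qb, jE z = ι a →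
      (∀ v : Place Torsion.Qb (modularFunctionFieldBar N),
        v ∈ (placesOver N z).preimage (Torsion.placeExt ι) hinj.injOn ↔
          0 < v.ord (jB N - algebraMap _ _ a)) ∧
      ((placesOver N z).preimage (Torsion.placeExt ι) hinj.injOn).card = (placesOver N z).card := by
    intro z a hza
    refine ⟨fun v => ?_, key _ fun w hw => ?_⟩
    · rw [Finset.mem_preimage, mem_placesOver, hza, ord_placeExt_jB_sub]
    · rw [mem_placesOver, hza, ← embFC_jB_sub] at hw
      exact Torsion.eq_placeExt_of_ord_ne_zero ι hw.ne'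
  obtain ⟨m0, k0⟩ := hfin UpperHalfPlane.ρ 0 (by rw [jE_rho, map_zero])
  obtain ⟨m1, k1⟩ := hfin UpperHalfPlane.I 1728 (by rw [jE_I, map_ofNat])
  refine genusFF_of_counts (transcendental_jB N) _ _ _ _ (finrank_jB N)
    ((placesOver N UpperHalfPlane.ρ).preimage (Torsion.placeExt ι) hinj.injOn)
    ((placesOver N UpperHalfPlane.I).preimage (Torsion.placeExt ι) hinj.injOn)
    ((placesInf N).preimage (Torsion.placeExt ι) hinj.injOn)
    m0 m1 (fun v => ?_) ?_ ?_ ?_ fun v a ha0 ha1 hv => ?_
  · rw [Finset.mem_preimage, mem_placesInf, ← embFC_jB N ι, Torsion.ord_placeExt]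
  · rw [k0]; exact card_placesOver_rho
  · rw [k1]; exact card_placesOver_I
  · rw [key _ fun w hw => ?_, card_placesInf]
    rw [mem_placesInf, ← embFC_jB N ι] at hw
    exact Torsion.eq_placeExt_of_ord_ne_zero ι hw.ne
  · rw [← ord_placeExt_jB_sub N ι] at hv ⊢
    exact ord_eq_one_generic _ ((map_ne_zero ι).mpr ha0)
      (fun h => ha1 (ι.injective (h.trans (map_ofNat ι 1728).symm))) hv

end FLTAgent.ModularPlaces
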