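import Fermat.Agent.Modular.Defs
import Fermat.Agent.FF.PlacesMain
import Fermat.Agent.FF.PlacesModular
import Fermat.Agent.ModularCosets.CosetIndex
import Fermat.Agent.ModularCosets.Degree
import Fermat.Agent.ModularCosets.Corollaries

/-!
# Function fields of `X₀(N)` over `ℂ` and `ℚ̄`

The element `j` (`jC`, `jB`) is transcendental, and both fields have degree `dedekindPsi N` over
the rational function field in `j` (`finrank_jC`, `finrank_jB`, from the coset count). Hence they
are function fields of one variable (`isFF_FC`, `isFF_bar`).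
-/

set_option autoImplicit false

noncomputable section

open ModularCurve IntermediateField AlgebraicCurve

namespace FLTAgent.ModularPlaces

open FLTAgent.Modular

variable (N : ℕ) [NeZero N]

/-- `j` in `FC N`. -/
def jC : FC N :=
  ⟨coeffEmb ℂ jq, coeffEmb_mem_laurentBaseChange ℂ (modularFunctionField_le_full N (jq_mem N))⟩

/-- `j` in the function field of `X₀(N)` over `ℚ̄`. -/
def jB : modularFunctionFieldBar N :=
  ⟨coeffEmb (AlgebraicClosure ℚ) jq,
    coeffEmb_mem_laurentBaseChange (AlgebraicClosure ℚ) (modularFunctionField_le_full N (jq_mem N))⟩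

theorem transcendental_jC : Transcendental ℂ (jC N) := fun h =>
  FF.transcendental_coeffEmb_jq ℂ (h.algHom (FC N).val)

theorem transcendental_jB : Transcendental (AlgebraicClosure ℚ) (jB N) := fun h =>
  FF.transcendental_coeffEmb_jq (AlgebraicClosure ℚ) (h.algHom (modularFunctionFieldBar N).val)

theorem finrank_jC : Module.finrank (ℂ⟮jC N⟯) (FC N) = dedekindPsi N := by
  rw [← ModularCosets.finrank_FC_eq N]
  have hmap : (ℂ⟮jC N⟯).map (FC N).val
      = IntermediateField.adjoin ℂ ({coeffEmb ℂ jq} : Set (LaurentSeries ℂ)) := by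
    rw [IntermediateField.adjoin_map, Set.image_singleton]; rfl
  exact Algebra.finrank_eq_of_equiv_equiv
    (((ℂ⟮jC N⟯).equivMap (FC N).val).trans (IntermediateField.equivOfEq hmap)).toRingEquiv
    { toFun := fun x => ⟨x.1, x.2⟩
      invFun := fun x => ⟨x.1, x.2⟩
      left_inv := fun _ => rfl
      right_inv := fun _ => rfl
      map_mul' := fun _ _ => rfl
      map_add' := fun _ _ => rfl }
    (RingHom.ext fun _ => Subtype.ext rfl)

theorem finrank_jB :
    Module.finrank ((AlgebraicClosure ℚ)⟮jB N⟯) (modularFunctionFieldBar N) = dedekindPsi N :=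
  ModularCosets.finrank_bar_over_j N (jB N) rfl

instance finiteDimensional_jC : FiniteDimensional (ℂ⟮jC N⟯) (FC N) :=
  FiniteDimensional.of_finrank_pos (by rw [finrank_jC]; exact ModularCosets.dedekindPsi_pos N)

instance finiteDimensional_jB :
    FiniteDimensional ((AlgebraicClosure ℚ)⟮jB N⟯) (modularFunctionFieldBar N) :=
  FiniteDimensional.of_finrank_pos (by rw [finrank_jB]; exact ModularCosets.dedekindPsi_pos N)

instance isFF_FC : FF.IsFF ℂ (FC N) :=
  FF.IsFF.of_finiteDimensional (jC N) (transcendental_jC N)

instance isFF_bar : FF.IsFF (AlgebraicClosure ℚ) (modularFunctionFieldBar N) :=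
  FF.IsFF.of_finiteDimensional (jB N) (transcendental_jB N)

end FLTAgent.ModularPlaces
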