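import Fermat.Agent.Modular.Defs

/-!
# Orders of functions on `ℍ` under the modular group

Orders of invariant functions are the same along orbits (`ordH_smul_of_invariant`), stabilisers
are finite and embed in `ℂ` by `γ ↦ cz + d` (`finite_stabilizer`, `denHom_injective`), and the
order of a `Γ₀(N)`-invariant meromorphic function at `z` is divisible by `ellOrder N z`
(`ellOrder_dvd`, from the leading term at a fixed point).
-/

set_option autoImplicit false

noncomputable section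

open UpperHalfPlane CongruenceSubgroup Filter Topology
open scoped MatrixGroups

namespace FLTAgent.ModularPlaces

open FLTAgent.Modular

/-- The Möbius transformation of an integral matrix as a function on `ℂ`. -/
def mob (γ : SL(2, ℤ)) (w : ℂ) : ℂ :=
  ((γ.1 0 0 : ℂ) * w + γ.1 0 1) / ((γ.1 1 0 : ℂ) * w + γ.1 1 1)

/-- The denominator `c w + d`. -/
def den (γ : SL(2, ℤ)) (w : ℂ) : ℂ := (γ.1 1 0 : ℂ) * w + γ.1 1 1

theorem det_eq_one (γ : SL(2, ℤ)) :
    (γ.1 0 0 : ℂ) * γ.1 1 1 - (γ.1 0 1 : ℂ) * γ.1 1 0 = 1 := by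
  have h := γ.2
  rw [Matrix.det_fin_two] at h
  exact_mod_cast h

theorem den_ne_zero (γ : SL(2, ℤ)) {w : ℂ} (hw : 0 < w.im) : den γ w ≠ 0 := by
  intro h
  have him : (γ.1 1 0 : ℝ) * w.im = 0 := by
    simpa [den] using congrArg Complex.im h
  have hc : γ.1 1 0 = 0 := by
    exact_mod_cast (mul_eq_zero.mp him).resolve_right hw.ne'
  have hd : γ.1 1 1 = 0 := by
    rw [den, hc] at h
    simpa using h
  have hdet := γ.2
  rw [Matrix.det_fin_two, hc, hd] at hdet
  simp at hdet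

theorem coe_smul_eq_mob (γ : SL(2, ℤ)) (z : ℍ) : ((γ • z : ℍ) : ℂ) = mob γ z := by
  rw [UpperHalfPlane.coe_specialLinearGroup_apply]
  simp [mob]

theorem mob_sub_mob (γ : SL(2, ℤ)) {u v : ℂ} (hu : den γ u ≠ 0) (hv : den γ v ≠ 0) :
    mob γ u - mob γ v = (u - v) / (den γ u * den γ v) := by
  rw [mob, mob, ← den, ← den, div_sub_div _ _ hu hv]
  congr 1
  simp only [den]
  linear_combination (u - v) * det_eq_one γ

theorem analyticAt_den (γ : SL(2, ℤ)) (w : ℂ) : AnalyticAt ℂ (den γ) w := by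
  unfold den
  fun_prop

theorem analyticAt_mob (γ : SL(2, ℤ)) {w : ℂ} (hw : den γ w ≠ 0) : AnalyticAt ℂ (mob γ) w := by
  unfold mob
  exact ((analyticAt_const.mul analyticAt_id).add analyticAt_const).div (analyticAt_den γ w) hw

theorem hasDerivAt_mob (γ : SL(2, ℤ)) {w : ℂ} (hw : den γ w ≠ 0) :
    HasDerivAt (mob γ) (1 / den γ w ^ 2) w := by
  unfold mob
  have h := (((hasDerivAt_id w).const_mul (γ.1 0 0 : ℂ)).add_const (γ.1 0 1 : ℂ)).div
    (((hasDerivAt_id w).const_mul (γ.1 1 0 : ℂ)).add_const (γ.1 1 1 : ℂ)) hw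
  refine (h.congr_deriv ?_).congr_of_eventuallyEq (Eventually.of_forall fun x => rfl)
  simp only [id, den]
  congr 1
  linear_combination det_eq_one γ

theorem eventuallyEq_smul_comp_ofComplex (f : ℍ → ℂ) (γ : SL(2, ℤ)) (z : ℍ) :
    ((fun w : ℍ => f (γ • w)) ∘ ofComplex) =ᶠ[𝓝 (z : ℂ)] ((f ∘ ofComplex) ∘ mob γ) := by
  filter_upwards [(isOpen_lt continuous_const Complex.continuous_im).mem_nhds z.im_pos] with w hw
  simp only [Function.comp_apply, ofComplex_apply_of_im_pos hw]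
  have h := coe_smul_eq_mob γ ⟨w, hw⟩
  rw [← ofComplex_apply (γ • (⟨w, hw⟩ : ℍ)), h]

theorem meromorphicOrderAt_smul (f : ℍ → ℂ) (γ : SL(2, ℤ)) (z : ℍ) :
    meromorphicOrderAt ((fun w : ℍ => f (γ • w)) ∘ ofComplex) (z : ℂ)
      = meromorphicOrderAt (f ∘ ofComplex) ((γ • z : ℍ) : ℂ) := by
  rw [meromorphicOrderAt_congr ((eventuallyEq_smul_comp_ofComplex f γ z).filter_mono
    nhdsWithin_le_nhds)]
  have hz := den_ne_zero γ z.im_pos
  rw [meromorphicOrderAt_comp_of_deriv_ne_zero (analyticAt_mob γ hz)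
    (by rw [(hasDerivAt_mob γ hz).deriv]; simp [hz]), coe_smul_eq_mob]

theorem ordH_smul_of_invariant {f : ℍ → ℂ} {γ : SL(2, ℤ)} (hf : ∀ w : ℍ, f (γ • w) = f w)
    (z : ℍ) : ordH f (γ • z) = ordH f z := by
  unfold ordH
  rw [← meromorphicOrderAt_smul f γ z]
  simp only [hf]

/-- The leading term of an invariant function at a fixed point. -/
theorem den_zpow_eq_one {f : ℍ → ℂ} {γ : SL(2, ℤ)} {z : ℍ} (hf : ∀ w : ℍ, f (γ • w) = f w)
    (hz : γ • z = z) (hmero : MeromorphicAt (f ∘ ofComplex) (z : ℂ)) {n : ℤ}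
    (hn : meromorphicOrderAt (f ∘ ofComplex) (z : ℂ) = n) : den γ (z : ℂ) ^ (2 * n) = 1 := by
  obtain ⟨g, hg, hg0, hfg⟩ := (meromorphicOrderAt_eq_int_iff hmero).mp hn
  have hd := den_ne_zero γ z.im_pos
  have hfix : mob γ z = z := by rw [← coe_smul_eq_mob, hz]
  have hm : Tendsto (mob γ) (𝓝[≠] (z : ℂ)) (𝓝[≠] (z : ℂ)) := by
    refine tendsto_nhdsWithin_iff.mpr ⟨?_, ?_⟩
    · have := (analyticAt_mob γ hd).continuousAt.tendsto
      rw [hfix] at this
      exact this.mono_left nhdsWithin_le_nhds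
    · filter_upwards [self_mem_nhdsWithin, nhdsWithin_le_nhds
        ((isOpen_lt continuous_const Complex.continuous_im).mem_nhds z.im_pos)] with w hw hwi h
      have h2 := mob_sub_mob γ (den_ne_zero γ hwi) hd
      rw [hfix, (h : mob γ w = z), sub_self] at h2
      exact hw (sub_eq_zero.mp ((div_eq_zero_iff.mp h2.symm).resolve_right
        (mul_ne_zero (den_ne_zero γ hwi) hd)))
  have key : ∀ᶠ w in 𝓝[≠] (z : ℂ), g w * (den γ w * den γ z) ^ n = g (mob γ w) := by
    filter_upwards [hfg, hm.eventually hfg, self_mem_nhdsWithin, nhdsWithin_le_nhds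
        ((isOpen_lt continuous_const Complex.continuous_im).mem_nhds z.im_pos),
      nhdsWithin_le_nhds (eventuallyEq_smul_comp_ofComplex f γ z)] with w h1 h2 hw hwi h3
    simp only [Function.comp_apply, hf] at h1 h2 h3
    have hden := mul_ne_zero (den_ne_zero γ hwi) hd
    have h4 : (w - z) ^ n * g w = (w - z) ^ n / (den γ w * den γ z) ^ n * g (mob γ w) := by
      rw [smul_eq_mul] at h1 h2
      rw [← h1, h3, h2, ← div_zpow]
      congr 2
      have h5 := mob_sub_mob γ (den_ne_zero γ hwi) hd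
      rwa [hfix] at h5
    rw [div_eq_mul_inv, mul_assoc] at h4
    have h6 := mul_left_cancel₀ (zpow_ne_zero n (sub_ne_zero.mpr hw)) h4
    rw [h6, mul_comm, ← mul_assoc, mul_inv_cancel₀ (zpow_ne_zero n hden), one_mul]
  have hc1 : Tendsto (fun w => g w * (den γ w * den γ z) ^ n) (𝓝[≠] (z : ℂ))
      (𝓝 (g z * (den γ z * den γ z) ^ n)) :=
    ((hg.continuousAt.mul (((analyticAt_den γ z).continuousAt.mul continuousAt_const).zpow₀ n
      (Or.inl (mul_ne_zero hd hd)))).tendsto).mono_left nhdsWithin_le_nhds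
  have hc2 : Tendsto (fun w => g (mob γ w)) (𝓝[≠] (z : ℂ)) (𝓝 (g z)) :=
    hg.continuousAt.tendsto.comp (hm.mono_right nhdsWithin_le_nhds)
  have h := tendsto_nhds_unique (hc1.congr' key) hc2
  rw [zpow_mul, zpow_two]
  exact (mul_eq_left₀ hg0).mp h

theorem den_mul (γ δ : SL(2, ℤ)) {w : ℂ} (hw : den δ w ≠ 0) :
    den (γ * δ) w = den γ (mob δ w) * den δ w := by
  have h : mob δ w * den δ w = (δ.1 0 0 : ℂ) * w + δ.1 0 1 := by
    rw [mob, ← den, div_mul_cancel₀ _ hw]
  simp only [den] at h ⊢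
  simp only [Matrix.SpecialLinearGroup.coe_mul, Matrix.mul_apply, Fin.sum_univ_two]
  push_cast
  linear_combination -(γ.1 1 0 : ℂ) * h

/-- The stabiliser character `γ ↦ c z + d`. -/
def denHom (z : ℍ) : MulAction.stabilizer SL(2, ℤ) z →* ℂ where
  toFun γ := den γ z
  map_one' := by simp [den]
  map_mul' γ δ := by
    show den ((γ : SL(2, ℤ)) * δ) z = _
    rw [den_mul _ _ (den_ne_zero _ z.im_pos), ← coe_smul_eq_mob, δ.2]

theorem denHom_injective (z : ℍ) : Function.Injective (denHom z) := by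
  rintro ⟨γ, hγ⟩ ⟨δ, hδ⟩ (h : den γ z = den δ z)
  have hz : (z : ℂ).im ≠ 0 := z.im_pos.ne'
  have key : ∀ a b a' b' : ℤ, (a : ℂ) * z + b = (a' : ℂ) * z + b' → a = a' ∧ b = b' := by
    intro a b a' b' h
    have h1 : (a : ℝ) * (z : ℂ).im = (a' : ℝ) * (z : ℂ).im := by
      simpa using congrArg Complex.im h
    have ha : a = a' := by exact_mod_cast mul_right_cancel₀ hz h1
    subst ha
    exact ⟨rfl, by exact_mod_cast add_left_cancel h⟩
  obtain ⟨h10, h11⟩ := key _ _ _ _ h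
  have hn : (γ.1 0 0 : ℂ) * z + γ.1 0 1 = (δ.1 0 0 : ℂ) * z + δ.1 0 1 := by
    have e1 : mob γ z = z := by rw [← coe_smul_eq_mob, MulAction.mem_stabilizer_iff.mp hγ]
    have e2 : mob δ z = z := by rw [← coe_smul_eq_mob, MulAction.mem_stabilizer_iff.mp hδ]
    rw [mob, ← den, div_eq_iff (den_ne_zero γ z.im_pos)] at e1
    rw [mob, ← den, div_eq_iff (den_ne_zero δ z.im_pos)] at e2
    rw [e1, e2, h]
  obtain ⟨h00, h01⟩ := key _ _ _ _ hn
  refine Subtype.ext (Subtype.ext ?_)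
  ext i j
  fin_cases i <;> fin_cases j <;> assumption

theorem finite_stabilizer (z : ℍ) : Finite (MulAction.stabilizer SL(2, ℤ) z) := by
  have hbd : ∀ γ : MulAction.stabilizer SL(2, ℤ) z, ‖den γ z‖ = 1 := by
    intro γ
    have h := ModularGroup.im_smul_eq_div_normSq (γ : SL(2, ℤ)) z
    rw [MulAction.mem_stabilizer_iff.mp γ.2, ModularGroup.denom_apply] at h
    have hn0 := Complex.normSq_pos.mpr (den_ne_zero (γ : SL(2, ℤ)) z.im_pos)
    have : Complex.normSq (den γ z) = 1 := by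
      replace h : z.im = z.im / Complex.normSq (den γ z) := h
      rw [eq_div_iff hn0.ne'] at h
      exact (mul_eq_left₀ z.im_pos.ne').mp h
    rw [← Complex.sq_norm, sq_eq_one_iff] at this
    rcases this with h' | h'
    · exact h'
    · exact absurd h' (by have := norm_nonneg (den (γ : SL(2, ℤ)) z); linarith)
  let C : ℤ := ⌈1 / (z : ℂ).im⌉
  let D : ℤ := ⌈1 + (C : ℝ) * |(z : ℂ).re|⌉
  let f : MulAction.stabilizer SL(2, ℤ) z → ↥(Set.Icc (-C) C ×ˢ Set.Icc (-D) D) := fun γ =>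
    ⟨((γ : SL(2, ℤ)).1 1 0, (γ : SL(2, ℤ)).1 1 1), by
      have h1 := (Complex.abs_im_le_norm (den γ z)).trans (hbd γ).le
      have h2 := (Complex.abs_re_le_norm (den γ z)).trans (hbd γ).le
      simp only [den, Complex.add_im, Complex.mul_im, Complex.intCast_re, Complex.intCast_im,
        Complex.add_re, Complex.mul_re, zero_mul, add_zero, sub_zero] at h1 h2
      have hy : 0 < (z : ℂ).im := z.im_pos
      rw [abs_mul, abs_of_pos hy, ← le_div_iff₀ hy] at h1
      have hc : |(((γ : SL(2, ℤ)).1 1 0 : ℤ) : ℝ)| ≤ C := h1.trans (Int.le_ceil _)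
      have hd : |(((γ : SL(2, ℤ)).1 1 1 : ℤ) : ℝ)| ≤ D := by
        refine le_trans ?_ (Int.le_ceil _)
        have h3 := abs_add_le ((((γ : SL(2, ℤ)).1 1 0 : ℤ) : ℝ) * (z : ℂ).re
          + ((γ : SL(2, ℤ)).1 1 1 : ℤ)) (-((((γ : SL(2, ℤ)).1 1 0 : ℤ) : ℝ) * (z : ℂ).re))
        rw [abs_neg, abs_mul, add_neg_cancel_comm] at h3
        have := mul_le_mul_of_nonneg_right hc (abs_nonneg (z : ℂ).re)
        linarith
      rw [← Int.cast_abs, Int.cast_le] at hc hd
      exact ⟨Set.mem_Icc.mpr (abs_le.mp hc), Set.mem_Icc.mpr (abs_le.mp hd)⟩⟩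
  refine Finite.of_injective f fun γ δ h => denHom_injective z ?_
  have h' := congrArg Subtype.val h
  simp only [f, Prod.mk.injEq] at h'
  show den γ z = den δ z
  rw [den, den, h'.1, h'.2]

variable (N : ℕ)

theorem even_card_fixed [NeZero N] (z : ℍ) :
    ∃ k : ℕ, 0 < k ∧ Nat.card {γ : Gamma0 N // (γ : SL(2, ℤ)) • z = z} = 2 * k := by
  have := finite_stabilizer z
  let S := MulAction.stabilizer (Gamma0 N) z
  have hfin : Finite S := Finite.of_injective
    (fun γ : S => (⟨((γ : Gamma0 N) : SL(2, ℤ)), γ.2⟩ : MulAction.stabilizer SL(2, ℤ) z))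
    (fun γ δ h => Subtype.ext (Subtype.ext (congrArg (fun x : MulAction.stabilizer SL(2, ℤ) z => (x : SL(2, ℤ))) h)))
  have hneg : (-1 : SL(2, ℤ)) ∈ Gamma0 N := by simp [Gamma0_mem]
  let m : S := ⟨⟨-1, hneg⟩, by
    show (-1 : SL(2, ℤ)) • z = z
    rw [ModularGroup.SL_neg_smul, one_smul]⟩
  have hm : orderOf m = 2 := by
    apply orderOf_eq_prime
    · exact Subtype.ext (Subtype.ext (neg_one_sq))
    · intro h
      have := congrArg (fun x : S => ((x : Gamma0 N) : SL(2, ℤ)).1 0 0) h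
      simp [m] at this
  have h2 : 2 ∣ Nat.card S := (dvd_of_eq hm.symm).trans (orderOf_dvd_natCard m)
  obtain ⟨k, hk⟩ := h2
  refine ⟨k, ?_, hk⟩
  have := Nat.card_pos (α := S)
  omega

theorem ellOrder_pos [NeZero N] (z : ℍ) : 0 < ellOrder N z := by
  obtain ⟨k, hk, h⟩ := even_card_fixed N z
  rw [ellOrder, h]; omega

theorem card_fixed_eq [NeZero N] (z : ℍ) :
    Nat.card {γ : Gamma0 N // (γ : SL(2, ℤ)) • z = z} = 2 * ellOrder N z := by
  obtain ⟨k, _, h⟩ := even_card_fixed N z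
  rw [ellOrder, h]; omega

theorem ellOrder_dvd [NeZero N] {f : ℍ → ℂ}
    (hf : ∀ γ ∈ Gamma0 N, ∀ w : ℍ, f (γ • w) = f w) (z : ℍ)
    (hmero : MeromorphicAt (f ∘ ofComplex) (z : ℂ)) : (ellOrder N z : ℤ) ∣ ordH f z := by
  rcases eq_or_ne (meromorphicOrderAt (f ∘ ofComplex) (z : ℂ)) ⊤ with h | h
  · simp [ordH, h]
  obtain ⟨n, hn⟩ := WithTop.ne_top_iff_exists.mp h
  have hord : ordH f z = n := by rw [ordH, ← hn]; rfl
  have := finite_stabilizer z
  let S := MulAction.stabilizer (Gamma0 N) z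
  let χ : S →* ℂ := (denHom z).comp
    { toFun := fun γ => ⟨((γ : Gamma0 N) : SL(2, ℤ)), γ.2⟩
      map_one' := rfl
      map_mul' := fun _ _ => rfl }
  have hχ : Function.Injective χ := fun a b h =>
    Subtype.ext (Subtype.ext (congrArg (fun x : MulAction.stabilizer SL(2, ℤ) z => (x : SL(2, ℤ))) (denHom_injective z h)))
  have : Finite S := Finite.of_injective
    (fun γ : S => (⟨((γ : Gamma0 N) : SL(2, ℤ)), γ.2⟩ : MulAction.stabilizer SL(2, ℤ) z))
    (fun γ δ h => Subtype.ext (Subtype.ext (congrArg (fun x : MulAction.stabilizer SL(2, ℤ) z => (x : SL(2, ℤ))) h)))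
  have : IsCyclic S := isCyclic_of_injective_ringHom χ hχ
  obtain ⟨g, hg⟩ := IsCyclic.exists_ofOrder_eq_natCard (α := S)
  have h1 : den ((g : Gamma0 N) : SL(2, ℤ)) z ^ (2 * n) = 1 :=
    den_zpow_eq_one (hf _ (g : Gamma0 N).2) g.2 hmero hn.symm
  have hu : (Units.map χ (toUnits g) : ℂˣ) ^ (2 * n) = 1 := Units.ext (by
    rw [Units.val_zpow_eq_zpow_val]; simpa [χ, denHom] using h1)
  have h2 := orderOf_dvd_iff_zpow_eq_one.mpr hu
  rw [← orderOf_units, Units.coe_map, val_toUnits_apply, orderOf_injective χ hχ, hg] at h2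
  rw [hord]
  have h3 : Nat.card S = 2 * ellOrder N z := card_fixed_eq N z
  rw [h3, Nat.cast_mul, Nat.cast_ofNat] at h2
  exact (mul_dvd_mul_iff_left (by norm_num)).mp h2

end FLTAgent.ModularPlaces
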