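import Fermat.Agent.ModularPlaces.Orders
import Fermat.Agent.ModularPlaces.CuspCount

/-!
# Widths and orders at the cusps

The width of a cusp is the size of a translation orbit of cosets (`card_orbit_eq_cuspWidth`).
`HasCuspOrder` measures the order in `exp (2πiz/h)`, `h` the width; it is unique, and
`exists_hasCuspOrder` shows that an invariant meromorphic function, meromorphic at the cusps and
not identically zero, has one: its cusp function is analytic at `0` by boundedness.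
-/

set_option autoImplicit false

noncomputable section

open UpperHalfPlane CongruenceSubgroup Filter Topology Function
open scoped MatrixGroups

namespace FLTAgent.ModularPlaces

open FLTAgent.Modular

variable {N : ℕ}

theorem conj_mem_iff_smul (γ : SL(2, ℤ)) (t : SL(2, ℤ)) :
    γ * t * γ⁻¹ ∈ Gamma0 N ↔
      t • ((γ⁻¹ : SL(2, ℤ)) : SL(2, ℤ) ⧸ Gamma0 N) = ((γ⁻¹ : SL(2, ℤ)) : SL(2, ℤ) ⧸ Gamma0 N) := by
  show _ ↔ ((t * γ⁻¹ : SL(2, ℤ)) : SL(2, ℤ) ⧸ Gamma0 N) = _
  rw [eq_comm, QuotientGroup.eq, inv_inv, mul_assoc]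

theorem T_zpow_N_mem (N : ℕ) (γ : SL(2, ℤ)) :
    γ * ModularGroup.T ^ (N : ℤ) * γ⁻¹ ∈ Gamma0 N := by
  rw [Gamma0_mem, ZMod.intCast_zmod_eq_zero_iff_dvd]
  simp only [Matrix.SpecialLinearGroup.coe_mul, Matrix.SpecialLinearGroup.coe_inv,
    ModularGroup.coe_T_zpow, Matrix.adjugate_fin_two, Matrix.mul_apply, Fin.sum_univ_two]
  refine ⟨-(γ.1 1 0 * γ.1 1 0), ?_⟩
  simp
  ring

variable [NeZero N]

theorem cuspWidth_spec (γ : SL(2, ℤ)) :
    0 < cuspWidth N γ ∧ γ * ModularGroup.T ^ (cuspWidth N γ : ℤ) * γ⁻¹ ∈ Gamma0 N :=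
  Nat.sInf_mem (s := {w : ℕ | 0 < w ∧ (γ * ModularGroup.T ^ (w : ℤ) * γ⁻¹) ∈ Gamma0 N})
    ⟨N, NeZero.pos N, T_zpow_N_mem N γ⟩

theorem cuspWidth_eq_minimalPeriod (γ : SL(2, ℤ)) :
    cuspWidth N γ = minimalPeriod (ModularGroup.T • ·)
      ((γ⁻¹ : SL(2, ℤ)) : SL(2, ℤ) ⧸ Gamma0 N) := by
  have key : ∀ w : ℕ, γ * ModularGroup.T ^ (w : ℤ) * γ⁻¹ ∈ Gamma0 N ↔
      IsPeriodicPt (ModularGroup.T • ·) w ((γ⁻¹ : SL(2, ℤ)) : SL(2, ℤ) ⧸ Gamma0 N) := by
    intro w
    rw [conj_mem_iff_smul, zpow_natCast, IsPeriodicPt, IsFixedPt, smul_iterate]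
  obtain ⟨hpos, hmem⟩ := cuspWidth_spec (N := N) γ
  refine le_antisymm (Nat.sInf_le ⟨?_, (key _).mpr (isPeriodicPt_minimalPeriod _ _)⟩)
    (((key _).mp hmem).minimalPeriod_le hpos)
  exact ((key _).mp hmem).minimalPeriod_pos hpos

theorem cuspWidth_dvd (γ : SL(2, ℤ)) : cuspWidth N γ ∣ N := by
  rw [cuspWidth_eq_minimalPeriod]
  refine IsPeriodicPt.minimalPeriod_dvd ?_
  rw [IsPeriodicPt, IsFixedPt, smul_iterate, ← zpow_natCast]
  exact (conj_mem_iff_smul γ _).mp (T_zpow_N_mem N γ)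

theorem card_orbit_eq_cuspWidth (γ : SL(2, ℤ)) :
    Nat.card (MulAction.orbit (Subgroup.zpowers ModularGroup.T)
      ((γ⁻¹ : SL(2, ℤ)) : SL(2, ℤ) ⧸ Gamma0 N)) = cuspWidth N γ := by
  refine (Nat.card_congr (MulAction.orbitZPowersEquiv ModularGroup.T
    ((γ⁻¹ : SL(2, ℤ)) : SL(2, ℤ) ⧸ Gamma0 N))).trans ?_
  rw [Nat.card_zmod, cuspWidth_eq_minimalPeriod]

theorem qPow_eq_qParam_zpow (h : ℝ) (k : ℤ) (z : ℍ) :
    qPow h k z = Periodic.qParam h (z : ℂ) ^ k := by
  rw [qPow, Periodic.qParam, ← Complex.exp_int_mul]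
  congr 1
  ring

theorem periodic_smul {f : ℍ → ℂ} (γ : SL(2, ℤ))
    (hf : ∀ g ∈ Gamma0 N, ∀ w : ℍ, f (g • w) = f w) :
    Periodic ((fun z : ℍ => f (γ • z)) ∘ ofComplex) ((cuspWidth N γ : ℝ) : ℂ) := by
  intro w
  simp only [Function.comp_apply]
  by_cases hw : 0 < w.im
  · have hw' : 0 < (w + ((cuspWidth N γ : ℝ) : ℂ)).im := by simpa using hw
    rw [ofComplex_apply_of_im_pos hw, ofComplex_apply_of_im_pos hw']
    have : (⟨w + ((cuspWidth N γ : ℝ) : ℂ), hw'⟩ : ℍ)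
        = ModularGroup.T ^ (cuspWidth N γ : ℤ) • ⟨w, hw⟩ := by
      apply UpperHalfPlane.ext
      rw [ModularGroup.coe_T_zpow_smul_eq]
      simp
    rw [this, ← mul_smul]
    conv_lhs => rw [show γ * ModularGroup.T ^ (cuspWidth N γ : ℤ)
      = γ * ModularGroup.T ^ (cuspWidth N γ : ℤ) * γ⁻¹ * γ by group, mul_smul]
    exact hf _ (cuspWidth_spec γ).2 _
  · have hw' : ¬0 < (w + ((cuspWidth N γ : ℝ) : ℂ)).im := by simpa using hw
    rw [ofComplex_apply_of_im_nonpos (not_lt.mp hw), ofComplex_apply_of_im_nonpos (not_lt.mp hw')]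

/-- `n` is the order of `f` at the cusp `γ ∞`, measured in `exp (2πiz/h)`. -/
def HasCuspOrder (N : ℕ) (γ : SL(2, ℤ)) (f : ℍ → ℂ) (n : ℤ) : Prop :=
  ∃ c : ℂ, c ≠ 0 ∧ Tendsto (fun z : ℍ => f (γ • z) * qPow (cuspWidth N γ : ℝ) (-n) z)
    atImInfty (𝓝 c)

theorem tendsto_qPow {h : ℝ} (hh : 0 < h) {k : ℕ} (hk : 0 < k) :
    Tendsto (fun z : ℍ => qPow h k z) atImInfty (𝓝 0) := by
  have : Tendsto (fun z : ℍ => Periodic.qParam h (z : ℂ) ^ k) atImInfty (𝓝 ((0 : ℂ) ^ k)) :=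
    (qParam_tendsto_atImInfty hh).pow k
  rw [zero_pow hk.ne'] at this
  simpa [qPow_eq_qParam_zpow] using this

theorem HasCuspOrder.unique {γ : SL(2, ℤ)} {f : ℍ → ℂ} {n n' : ℤ}
    (h : HasCuspOrder N γ f n) (h' : HasCuspOrder N γ f n') : n = n' := by
  have hh : (0 : ℝ) < (cuspWidth N γ : ℝ) := by exact_mod_cast (cuspWidth_spec γ).1
  by_contra hne
  wlog hlt : n < n' generalizing n n'
  · exact this h' h (Ne.symm hne) (lt_of_le_of_ne (not_lt.mp hlt) (Ne.symm hne))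
  obtain ⟨c, hc, hc'⟩ := h
  obtain ⟨d, hd, hd'⟩ := h'
  obtain ⟨k, hk⟩ := Int.eq_ofNat_of_zero_le (sub_nonneg.mpr hlt.le)
  have h0 := hd'.mul (tendsto_qPow hh (k := k) (by omega))
  rw [mul_zero] at h0
  refine hc (tendsto_nhds_unique hc' (h0.congr fun z => ?_))
  rw [mul_assoc, qPow_eq_qParam_zpow, qPow_eq_qParam_zpow, qPow_eq_qParam_zpow,
    ← zpow_add₀ (Periodic.qParam_ne_zero _), show -n' + (k : ℤ) = -n by omega]

/-- A meromorphic invariant function which is not identically zero has an order at each cusp. -/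
theorem exists_hasCuspOrder {f : ℍ → ℂ} (hmero : IsMero f) (hcusp : IsMeroAtCusps N f)
    (hinv : ∀ g ∈ Gamma0 N, ∀ w : ℍ, f (g • w) = f w)
    (hne : ∀ z : ℍ, meromorphicOrderAt (f ∘ ofComplex) (z : ℂ) ≠ ⊤) (γ : SL(2, ℤ)) :
    ∃ n : ℤ, HasCuspOrder N γ f n := by
  have hh : (0 : ℝ) < (cuspWidth N γ : ℝ) := by exact_mod_cast (cuspWidth_spec γ).1
  obtain ⟨n₀, hb⟩ := hcusp γ
  obtain ⟨M, A, hMA⟩ := UpperHalfPlane.isBoundedAtImInfty_iff.mp hb
  set h : ℝ := (cuspWidth N γ : ℝ) with hh'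
  let F : ℂ → ℂ := (fun z : ℍ => f (γ • z)) ∘ ofComplex
  let u : ℂ → ℂ := fun w => Periodic.qParam h w ^ n₀ * F w
  have hFnf : ∀ z : ℍ, MeromorphicNFAt F z := by
    intro z
    have h1 := (meromorphicNFAt_congr (eventuallyEq_smul_comp_ofComplex f γ z)).mpr ?_
    · exact h1
    have hd := den_ne_zero γ z.im_pos
    rw [meromorphicNFAt_comp_iff_of_deriv_ne_zero (analyticAt_mob γ hd)
      (by rw [(hasDerivAt_mob γ hd).deriv]; simp [hd]), ← coe_smul_eq_mob]
    exact hmero (γ • z)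
  have hqper : Periodic (Periodic.qParam h) (h : ℂ) := by
    intro w
    have hne' : (h : ℂ) ≠ 0 := by exact_mod_cast hh.ne'
    rw [Periodic.qParam, Periodic.qParam,
      show 2 * (Real.pi : ℂ) * Complex.I * (w + h) / h
        = 2 * Real.pi * Complex.I * w / h + 2 * Real.pi * Complex.I by field_simp,
      Complex.exp_add, Complex.exp_two_pi_mul_I, mul_one]
  have hper : Periodic u (h : ℂ) := fun w => by
    show Periodic.qParam h (w + h) ^ n₀ * F (w + h) = _
    rw [hqper w]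
    exact congrArg _ (periodic_smul γ hinv w)
  have hbd : ∀ w : ℂ, A < w.im → 0 < w.im → ‖u w‖ ≤ M := by
    intro w hA hw
    have h1 := hMA ⟨w, hw⟩ hA.le
    simp only [u, F, Function.comp_apply, ofComplex_apply_of_im_pos hw]
    rw [norm_mul] at h1 ⊢
    refine le_trans (mul_le_mul_of_nonneg_right ?_ (norm_nonneg _)) h1
    rw [qPow_eq_qParam_zpow, zpow_natCast, norm_pow, norm_pow, Periodic.norm_qParam,
      Periodic.norm_qParam]
    refine pow_le_pow_left₀ (Real.exp_pos _).le (Real.exp_le_exp.mpr ?_) n₀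
    have hN : h ≤ (N : ℝ) := by
      rw [hh']; exact_mod_cast Nat.le_of_dvd (NeZero.pos N) (cuspWidth_dvd γ)
    rw [neg_mul, neg_mul, neg_div, neg_div, neg_le_neg_iff]
    exact div_le_div_of_nonneg_left (by positivity) hh hN
  have han : ∀ w : ℂ, A < w.im → 0 < w.im → DifferentiableAt ℂ u w := by
    intro w hA hw
    have hF := hFnf ⟨w, hw⟩
    have hq : AnalyticAt ℂ (fun x => Periodic.qParam h x ^ n₀) w :=
      ((Periodic.differentiable_qParam.analyticAt w)).pow n₀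
    refine (?_ : AnalyticAt ℂ u w).differentiableAt
    refine hq.mul ?_
    rw [← MeromorphicNFAt.meromorphicOrderAt_nonneg_iff_analyticAt hF]
    by_contra hlt
    rw [not_le] at hlt
    have hpole := tendsto_cobounded_of_meromorphicOrderAt_neg hlt
    obtain ⟨ε, hε, hεq⟩ : ∃ ε : ℝ, 0 < ε ∧ ∀ᶠ x in 𝓝 w, ε ≤ ‖Periodic.qParam h x ^ n₀‖ := by
      refine ⟨‖Periodic.qParam h w ^ n₀‖ / 2, ?_, ?_⟩
      · have := norm_pos_iff.mpr (pow_ne_zero n₀ (Periodic.qParam_ne_zero (h := h) w))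
        linarith
      · exact hq.continuousAt.norm.tendsto.eventually_const_le
          (half_lt_self (norm_pos_iff.mpr (pow_ne_zero n₀ (Periodic.qParam_ne_zero w))))
    have hev : ∀ᶠ x in 𝓝[≠] w, ‖F x‖ ≤ M / ε := by
      filter_upwards [nhdsWithin_le_nhds hεq, nhdsWithin_le_nhds
        (((isOpen_lt continuous_const Complex.continuous_im).inter
          (isOpen_lt continuous_const Complex.continuous_im)).mem_nhds ⟨hA, hw⟩)] with x hx hx'
      rw [le_div_iff₀ hε]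
      have h2 := hbd x hx'.1 hx'.2
      simp only [u, norm_mul] at h2
      nlinarith [norm_nonneg (F x)]
    have h2 := (tendsto_norm_cobounded_atTop.comp hpole).eventually (eventually_gt_atTop (M / ε))
    obtain ⟨x, hx1, hx2⟩ := (hev.and h2).exists
    simp only [Function.comp_apply] at hx2
    linarith
  have hI : ∀ᶠ w in Filter.comap Complex.im atTop, A < w.im ∧ 0 < w.im :=
    ((eventually_gt_atTop A).and (eventually_gt_atTop (0 : ℝ))).comap _
  have hG : AnalyticAt ℂ (Periodic.cuspFunction h u) 0 := by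
    have hev : ∀ᶠ q in 𝓝[≠] (0 : ℂ), DifferentiableAt ℂ (Periodic.cuspFunction h u) q :=
      Periodic.eventually_differentiableAt_cuspFunction_nhds_ne_zero hh hper
        (hI.mono fun w hw => han w hw.1 hw.2)
    have h0 : DifferentiableAt ℂ (Periodic.cuspFunction h u) 0 :=
      Periodic.differentiableAt_cuspFunction_zero hh hper (hI.mono fun w hw => han w hw.1 hw.2)
        (Asymptotics.IsBigO.of_bound M (hI.mono fun w hw => by simpa using hbd w hw.1 hw.2))
    rw [eventually_nhdsWithin_iff] at hev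
    refine Complex.analyticAt_iff_eventually_differentiableAt.mpr (hev.mono fun q hq => ?_)
    by_cases hq0 : q = 0
    · exact hq0 ▸ h0
    · exact hq hq0
  have hnz : ¬ ∀ᶠ q in 𝓝 (0 : ℂ), Periodic.cuspFunction h u q = 0 := by
    intro hz
    have h1 : ∀ᶠ z : ℍ in atImInfty, f (γ • z) = 0 := by
      filter_upwards [(qParam_tendsto_atImInfty hh).eventually hz] with z hz
      rw [Periodic.eq_cuspFunction hh.ne' hper] at hz
      have := (mul_eq_zero.mp hz).resolve_left (pow_ne_zero _ (Periodic.qParam_ne_zero _))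
      simpa [F, ofComplex_apply] using this
    obtain ⟨B, hB⟩ := (atImInfty_mem _).mp h1
    let z : ℍ := ⟨(max B 1 + 1 : ℝ) * Complex.I, by simp; linarith [le_max_right B 1]⟩
    apply hne (γ • z)
    rw [← meromorphicOrderAt_smul f γ z, meromorphicOrderAt_eq_top_iff]
    have hB1 : ∀ w : ℂ, max B 1 < w.im → ((fun z : ℍ => f (γ • z)) ∘ ofComplex) w = 0 := by
      intro w hw
      have hw0 : 0 < w.im := by linarith [le_max_right B 1]
      simp only [Function.comp_apply, ofComplex_apply_of_im_pos hw0]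
      exact hB ⟨w, hw0⟩ (le_of_lt (lt_of_le_of_lt (le_max_left B 1) hw))
    have hzim : max B 1 < ((z : ℍ) : ℂ).im := by simp [z]
    exact eventually_nhdsWithin_of_eventually_nhds
      (((isOpen_lt continuous_const Complex.continuous_im).mem_nhds hzim) |> fun hmem =>
        Filter.mem_of_superset hmem hB1)
  obtain ⟨m, g, hg, hg0, hmg⟩ :=
    (hG.exists_eventuallyEq_pow_smul_nonzero_iff).mpr hnz
  refine ⟨(m : ℤ) - n₀, g 0, hg0, ?_⟩
  have ht : Tendsto (fun z : ℍ => g (Periodic.qParam h (z : ℂ))) atImInfty (𝓝 (g 0)) :=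
    hg.continuousAt.tendsto.comp (qParam_tendsto_atImInfty hh)
  refine ht.congr' ?_
  filter_upwards [(qParam_tendsto_atImInfty hh).eventually hmg] with z hz
  have hz' : u z = Periodic.qParam h (z : ℂ) ^ m * g (Periodic.qParam h (z : ℂ)) := by
    rw [← Periodic.eq_cuspFunction hh.ne' hper, hz]; simp [smul_eq_mul]
  have hF : F z = f (γ • z) := by simp [F, ofComplex_apply]
  simp only [u, hF] at hz'
  have hq := Periodic.qParam_ne_zero (h := h) (z : ℂ)
  rw [qPow_eq_qParam_zpow, neg_sub, zpow_sub₀ hq, zpow_natCast, zpow_natCast, mul_div,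
    mul_comm (f (γ • z)), hz', mul_comm, mul_div_cancel_right₀ _ (pow_ne_zero m hq)]

end FLTAgent.ModularPlaces
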