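import Fermat.Agent.ModularPlaces.JMap

/-!
# Surjectivity and multiplicities of `j`

`ordH_jE_sub`: `j - j(z)` vanishes at `z` to order `ellOrder 1 z`, by divisibility one way and,
the other way, because the `n` nearby preimages in a local coordinate are moved to each other by
the stabiliser. `exists_jE_eq`: `j` is surjective, since a missed value would give a nonconstant
level one form of weight zero.
-/

set_option autoImplicit false

noncomputable section

open UpperHalfPlane CongruenceSubgroup Filter Topology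
open scoped MatrixGroups ModularForm

namespace FLTAgent.ModularPlaces

open FLTAgent.Modular

theorem differentiableAt_jE (z : ℍ) : DifferentiableAt ℂ (jE ∘ ofComplex) (z : ℂ) := by
  have h1 : DifferentiableAt ℂ (ModularForm.E₄ ∘ ofComplex) (z : ℂ) :=
    UpperHalfPlane.mdifferentiableAt_iff.mp (ModularFormClass.holo ModularForm.E₄ z)
  have h2 : DifferentiableAt ℂ (ModularForm.discriminant ∘ ofComplex) (z : ℂ) := by
    rw [← CuspForm.coe_discriminant]
    exact UpperHalfPlane.mdifferentiableAt_iff.mp (CuspFormClass.holo CuspForm.discriminant z)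
  exact (h1.pow 3).div h2 (ModularForm.discriminant_ne_zero _)

theorem analyticAt_jE (z : ℍ) : AnalyticAt ℂ (jE ∘ ofComplex) (z : ℂ) := by
  refine (DifferentiableOn.analyticAt (s := {w : ℂ | 0 < w.im}) ?_
    ((isOpen_lt continuous_const Complex.continuous_im).mem_nhds z.im_pos))
  intro w hw
  exact (differentiableAt_jE ⟨w, hw⟩).differentiableWithinAt

theorem jE_not_const (c : ℂ) : ∃ z : ℍ, jE z ≠ c := by
  by_contra h
  push Not at h
  have h1 : ∀ z : ℍ, ModularForm.E₄ z ^ 3 = c * ModularForm.discriminant z := fun z => by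
    rw [← h z, jE, div_mul_cancel₀ _ (ModularForm.discriminant_ne_zero z)]
  have h3 := (tendsto_E (k := 4) (by norm_num) ⟨2, rfl⟩).pow 3
  have h4 := tendsto_discriminant.const_mul c
  rw [mul_zero] at h4
  have h5 := tendsto_nhds_unique (h4.congr fun z => (h1 z).symm) h3
  norm_num at h5

theorem meromorphicOrderAt_jE_sub_ne_top (c : ℂ) (z : ℍ) :
    meromorphicOrderAt ((fun w => jE w - c) ∘ ofComplex) (z : ℂ) ≠ ⊤ := by
  intro h
  obtain ⟨w, hw⟩ := jE_not_const c
  rw [meromorphicOrderAt_eq_top_iff] at h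
  have han : AnalyticOnNhd ℂ ((fun w => jE w - c) ∘ ofComplex) {w : ℂ | 0 < w.im} := fun x hx =>
    (analyticAt_jE ⟨x, hx⟩).sub analyticAt_const
  have := han.eqOn_zero_of_preconnected_of_frequently_eq_zero
    (convex_halfSpace_im_gt 0).isPreconnected z.im_pos h.frequently w.im_pos
  simp [ofComplex_apply, sub_eq_zero] at this
  exact hw this

theorem ellOrder_one_eq (z : ℍ) :
    Nat.card (MulAction.stabilizer SL(2, ℤ) z) = 2 * ellOrder 1 z := by
  rw [← card_fixed_eq 1 z]
  have hmem : ∀ γ : SL(2, ℤ), γ ∈ Gamma0 1 := fun γ => by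
    rw [Gamma0_mem]; exact Subsingleton.elim _ _
  exact Nat.card_congr
    { toFun := fun γ => ⟨⟨γ.1, hmem γ.1⟩, γ.2⟩
      invFun := fun γ => ⟨γ.1.1, γ.2⟩
      left_inv := fun _ => rfl
      right_inv := fun _ => rfl }

/-- The multiplicity of `j` at `z`. -/
theorem ordH_jE_sub (z : ℍ) : ordH (fun w => jE w - jE z) z = ellOrder 1 z := by
  set f : ℂ → ℂ := (fun w => jE w - jE z) ∘ ofComplex with hf
  have han : AnalyticAt ℂ f z := (analyticAt_jE z).sub analyticAt_const
  have hdvd := ellOrder_dvd 1 (f := fun w => jE w - jE z)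
    (fun γ _ w => by simp only [jE_smul]) z han.meromorphicAt
  have hne := meromorphicOrderAt_jE_sub_ne_top (jE z) z
  obtain ⟨n, h, hh, hh0, hnh⟩ := han.exists_eventuallyEq_pow_smul_nonzero_iff.mpr (fun hc => hne
    (meromorphicOrderAt_eq_top_iff.mpr (hc.filter_mono nhdsWithin_le_nhds)))
  simp only [smul_eq_mul] at hnh
  have hord : ordH (fun w => jE w - jE z) z = n := by
    have h' : meromorphicOrderAt f (z : ℂ) = ((n : ℤ) : WithTop ℤ) :=
      (meromorphicOrderAt_eq_int_iff han.meromorphicAt).mpr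
        ⟨h, hh, hh0, by filter_upwards [nhdsWithin_le_nhds hnh] with w hw; simp [hw]⟩
    show (meromorphicOrderAt f (z : ℂ)).untop₀ = _
    rw [h']; rfl
  rw [hord] at hdvd ⊢
  have hn : 0 < n := by
    rcases Nat.eq_zero_or_pos n with rfl | hn
    · exact absurd (by simpa [hf, ofComplex_apply] using hnh.self_of_nhds) (Ne.symm hh0)
    · exact hn
  refine le_antisymm ?_ (Int.le_of_dvd (by exact_mod_cast hn) hdvd)
  -- local coordinate `g` with `j - j z = gⁿ`
  set r : ℂ → ℂ := fun w => Complex.exp (Complex.log (h w / h z) / n) * h z ^ ((n : ℂ)⁻¹) with hr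
  have hra : AnalyticAt ℂ r z := by
    refine AnalyticAt.mul (AnalyticAt.cexp ((AnalyticAt.clog (hh.div analyticAt_const hh0) ?_).div
      analyticAt_const (by exact_mod_cast hn.ne'))) analyticAt_const
    rw [Pi.div_apply, div_self hh0]
    exact Complex.one_mem_slitPlane
  have hrn : ∀ᶠ w in 𝓝 (z : ℂ), r w ^ n = h w := by
    filter_upwards [hh.continuousAt.eventually_ne hh0] with w hw
    rw [hr, mul_pow, ← Complex.exp_nat_mul, mul_div_cancel₀ _ (by exact_mod_cast hn.ne'),
      Complex.exp_log (div_ne_zero hw hh0), Complex.cpow_nat_inv_pow _ hn.ne',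
      div_mul_cancel₀ _ hh0]
  have hr0 : r z ≠ 0 := fun h0 => hh0 (by rw [← hrn.self_of_nhds, h0, zero_pow hn.ne'])
  set g : ℂ → ℂ := fun w => (w - z) * r w with hg
  have hga : AnalyticAt ℂ g z := (analyticAt_id.sub analyticAt_const).mul hra
  have hgd : HasStrictDerivAt g (r z) (z : ℂ) := by
    have := HasStrictDerivAt.fun_mul ((hasStrictDerivAt_id (z : ℂ)).sub_const (z : ℂ))
      hra.hasStrictDerivAt
    simpa [hg] using this
  have hgn : ∀ᶠ w in 𝓝 (z : ℂ), f w = g w ^ n := by
    filter_upwards [hnh, hrn] with w h1 h2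
    rw [h1, hg, mul_pow, h2]
  -- nearby points in one orbit are related by the stabiliser
  obtain ⟨U, hU, hUst⟩ :=
    ProperlyDiscontinuousSMul.exists_nhds_image_smul_eq_self (𝒮ℒ) z
  have hUc : ∀ᶠ w in 𝓝 (z : ℂ), 0 < w.im ∧ ofComplex w ∈ U ∧ f w = g w ^ n := by
    have h1 : Tendsto ofComplex (𝓝 (z : ℂ)) (𝓝 z) := by
      have := (UpperHalfPlane.contMDiffAt_ofComplex (n := ⊤) z.im_pos).continuousAt
      rwa [ContinuousAt, ofComplex_apply] at this
    exact Filter.Eventually.and ((isOpen_lt continuous_const Complex.continuous_im).mem_nhds z.im_pos)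
      (Filter.Eventually.and (h1.eventually hU) hgn)
  have himg : g '' {w | 0 < w.im ∧ ofComplex w ∈ U ∧ f w = g w ^ n} ∈ 𝓝 (0 : ℂ) := by
    have := hgd.map_nhds_eq hr0
    rw [show g z = 0 by simp [hg]] at this
    rw [← this]
    exact image_mem_map hUc
  obtain ⟨ε, hε, hball⟩ := Metric.mem_nhds_iff.mp himg
  set ζ : ℂ := Complex.exp (2 * Real.pi * Complex.I / n)
  have hζ : IsPrimitiveRoot ζ n := Complex.isPrimitiveRoot_exp n hn.ne'
  have hpre : ∀ i : Fin n, ∃ w : ℍ, w ∈ U ∧ g (w : ℂ) = (ε / 2 : ℝ) * ζ ^ (i : ℕ) ∧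
      jE w - jE z = ((ε / 2 : ℝ) : ℂ) ^ n := by
    intro i
    obtain ⟨w, ⟨hw, hwU, hfw⟩, hgw⟩ := hball (show ((ε / 2 : ℝ) : ℂ) * ζ ^ (i : ℕ) ∈ Metric.ball 0 ε by
      rw [mem_ball_zero_iff, norm_mul, norm_pow, hζ.norm'_eq_one hn.ne', one_pow, mul_one,
        Complex.norm_real, Real.norm_of_nonneg (by linarith)]
      linarith)
    refine ⟨⟨w, hw⟩, ?_, hgw, ?_⟩
    · rwa [← ofComplex_apply_of_im_pos hw]
    · rw [hgw, mul_pow, ← pow_mul, mul_comm (i : ℕ), pow_mul, hζ.pow_eq_one, one_pow, mul_one,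
        hf, Function.comp_apply, ofComplex_apply_of_im_pos hw] at hfw
      exact hfw
  choose p hpU hpg hpj using hpre
  have hst : ∀ i, ∃ γ : MulAction.stabilizer SL(2, ℤ) z, (γ : SL(2, ℤ)) • p ⟨0, hn⟩ = p i := by
    intro i
    obtain ⟨γ, hγ⟩ := jE_injective_mod (z := p ⟨0, hn⟩) (z' := p i)
      (by linear_combination hpj ⟨0, hn⟩ - hpj i)
    refine ⟨⟨γ, ?_⟩, hγ⟩
    have := hUst ⟨(γ : GL (Fin 2) ℝ), γ, rfl⟩ ⟨p i, ⟨p ⟨0, hn⟩, hpU _, hγ⟩, hpU i⟩
    exact this
  choose γ hγ using hst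
  have hpinj : Function.Injective p := by
    intro i j h
    have h2 : ((ε / 2 : ℝ) : ℂ) ≠ 0 := by exact_mod_cast (by linarith : ε / 2 ≠ 0)
    have h1 := congrArg (fun w : ℍ => g (w : ℂ)) h
    simp only [hpg] at h1
    exact Fin.ext (hζ.pow_inj i.2 j.2 (mul_left_cancel₀ h2 h1))
  let neg : MulAction.stabilizer SL(2, ℤ) z → MulAction.stabilizer SL(2, ℤ) z := fun a =>
    ⟨-(a : SL(2, ℤ)), by
      show (-(a : SL(2, ℤ))) • z = z
      rw [ModularGroup.SL_neg_smul]; exact a.2⟩
  let ψ : Fin n × Bool → MulAction.stabilizer SL(2, ℤ) z := fun q =>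
    if q.2 then γ q.1 else neg (γ q.1)
  have hψ : Function.Injective ψ := by
    rintro ⟨i, b⟩ ⟨j, c⟩ h
    have key : ∀ q, ((ψ q : MulAction.stabilizer SL(2, ℤ) z) : SL(2, ℤ)) • p ⟨0, hn⟩ = p q.1 := by
      rintro ⟨i, b⟩
      cases b
      · show (-((γ i : MulAction.stabilizer SL(2, ℤ) z) : SL(2, ℤ))) • _ = _
        rw [ModularGroup.SL_neg_smul]; exact hγ i
      · exact hγ i
    have hij : i = j := hpinj (by rw [← key (i, b), ← key (j, c), h])
    subst hij
    have hne' : γ i ≠ neg (γ i) := by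
      intro h'
      have h'' : ∀ a b : Fin 2, (γ i).1.1 a b = -(γ i).1.1 a b := fun a b => by
        have := congrArg (fun x : MulAction.stabilizer SL(2, ℤ) z => x.1.1 a b) h'
        simpa [neg] using this
      have hdet := (γ i).1.2
      rw [Matrix.det_fin_two] at hdet
      rw [show (γ i).1.1 0 0 = 0 by linarith [h'' 0 0], show (γ i).1.1 0 1 = 0 by linarith [h'' 0 1]]
        at hdet
      simp at hdet
    cases b <;> cases c <;> simp [ψ, hne', Ne.symm hne'] at h ⊢
  have := finite_stabilizer z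
  have h2 := Nat.card_le_card_of_injective ψ hψ
  rw [Nat.card_prod, Nat.card_fin, Nat.card_eq_fintype_card, Fintype.card_bool,
    ellOrder_one_eq] at h2
  exact_mod_cast (show n ≤ ellOrder 1 z by omega)

/-- `j : ℍ → ℂ` is surjective. -/
theorem exists_jE_eq (c : ℂ) : ∃ z : ℍ, jE z = c := by
  by_contra hc
  push Not at hc
  have hne : ∀ z : ℍ, ModularForm.E₄ z ^ 3 - c * ModularForm.discriminant z ≠ 0 := fun z h =>
    hc z (by rw [jE, div_eq_iff (ModularForm.discriminant_ne_zero z)]; linear_combination h)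
  let F : ℍ → ℂ := fun z => (jE z - c)⁻¹
  have hFeq : ∀ z, F z =
      ModularForm.discriminant z / (ModularForm.E₄ z ^ 3 - c * ModularForm.discriminant z) := by
    intro z
    have h1 := ModularForm.discriminant_ne_zero z
    simp only [F, jE, inv_eq_one_div]
    field_simp
  have hFsmul : ∀ γ : SL(2, ℤ), F ∣[(0 : ℤ)] γ = F := by
    intro γ
    ext z
    rw [ModularForm.SL_slash_apply]
    simp only [F, jE_smul, neg_zero, zpow_zero, mul_one]
  have hlim : Tendsto F atImInfty (𝓝 0) := by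
    have h1 := tendsto_discriminant
    have h2 := ((tendsto_E (k := 4) (by norm_num) ⟨2, rfl⟩).pow 3).sub (h1.const_mul c)
    have h3 := h1.div h2 (by norm_num)
    norm_num at h3
    exact h3.congr fun z => (hFeq z).symm
  let M : ModularForm 𝒮ℒ 0 :=
    { toFun := F
      slash_action_eq' := fun _ ⟨γ, hγ⟩ => hγ ▸ hFsmul γ
      holo' := fun z => UpperHalfPlane.mdifferentiableAt_iff.mpr
        (((differentiableAt_jE z).sub_const c).inv (by
          simp [ofComplex_apply, sub_eq_zero, hc z]))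
      bdd_at_cusps' := fun {d} hd => by
        rw [Subgroup.IsArithmetic.isCusp_iff_isCusp_SL2Z] at hd
        rw [OnePoint.isBoundedAt_iff_forall_SL2Z hd]
        intro γ _
        rw [hFsmul γ]
        exact hlim.isBigO_one ℝ }
  obtain ⟨c₀, hc₀⟩ := ModularFormClass.levelOne_weight_zero_const M
  have hc₀' : ∀ z, F z = c₀ := fun z => congrFun hc₀ z
  have hz : c₀ = 0 :=
    tendsto_nhds_unique ((tendsto_const_nhds).congr fun z => (hc₀' z).symm) hlim
  have hI := hc₀' UpperHalfPlane.I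
  rw [hz] at hI
  simp [F, sub_eq_zero, hc] at hI

end FLTAgent.ModularPlaces
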