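import Fermat.Agent.Modular.ModFun
import Fermat.Agent.ModularCosets.LevelOne
import Fermat.Agent.ModularPlaces.JMapLocal

/-!
# Functions of level one are rational in `j`

`exists_rat_jFun`: a modular function of level one agrees, away from a discrete set, with
`P(j)/Q(j)`, where `Q` does not vanish at values of `j` at which the function has no pole. There
are finitely many orbits of poles (`finite_poles`); clearing them leaves a holomorphic function,
which is a polynomial in `j`.
-/

set_option autoImplicit false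

noncomputable section

open UpperHalfPlane CongruenceSubgroup Filter Topology Polynomial Function
open scoped MatrixGroups Modular

namespace FLTAgent.ModularPlaces

open FLTAgent.Modular

theorem jFun_eq_jE : jFun = jE := by
  funext z; rw [jFun, jE, div_eq_mul_inv]

theorem jH_eq_jFun : ModularCosets.jH = jFun :=
  (isMero_of_analyticAt fun z => (ModularCosets.jH_diff).analyticAt
      (isOpen_upperHalfPlaneSet.mem_nhds z.im_pos)).eq_of_hasQExp one_pos
    isMero_jFun ModularCosets.jH_qExp hasQExp_jFun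

theorem tendsto_jFun_mul_qPow : Tendsto (fun z => jFun z * qPow 1 1 z) atImInfty (𝓝 1) := by
  have h := hasQExp_jFun.tendsto_leading one_pos (m := -1) fun k hk => by
    simp [ModularCurve.coeffEmb, ModularCurve.coeffMap_coeff, ModularCurve.coeff_jq_of_lt hk]
  rw [neg_neg] at h
  simpa [ModularCurve.coeffEmb, ModularCurve.coeffMap_coeff] using h

theorem tendsto_jFun_inv : Tendsto (fun z => (jFun z)⁻¹) atImInfty (𝓝 0) := by
  have hq : Tendsto (fun z : ℍ => qPow 1 1 z) atImInfty (𝓝 0) := by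
    simpa [qPow_one_eq_qParam] using qParam_tendsto_atImInfty one_pos
  have h := hq.div tendsto_jFun_mul_qPow one_ne_zero
  rw [zero_div] at h
  refine h.congr fun z => ?_
  have := qPow_ne_zero 1 1 z
  simp only [Pi.div_apply]
  by_cases hj : jFun z = 0
  · simp [hj]
  · field_simp

/-- A level one meromorphic function is regular away from finitely many orbits. -/
theorem finite_poles {f : ℍ → ℂ} (hf : IsMero f)
    (hinv : ∀ (γ : SL(2, ℤ)) (z : ℍ), f (γ • z) = f z) {n : ℤ}
    (hb : IsBoundedAtImInfty fun z : ℍ => qPow 1 n z * f z) :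
    ∃ s : Finset ℍ, ∀ z : ℍ, ordH f z < 0 → ∃ γ : SL(2, ℤ), γ • z ∈ s := by
  have hev := hf.eventually_analyticAt_of_bounded hb
  obtain ⟨A, hA⟩ := (atImInfty_mem _).mp hev
  let K : Set ℍ := ModularGroup.truncatedFundamentalDomain A
  have hK : IsCompact K := ModularGroup.isCompact_truncatedFundamentalDomain A
  have hfin : {z ∈ K | ¬ AnalyticAt ℂ (f ∘ ofComplex) (z : ℂ)}.Finite := by
    have hloc : ∀ z : ℍ, ∀ᶠ w : ℍ in 𝓝[≠] z, AnalyticAt ℂ (f ∘ ofComplex) (w : ℂ) := by
      intro z
      have h1 : Tendsto (fun w : ℍ => (w : ℂ)) (𝓝[≠] z) (𝓝[≠] (z : ℂ)) :=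
        tendsto_nhdsWithin_iff.mpr
          ⟨(UpperHalfPlane.continuous_coe.tendsto z).mono_left nhdsWithin_le_nhds,
            eventually_nhdsWithin_of_forall fun w hw h => hw (UpperHalfPlane.ext h)⟩
      exact h1.eventually (hf.meromorphicAt z).eventually_analyticAt
    by_contra hinf
    obtain ⟨z, -, hz⟩ := Set.Infinite.exists_accPt_of_subset_isCompact hinf hK (fun w hw => hw.1)
    rw [accPt_iff_frequently_nhdsNE] at hz
    obtain ⟨w, hw, hw'⟩ := (hz.and_eventually (hloc z)).exists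
    exact hw.2 hw'
  refine ⟨hfin.toFinset, fun z hz => ?_⟩
  obtain ⟨γ, hγ⟩ := ModularGroup.exists_smul_mem_fd z
  refine ⟨γ, ?_⟩
  have hord : ordH f (γ • z) < 0 := by rwa [ordH_smul_of_invariant (hinv γ)]
  have hna : ¬ AnalyticAt ℂ (f ∘ ofComplex) ((γ • z : ℍ) : ℂ) := fun han => by
    have h' : (0 : WithTop ℤ) ≤ meromorphicOrderAt (f ∘ ofComplex) ((γ • z : ℍ) : ℂ) :=
      han.meromorphicOrderAt_nonneg
    unfold ordH at hord
    rcases hm : meromorphicOrderAt (f ∘ ofComplex) ((γ • z : ℍ) : ℂ) with _ | m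
    · rw [hm] at hord; exact absurd hord (by decide)
    · rw [hm] at hord h'
      exact absurd (show m < 0 from hord) (not_lt.mpr (WithTop.coe_le_coe.mp h'))
  rw [Set.Finite.mem_toFinset]
  refine ⟨⟨hγ, ?_⟩, hna⟩
  by_contra hA'
  exact hna (hA (γ • z) (le_of_lt (not_le.mp hA')))

theorem analyticAt_eval_jFun (P : ℂ[X]) (z : ℍ) :
    AnalyticAt ℂ ((fun w => P.eval (jFun w)) ∘ ofComplex) (z : ℂ) :=
  (P.differentiable.analyticAt _).comp (analyticAt_jFun z)

theorem exists_hasQExp_eval_jFun (P : ℂ[X]) : ∃ y, HasQExp 1 (fun w => P.eval (jFun w)) y := by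
  induction P using Polynomial.induction_on' with
  | add p q hp hq =>
    obtain ⟨y, hy⟩ := hp
    obtain ⟨y', hy'⟩ := hq
    exact ⟨y + y', (hy.add hy').congr (Eventually.of_forall fun z => (Polynomial.eval_add).symm)⟩
  | monomial k c =>
    refine ⟨_, ((hasQExp_const 1 c).mul (hasQExp_jFun.pow k)).congr
      (Eventually.of_forall fun z => ?_)⟩
    simp [Polynomial.eval_monomial]

/-- A function of level one is a rational function of `j`; at a value where it has no pole the
denominator does not vanish. -/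
theorem exists_rat_jFun {f : ℍ → ℂ} (hf : IsModFun 1 f) :
    ∃ P Q : ℂ[X], Q ≠ 0 ∧ (∀ z : ℍ, f ∘ ofComplex =ᶠ[𝓝[≠] (z : ℂ)]
        (fun w => P.eval (jFun w) / Q.eval (jFun w)) ∘ ofComplex) ∧
      ∀ z : ℍ, 0 ≤ ordH f z → Q.eval (jFun z) ≠ 0 := by
  classical
  have hinv : ∀ (γ : SL(2, ℤ)) (z : ℍ), f (γ • z) = f z := fun γ z =>
    hf.smul ⟨γ, by rw [Gamma0_mem]; exact Subsingleton.elim _ _⟩ z
  obtain ⟨n, hn⟩ := hf.meroCusp 1
  simp only [one_smul, Nat.cast_one] at hn
  obtain ⟨s, hs⟩ := finite_poles hf.mero hinv hn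
  set s' := s.filter fun z => ordH f z < 0 with hs'
  set Q : ℂ[X] := ∏ p ∈ s', (X - C (jFun p)) ^ (-ordH f p).toNat with hQ
  have hQ0 : Q ≠ 0 := Finset.prod_ne_zero_iff.mpr fun p _ => pow_ne_zero _ (X_sub_C_ne_zero _)
  have hQeval : ∀ w, Q.eval w = ∏ p ∈ s', (w - jFun p) ^ (-ordH f p).toNat := fun w => by
    simp [hQ, eval_prod]
  have hregular : ∀ z : ℍ, 0 ≤ ordH f z → Q.eval (jFun z) ≠ 0 := by
    intro z hz
    rw [hQeval]
    refine Finset.prod_ne_zero_iff.mpr fun p hp => pow_ne_zero _ (sub_ne_zero.mpr fun h => ?_)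
    rw [jFun_eq_jE] at h
    obtain ⟨γ, hγ⟩ := jE_injective_mod h
    have h2 := (Finset.mem_filter.mp hp).2
    rw [← hγ, ordH_smul_of_invariant (hinv γ)] at h2
    omega
  set g : ℍ → ℂ := nfH (f * fun w => Q.eval (jFun w)) with hg
  have hraw : IsMeroRaw (f * fun w => Q.eval (jFun w)) :=
    hf.mero.raw.mul fun x hx => (analyticAt_eval_jFun Q ⟨x, hx⟩).meromorphicAt
  have hgan : ∀ z : ℍ, AnalyticAt ℂ (g ∘ ofComplex) (z : ℂ) := by
    intro z
    rw [← (isMero_nfH hraw z).meromorphicOrderAt_nonneg_iff_analyticAt]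
    show 0 ≤ meromorphicOrderAt (nfH (f * fun w => Q.eval (jFun w)) ∘ ofComplex) (z : ℂ)
    rw [meromorphicOrderAt_nfH hraw]
    have hmf := hf.mero.meromorphicAt z
    have han := analyticAt_eval_jFun Q z
    rw [show (f * fun w => Q.eval (jFun w)) ∘ ofComplex
        = (f ∘ ofComplex) * ((fun w => Q.eval (jFun w)) ∘ ofComplex) from rfl,
      meromorphicOrderAt_mul hmf han.meromorphicAt]
    by_cases hz : 0 ≤ ordH f z
    · refine add_nonneg ?_ han.meromorphicOrderAt_nonneg
      rcases h : meromorphicOrderAt (f ∘ ofComplex) (z : ℂ) with _ | m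
      · exact le_top
      · unfold ordH at hz; rw [h] at hz
        exact WithTop.coe_le_coe.mpr hz
    rw [not_le] at hz
    obtain ⟨γ, hγ⟩ := hs z hz
    have hp : γ • z ∈ s' := Finset.mem_filter.mpr ⟨hγ, by rwa [ordH_smul_of_invariant (hinv γ)]⟩
    set m := ordH f z with hm
    have hfm : meromorphicOrderAt (f ∘ ofComplex) (z : ℂ) = ((m : ℤ) : WithTop ℤ) := by
      rw [hm, ordH]
      refine (WithTop.coe_untop₀_of_ne_top ?_).symm
      intro htop
      rw [hm, ordH, htop] at hz
      exact absurd hz (by decide)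
    set u : ℂ → ℂ := (fun w => jFun w - jFun z) ∘ ofComplex with hu
    set R : ℂ[X] := ∏ p ∈ s'.erase (γ • z), (X - C (jFun p)) ^ (-ordH f p).toNat with hR
    have hua : AnalyticAt ℂ u z := (analyticAt_jFun z).sub analyticAt_const
    have hsplit : (fun w => Q.eval (jFun w)) ∘ ofComplex =
        u ^ (-m).toNat * ((fun w => R.eval (jFun w)) ∘ ofComplex) := by
      funext w
      simp only [Function.comp_apply, Pi.mul_apply, Pi.pow_apply, hu]
      rw [hQ, ← Finset.mul_prod_erase s' _ hp, eval_mul, ordH_smul_of_invariant (hinv γ),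
        jFun_smul]
      simp [hR, hm]
    have hu1 : (1 : WithTop ℤ) ≤ meromorphicOrderAt u (z : ℂ) := by
      have hz0 : u z = 0 := by simp [hu, ofComplex_apply]
      rcases h : meromorphicOrderAt u (z : ℂ) with _ | k
      · exact le_top
      · have hpos : (0 : WithTop ℤ) < meromorphicOrderAt u (z : ℂ) :=
          (tendsto_zero_iff_meromorphicOrderAt_pos hua.meromorphicAt).mp
            (hz0 ▸ hua.continuousAt.tendsto.mono_left nhdsWithin_le_nhds)
        rw [h] at hpos
        exact WithTop.coe_le_coe.mpr (WithTop.coe_lt_coe.mp hpos)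
    rw [hsplit, meromorphicOrderAt_mul (hua.meromorphicAt.pow _)
      (analyticAt_eval_jFun R z).meromorphicAt, meromorphicOrderAt_pow hua.meromorphicAt, hfm,
      ← add_assoc]
    refine add_nonneg ?_ (analyticAt_eval_jFun R z).meromorphicOrderAt_nonneg
    rcases h : meromorphicOrderAt u (z : ℂ) with _ | k
    · have : ((-m).toNat : WithTop ℤ) ≠ 0 := by
        simp only [ne_eq, Nat.cast_eq_zero]; omega
      exact le_of_le_of_eq le_top (by rw [show @none ℤ = (⊤ : WithTop ℤ) from rfl]; simp [WithTop.mul_top this])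
    · rw [h] at hu1
      have hk : 1 ≤ k := WithTop.coe_le_coe.mp hu1
      rw [show (((-m).toNat : ℕ) : WithTop ℤ) = (((-m).toNat : ℤ) : WithTop ℤ) from rfl]
      refine WithTop.coe_le_coe.mpr (show (0 : ℤ) ≤ m + ((-m).toNat : ℤ) * k from ?_)
      have : ((-m).toNat : ℤ) * 1 ≤ ((-m).toNat : ℤ) * k := mul_le_mul_of_nonneg_left hk (by omega)
      omega
  have hginv : ∀ (γ : SL(2, ℤ)) (z : ℍ), g (γ • z) = g z := by
    intro γ z
    have h := congrFun (nfH_comp_glSmul hraw (det_pos_SL γ)) z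
    have he : (fun w => (f * fun w => Q.eval (jFun w)) ((γ : GL (Fin 2) ℝ) • w))
        = f * fun w => Q.eval (jFun w) := by
      funext w
      show f (γ • w) * Q.eval (jFun (γ • w)) = f w * Q.eval (jFun w)
      rw [hinv γ w, jFun_smul]
    rw [he] at h
    exact h.symm
  have hgq : ∃ y, HasQExp 1 g y := by
    obtain ⟨y, hy⟩ := hf.exists_hasQExp 1
    simp only [one_smul, Nat.cast_one] at hy
    obtain ⟨y', hy'⟩ := exists_hasQExp_eval_jFun Q
    exact ⟨_, (hy.mul hy').nfH one_pos⟩
  obtain ⟨y, hy⟩ := hgq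
  obtain ⟨P, -, hP⟩ := ModularCosets.exists_aeval_jq (f := g) (y := y)
    (ModularCosets.mem_holPairs.mpr ⟨fun w hw =>
      (hgan ⟨w, hw⟩).differentiableAt.differentiableWithinAt, hy⟩) hginv
  refine ⟨P, Q, hQ0, fun z => ?_, hregular⟩
  have hne : ∀ᶠ w in 𝓝[≠] (z : ℂ), Q.eval (jFun (ofComplex w)) ≠ 0 := by
    have han := analyticAt_eval_jFun Q z
    rcases han.eventually_eq_zero_or_eventually_ne_zero with h | h
    · exfalso
      have hU : AnalyticOnNhd ℂ ((fun w => Q.eval (jFun w)) ∘ ofComplex) upperHalfPlaneSet :=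
        fun x hx => analyticAt_eval_jFun Q ⟨x, hx⟩
      have h0 := hU.eqOn_zero_of_preconnected_of_eventuallyEq_zero isPreconnected_upperHalfPlaneSet
        z.im_pos h
      obtain ⟨c, hc⟩ : ∃ c : ℂ, Q.eval c ≠ 0 := by
        by_contra hall
        push Not at hall
        exact hQ0 (Polynomial.funext fun c => by rw [hall c, eval_zero])
      obtain ⟨w, hw⟩ := exists_jE_eq c
      exact hc (by rw [← hw, ← jFun_eq_jE]; simpa [ofComplex_apply] using h0 w.im_pos)
    · exact h
  filter_upwards [nfH_eventuallyEq hraw z, hne] with w hw hw'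
  simp only [comp_apply] at hw ⊢
  rw [eq_div_iff hw', ← jH_eq_jFun, hP, jH_eq_jFun]
  exact hw.symm

end FLTAgent.ModularPlaces
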