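import Fermat.Agent.ModularPlaces.Conjugates

/-!
# Every place comes from a point or a cusp

`exists_placeZ_eq`, `exists_placeCusp_eq`: a place over `j = j(z)` is some `placeZ (γ⁻¹ z)` and
one over `j = ∞` some `placeCusp γ`. Otherwise take a function with a pole there and zeros at
those places: the coefficients of its conjugate polynomial are rational in `j` and integral at
the place, so the function would be too (`ord_nonneg_of_relation`).
-/

set_option autoImplicit false

noncomputable section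

open UpperHalfPlane CongruenceSubgroup Filter Topology Function AlgebraicCurve ModularCurve
  Polynomial
open scoped MatrixGroups

namespace FLTAgent.ModularPlaces

open FLTAgent.Modular

variable {N : ℕ} [NeZero N]

local notation "E" y => ev ((y : FC N) : LaurentSeries ℂ)

theorem ev_aeval_jC (P : ℂ[X]) : (E (aeval (jC N) P)) = fun z => P.eval (jFun z) := by
  refine ev_eq_of_isMero (isMero_of_analyticAt (analyticAt_eval_jFun P)) ?_
  induction P using Polynomial.induction_on' with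
  | add p q hp hq =>
    rw [map_add, IntermediateField.coe_add]
    exact (hp.add hq).congr (Eventually.of_forall fun z => (Polynomial.eval_add).symm)
  | monomial k c =>
    rw [Polynomial.aeval_monomial, IntermediateField.coe_mul, IntermediateField.coe_pow]
    refine (((hasQExp_const 1 c).mul (hasQExp_jFun.pow k))).congr
      (Eventually.of_forall fun z => ?_)
    simp [Polynomial.eval_monomial]

theorem aeval_jC_ne_zero {P : ℂ[X]} (hP : P ≠ 0) : aeval (jC N) P ≠ 0 :=
  fun h => transcendental_jC N ⟨P, hP, h⟩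

/-- `y` has the expansion of `f` away from a discrete set. -/
def EvEq (y : FC N) (f : ℍ → ℂ) : Prop :=
  ∀ z : ℍ, (E y) ∘ ofComplex =ᶠ[𝓝[≠] (z : ℂ)] f ∘ ofComplex

theorem EvEq.add {y y' : FC N} {f f' : ℍ → ℂ} (h : EvEq y f) (h' : EvEq y' f') :
    EvEq (y + y') (f + f') := fun z => by
  filter_upwards [ev_add_eventuallyEq y y' z, h z, h' z] with w h1 h2 h3
  simp only [comp_apply, Pi.add_apply] at *
  rw [h1, h2, h3]

theorem EvEq.mul {y y' : FC N} {f f' : ℍ → ℂ} (h : EvEq y f) (h' : EvEq y' f') :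
    EvEq (y * y') (f * f') := fun z => by
  filter_upwards [ev_mul_eventuallyEq y y' z, h z, h' z] with w h1 h2 h3
  simp only [comp_apply, Pi.mul_apply] at *
  rw [h1, h2, h3]

omit [NeZero N] in
theorem evEq_self (y : FC N) : EvEq y (E y) := fun _ => EventuallyEq.rfl

omit [NeZero N] in
theorem evEq_zero : EvEq (0 : FC N) 0 := fun z => by
  rw [show (E (0 : FC N)) = fun _ => 0 from ev_zero']; rfl

omit [NeZero N] in
theorem evEq_one : EvEq (1 : FC N) 1 := fun z => by
  rw [show (E (1 : FC N)) = fun _ => 1 from ev_one']; rfl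

theorem EvEq.pow {y : FC N} {f : ℍ → ℂ} (h : EvEq y f) (k : ℕ) : EvEq (y ^ k) (f ^ k) := by
  induction k with
  | zero => rw [pow_zero, pow_zero]; exact evEq_one
  | succ k ih => rw [pow_succ, pow_succ]; exact ih.mul h

theorem EvEq.sum {ι : Type*} (s : Finset ι) {y : ι → FC N} {f : ι → ℍ → ℂ}
    (h : ∀ i ∈ s, EvEq (y i) (f i)) : EvEq (∑ i ∈ s, y i) (∑ i ∈ s, f i) := by
  classical
  induction s using Finset.induction with
  | empty => simpa using evEq_zero
  | insert i s hi ih =>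
    rw [Finset.sum_insert hi, Finset.sum_insert hi]
    exact (h i (by simp)).add (ih fun j hj => h j (by simp [hj]))

theorem eq_of_evEq {y y' : FC N} {f : ℍ → ℂ} (h : EvEq y f) (h' : EvEq y' f) : y = y' :=
  ev_inj ((isMero_ev y).eq_of_eventuallyEq (isMero_ev y') (z := UpperHalfPlane.I)
    ((h _).trans (h' _).symm))

/-- The coefficient of the conjugate polynomial as an element of `ℂ(j)`. -/
theorem exists_coeff (y : FC N) (k : ℕ) : ∃ (R : FC N) (P Q : ℂ[X]), Q ≠ 0 ∧
    R = aeval (jC N) P / aeval (jC N) Q ∧ EvEq R (conjCoeff y k) ∧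
    ∀ z : ℍ, AnalyticAt ℂ (conjCoeff y k ∘ ofComplex) (z : ℂ) → Q.eval (jFun z) ≠ 0 := by
  obtain ⟨hraw, -⟩ := conjCoeff_mem y (rawRing N) (conjFun_mem_rawRing y) k
  obtain ⟨P, Q, hQ, heq, hreg⟩ := exists_rat_jFun (isModFun_nfH_conjCoeff y k)
  refine ⟨aeval (jC N) P / aeval (jC N) Q, P, Q, hQ, rfl, fun z => ?_, fun z hz => hreg z ?_⟩
  · rw [div_eq_mul_inv]
    filter_upwards [ev_mul_eventuallyEq (aeval (jC N) P) (aeval (jC N) Q)⁻¹ z, heq z,
      nfH_eventuallyEq hraw z] with w h1 h2 h3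
    simp only [comp_apply] at *
    rw [h1, ← h3, h2, ev_inv, Pi.mul_apply, Pi.inv_apply, ev_aeval_jC, ev_aeval_jC, div_eq_mul_inv]
  · rw [ordH, meromorphicOrderAt_nfH hraw]
    rcases h : meromorphicOrderAt (conjCoeff y k ∘ ofComplex) (z : ℂ) with _ | m
    · exact le_refl (0 : ℤ)
    · have h0 := hz.meromorphicOrderAt_nonneg
      rw [h] at h0
      exact WithTop.coe_le_coe.mp h0

theorem coeffR_card (y : FC N) {R : FC N}
    (h : EvEq R (conjCoeff y (Fintype.card (Cos N)))) : R = 1 :=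
  eq_of_evEq h (by rw [show conjCoeff y (Fintype.card (Cos N)) = 1 from funext (conjCoeff_card y)]
                   exact evEq_one)

/-- A root of a monic polynomial with coefficients integral at `v` is integral at `v`. -/
theorem ord_nonneg_of_relation {K F : Type*} [Field K] [Field F] [Algebra K F] (v : Place K F)
    (y : F) (n : ℕ) (R : ℕ → F) (hn : R n = 1) (hR : ∀ k, 0 ≤ v.ord (R k))
    (h : ∑ k ∈ Finset.range (n + 1), R k * y ^ k = 0) : 0 ≤ v.ord y := by
  by_contra hy
  rw [not_le] at hy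
  have hy0 : y ≠ 0 := fun h0 => by simp [h0] at hy
  rw [Finset.sum_range_succ, hn, one_mul] at h
  set S := ∑ k ∈ Finset.range n, R k * y ^ k with hS
  have hSmem : v.adicValuation S ≤ WithZero.exp ((n : ℤ) * (-v.ord y) + v.ord y) := by
    refine Valuation.map_sum_le _ fun k hk => ?_
    rw [FF.val_le_exp_iff]
    rcases eq_or_ne (R k) 0 with h0 | h0
    · exact Or.inl (by simp [h0])
    refine Or.inr ?_
    rw [v.ord_mul h0 (pow_ne_zero k hy0), FF.ord_pow]
    have hk' : (k : ℤ) + 1 ≤ n := by exact_mod_cast Finset.mem_range.mp hk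
    have := hR k
    nlinarith [mul_le_mul_of_nonneg_right hk' (by linarith : (0 : ℤ) ≤ -v.ord y)]
  have hlt : S = 0 ∨ v.ord (y ^ n) < v.ord S := by
    rcases (FF.val_le_exp_iff v).mp hSmem with h0 | h0
    · exact Or.inl h0
    · refine Or.inr ?_
      rw [FF.ord_pow]
      nlinarith
  obtain ⟨h1, -⟩ := FF.ord_add_of_lt v (pow_ne_zero n hy0) hlt
  rw [add_comm] at h
  exact h1 h

theorem ord_nonneg_of_conj (y : FC N) (v : Place ℂ (FC N))
    (h : ∀ (k : ℕ) (R : FC N) (P Q : ℂ[X]), Q ≠ 0 → R = aeval (jC N) P / aeval (jC N) Q →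
      EvEq R (conjCoeff y k) →
      (∀ z : ℍ, AnalyticAt ℂ (conjCoeff y k ∘ ofComplex) (z : ℂ) → Q.eval (jFun z) ≠ 0) →
      0 ≤ v.ord R) : 0 ≤ v.ord y := by
  choose R P Q hQ hR hev hreg using exists_coeff y
  refine ord_nonneg_of_relation v y (Fintype.card (Cos N)) R (coeffR_card y (hev _))
    (fun k => h k _ _ _ (hQ k) (hR k) (hev k) (hreg k)) ?_
  refine eq_of_evEq (EvEq.sum _ fun k _ => (hev k).mul ((evEq_self y).pow k)) ?_
  rw [show (∑ k ∈ Finset.range (Fintype.card (Cos N) + 1),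
      conjCoeff y k * (E y) ^ k) = 0 from funext fun w => by
        rw [Finset.sum_apply]; exact sum_conjCoeff y w]
  exact evEq_zero

theorem ord_aeval_nonneg (v : Place ℂ (FC N)) (hv : 0 ≤ v.ord (jC N)) (P : ℂ[X]) :
    0 ≤ v.ord (aeval (jC N) P) := by
  refine FF.ord_nonneg_of_mem_placeRing v ?_
  induction P using Polynomial.induction_on' with
  | add p q hp hq => rw [map_add]; exact add_mem hp hq
  | monomial k c =>
    rw [aeval_monomial]
    exact mul_mem (v.algebraMap_mem' c) (pow_mem ((FF.mem_iff v _).mpr (Or.inr hv)) k)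

theorem ord_jC_nonneg_of_sub (v : Place ℂ (FC N)) {a : ℂ}
    (hv : 0 < v.ord (jC N - algebraMap ℂ (FC N) a)) : 0 ≤ v.ord (jC N) := by
  refine FF.ord_nonneg_of_mem_placeRing v ?_
  have := add_mem ((FF.mem_iff v _).mpr (Or.inr hv.le)) (v.algebraMap_mem' a)
  simpa using this

theorem ord_aeval_eq_zero (v : Place ℂ (FC N)) {a : ℂ}
    (hv : 0 < v.ord (jC N - algebraMap ℂ (FC N) a)) {Q : ℂ[X]} (hQ : Q.eval a ≠ 0) :
    v.ord (aeval (jC N) Q) = 0 := by
  obtain ⟨S, hS⟩ := X_sub_C_dvd_sub_C_eval (p := Q) (a := a)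
  rw [sub_eq_iff_eq_add'] at hS
  have hc : algebraMap ℂ (FC N) (Q.eval a) ≠ 0 :=
    fun h => hQ ((algebraMap ℂ (FC N)).injective (h.trans (map_zero _).symm))
  have hlt : (jC N - algebraMap ℂ (FC N) a) * aeval (jC N) S = 0 ∨
      v.ord (algebraMap ℂ (FC N) (Q.eval a)) <
        v.ord ((jC N - algebraMap ℂ (FC N) a) * aeval (jC N) S) := by
    rcases eq_or_ne (aeval (jC N) S) 0 with h0 | h0
    · exact Or.inl (by rw [h0, mul_zero])
    · refine Or.inr ?_
      rw [FF.ord_algebraMap, v.ord_mul (jC_sub_ne_zero a) h0]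
      have := ord_aeval_nonneg v (ord_jC_nonneg_of_sub v hv) S
      omega
  obtain ⟨-, h2⟩ := FF.ord_add_of_lt v hc hlt
  rw [hS, map_add, map_mul, map_sub, aeval_X, aeval_C, aeval_C, h2, FF.ord_algebraMap]

theorem ord_aeval_of_neg (v : Place ℂ (FC N)) (hv : v.ord (jC N) < 0) :
    ∀ P : ℂ[X], P ≠ 0 → v.ord (aeval (jC N) P) = P.natDegree * v.ord (jC N) := by
  intro P
  induction hn : P.natDegree generalizing P with
  | zero =>
    intro _
    rw [eq_C_of_natDegree_eq_zero hn, aeval_C, FF.ord_algebraMap]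
    simp
  | succ n ih =>
    intro hP
    have hD : P.divX.natDegree = n := by rw [natDegree_divX_eq_natDegree_tsub_one, hn]; rfl
    have hD0 : P.divX ≠ 0 := fun h0 => by
      have := congrArg natDegree (divX_mul_X_add P)
      rw [h0, zero_mul, zero_add, natDegree_C, hn] at this
      omega
    have hne := aeval_jC_ne_zero (N := N) hD0
    conv_lhs => rw [← divX_mul_X_add P, map_add, map_mul, aeval_X, aeval_C]
    have h1 : v.ord (aeval (jC N) P.divX * jC N) = ((n + 1 : ℕ) : ℤ) * v.ord (jC N) := by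
      rw [v.ord_mul hne jC_ne_zero, ih _ hD hD0]; push_cast; ring
    have hlt : v.ord (aeval (jC N) P.divX * jC N) < v.ord (algebraMap ℂ (FC N) (P.coeff 0)) := by
      rw [h1, FF.ord_algebraMap]
      exact mul_neg_of_pos_of_neg (by positivity) hv
    rw [(FF.ord_add_of_lt v (mul_ne_zero hne jC_ne_zero) (Or.inr hlt)).2, h1]

theorem ord_rat_sign {v w : Place ℂ (FC N)} (hv : v.ord (jC N) < 0) (hw : w.ord (jC N) < 0)
    {P Q : ℂ[X]} (hQ : Q ≠ 0) (h : 0 ≤ w.ord (aeval (jC N) P / aeval (jC N) Q)) :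
    0 ≤ v.ord (aeval (jC N) P / aeval (jC N) Q) := by
  rcases eq_or_ne P 0 with rfl | hP
  · simp
  rw [FF.ord_div _ (aeval_jC_ne_zero hP) (aeval_jC_ne_zero hQ), ord_aeval_of_neg _ hw P hP,
    ord_aeval_of_neg _ hw Q hQ] at h
  rw [FF.ord_div _ (aeval_jC_ne_zero hP) (aeval_jC_ne_zero hQ), ord_aeval_of_neg _ hv P hP,
    ord_aeval_of_neg _ hv Q hQ]
  have hle : (P.natDegree : ℤ) ≤ Q.natDegree := by
    by_contra hc
    rw [not_le] at hc
    nlinarith
  nlinarith

/-- Every place over a finite value of `j` comes from a point. -/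
theorem exists_placeZ_eq (v : Place ℂ (FC N)) (z : ℍ)
    (hv : 0 < v.ord (jC N - algebraMap ℂ (FC N) (jE z))) :
    ∃ x : Cos N, placeZ (x.out⁻¹ • z) = v := by
  classical
  by_contra hno
  push Not at hno
  obtain ⟨y, -, hyv, hyT⟩ := FF.exists_ord_neg_forall_pos v
    (Finset.univ.image fun x : Cos N => placeZ (x.out⁻¹ • z))
    (fun h => by
      obtain ⟨x, -, hx⟩ := Finset.mem_image.mp h
      exact hno x hx)
  refine absurd (ord_nonneg_of_conj y v fun k R P Q hQ hR _ hreg => ?_) (not_le.mpr hyv)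
  have hmem : conjCoeff y k ∈ analyticRing z := conjCoeff_mem y _ (fun x => by
    show AnalyticAt ℂ ((fun w => (E y) (x.out⁻¹ • w)) ∘ ofComplex) (z : ℂ)
    have hd := den_ne_zero x.out⁻¹ z.im_pos
    refine (AnalyticAt.congr ?_ (eventuallyEq_smul_comp_ofComplex _ x.out⁻¹ z).symm)
    refine AnalyticAt.comp ?_ (analyticAt_mob _ hd)
    rw [← coe_smul_eq_mob]
    exact analyticAt_ev_of_ord_nonneg
      (Or.inr (hyT _ (Finset.mem_image.mpr ⟨x, Finset.mem_univ x, rfl⟩)).le)) k
  have hQa : Q.eval (jE z) ≠ 0 := by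
    have := hreg z hmem
    rwa [jFun_eq_jE] at this
  rw [hR]
  rcases eq_or_ne P 0 with rfl | hP
  · simp
  rw [FF.ord_div _ (aeval_jC_ne_zero hP) (aeval_jC_ne_zero hQ), ord_aeval_eq_zero v hv hQa,
    sub_zero]
  exact ord_aeval_nonneg v (ord_jC_nonneg_of_sub v hv) P

/-- Every place over `j = ∞` comes from a cusp. -/
theorem exists_placeCusp_eq (v : Place ℂ (FC N)) (hv : v.ord (jC N) < 0) :
    ∃ x : Cos N, placeCusp x.out⁻¹ = v := by
  classical
  by_contra hno
  push Not at hno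
  obtain ⟨y, hy0, hyv, hyT⟩ := FF.exists_ord_neg_forall_pos v
    (Finset.univ.image fun x : Cos N => placeCusp x.out⁻¹)
    (fun h => by
      obtain ⟨x, -, hx⟩ := Finset.mem_image.mp h
      exact hno x hx)
  refine absurd (ord_nonneg_of_conj y v fun k R P Q hQ hR hev _ => ?_) (not_le.mpr hyv)
  obtain ⟨hb, han⟩ := conjCoeff_mem y boundedRing (fun x => by
    have hc : 0 ≤ cuspOrd N x.out⁻¹ y := by
      rw [ord_placeCusp _ hy0]
      exact mul_nonneg (by positivity)
        (hyT _ (Finset.mem_image.mpr ⟨x, Finset.mem_univ x, rfl⟩)).le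
    obtain ⟨n, hn⟩ := (isModFun_ev y).meroCusp x.out⁻¹
    exact ⟨isBounded_of_cuspOrd_nonneg hy0 hc,
      ((isMero_ev y).comp_sl x.out⁻¹).eventually_analyticAt_of_bounded hn⟩) k
  rw [hR]
  refine ord_rat_sign hv (placeCusp_ord_jC_neg 1) hQ ?_
  rw [← hR]
  rcases eq_or_ne R 0 with rfl | hR0
  · simp
  have heq : (E R) = nfH (conjCoeff y k) := by
    rw [← nfH_eq_self (isMero_ev R)]
    exact nfH_congr hev
  have hbd : IsBoundedAtImInfty (E R) := by
    rw [heq]
    refine hb.congr' ?_ EventuallyEq.rfl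
    filter_upwards [han] with w hw
    exact (nfH_apply_of_analyticAt hw).symm
  by_contra hneg
  rw [not_le] at hneg
  have hco : cuspOrd N 1 R < 0 := by
    rw [ord_placeCusp 1 hR0]
    exact mul_neg_of_pos_of_neg (by exact_mod_cast degCusp_pos 1) hneg
  obtain ⟨c, hc, hlim⟩ := hasCuspOrder_cuspOrd hR0 (1 : SL(2, ℤ))
  obtain ⟨l, hl⟩ := Int.eq_ofNat_of_zero_le (neg_nonneg.mpr hco.le)
  have hh : (0 : ℝ) < (cuspWidth N 1 : ℝ) := by exact_mod_cast (cuspWidth_spec (1 : SL(2, ℤ))).1
  have h0 : Tendsto (fun w => (E R) ((1 : SL(2, ℤ)) • w) *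
      qPow (cuspWidth N 1 : ℝ) (-cuspOrd N 1 R) w) atImInfty (𝓝 0) := by
    rw [hl]
    simp only [one_smul]
    exact (Asymptotics.IsBigO.mul_isLittleO hbd ((Asymptotics.isLittleO_one_iff ℝ).mpr
      (ModularPlaces.tendsto_qPow hh (k := l) (by omega)))).congr_right (fun _ => mul_one _)
        |> (Asymptotics.isLittleO_one_iff ℝ).mp
  exact hc (tendsto_nhds_unique hlim h0)

end FLTAgent.ModularPlaces
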