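import Fermat.Agent.ModularPlaces.PlacesC

/-!
# The conjugate polynomial of a modular function

`conjPoly y` is the product of `X - f_x` over the transforms of `y` by the cosets of `Γ₀(N)`.
Its coefficients are invariant (`conjCoeff_inv`) and their normal forms are modular functions of
level one (`isModFun_nfH_conjCoeff`); `y` is a root (`sum_conjCoeff`). Subrings of functions
analytic at a point or bounded at `i ∞` (`analyticRing`, `boundedRing`) control the coefficients.
-/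

set_option autoImplicit false

noncomputable section

open UpperHalfPlane CongruenceSubgroup Filter Topology Function AlgebraicCurve ModularCurve
  Polynomial
open scoped MatrixGroups

namespace FLTAgent.ModularPlaces

open FLTAgent.Modular

variable {N : ℕ} [NeZero N]

/-- The cosets of `Γ₀(N)`. -/
abbrev Cos (N : ℕ) := SL(2, ℤ) ⧸ Gamma0 N

instance fintypeCos : Fintype (Cos N) := Subgroup.fintypeQuotientOfFiniteIndex

theorem card_cos : Nat.card (Cos N) = dedekindPsi N := ModularCosets.index_Gamma0 N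

/-- The transform of a modular function by a coset. -/
def conjFun (y : FC N) (x : Cos N) : ℍ → ℂ :=
  fun w => ev (y : LaurentSeries ℂ) ((x.out)⁻¹ • w)

omit [NeZero N] in
theorem exists_out_smul (s : SL(2, ℤ)) (x : Cos N) :
    ∃ g ∈ Gamma0 N, (s • x).out = s * x.out * g := by
  have h : ((s * x.out : SL(2, ℤ)) : Cos N) = s • x := by
    conv_rhs => rw [← QuotientGroup.out_eq' x]
    rfl
  have h2 : ((s * x.out : SL(2, ℤ)) : Cos N) = (((s • x).out : SL(2, ℤ)) : Cos N) := by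
    rw [h, QuotientGroup.out_eq']
  refine ⟨(s * x.out)⁻¹ * (s • x).out, QuotientGroup.eq.mp h2, ?_⟩
  group

theorem conjFun_smul (y : FC N) (s : SL(2, ℤ)) (x : Cos N) (w : ℍ) :
    conjFun y (s • x) (s • w) = conjFun y x w := by
  obtain ⟨g, hg, he⟩ := exists_out_smul s x
  simp only [conjFun]
  rw [← mul_smul, he, show (s * x.out * g)⁻¹ * s = g⁻¹ * x.out⁻¹ by group, mul_smul]
  exact gamma0_inv y _ (inv_mem hg) _

/-- `∏ (X - f_x)`, with coefficients functions on `ℍ`. -/
def conjPoly (y : FC N) : (ℍ → ℂ)[X] := ∏ x : Cos N, (X - C (conjFun y x))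

/-- The coefficients of `conjPoly`. -/
def conjCoeff (y : FC N) (k : ℕ) : ℍ → ℂ := (conjPoly y).coeff k

theorem conjPoly_map_eval (y : FC N) (w : ℍ) :
    (conjPoly y).map (Pi.evalRingHom (fun _ => ℂ) w) = ∏ x : Cos N, (X - C (conjFun y x w)) := by
  simp [conjPoly, Polynomial.map_prod]

theorem conjCoeff_apply (y : FC N) (k : ℕ) (w : ℍ) :
    conjCoeff y k w = (∏ x : Cos N, (X - C (conjFun y x w))).coeff k := by
  rw [← conjPoly_map_eval, coeff_map]
  rfl

theorem conjCoeff_inv (y : FC N) (k : ℕ) (s : SL(2, ℤ)) (w : ℍ) :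
    conjCoeff y k (s • w) = conjCoeff y k w := by
  rw [conjCoeff_apply, conjCoeff_apply]
  congr 1
  refine (Fintype.prod_equiv (MulAction.toPerm s) _ _ fun x => ?_).symm
  rw [MulAction.toPerm_apply, conjFun_smul]

theorem conjCoeff_mem (y : FC N) (S : Subring (ℍ → ℂ)) (h : ∀ x, conjFun y x ∈ S) (k : ℕ) :
    conjCoeff y k ∈ S := by
  have : conjPoly y = (∏ x : Cos N, (X - C (⟨conjFun y x, h x⟩ : S))).map S.subtype := by
    simp [conjPoly, Polynomial.map_prod]
  rw [conjCoeff, this, coeff_map]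
  exact SetLike.coe_mem _

theorem natDegree_conjProd (y : FC N) (w : ℍ) :
    (∏ x : Cos N, (X - C (conjFun y x w))).natDegree = Fintype.card (Cos N) := by
  rw [natDegree_finsetProd_X_sub_C_eq_card, Finset.card_univ]

theorem conjCoeff_card (y : FC N) (w : ℍ) : conjCoeff y (Fintype.card (Cos N)) w = 1 := by
  rw [conjCoeff_apply]
  have h := natDegree_conjProd y w
  rw [← h]
  exact (monic_prod_of_monic _ _ fun x _ => monic_X_sub_C _).coeff_natDegree

theorem sum_conjCoeff (y : FC N) (w : ℍ) :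
    ∑ k ∈ Finset.range (Fintype.card (Cos N) + 1),
      conjCoeff y k w * ev (y : LaurentSeries ℂ) w ^ k = 0 := by
  have h := Polynomial.eval_eq_sum_range (p := ∏ x : Cos N, (X - C (conjFun y x w)))
    (ev (y : LaurentSeries ℂ) w)
  rw [natDegree_conjProd] at h
  simp only [conjCoeff_apply]
  rw [← h, eval_prod]
  refine Finset.prod_eq_zero (Finset.mem_univ ((1 : SL(2, ℤ)) : Cos N)) ?_
  have hmem : ((1 : SL(2, ℤ)) : Cos N).out ∈ Gamma0 N := by
    have := QuotientGroup.eq.mp (QuotientGroup.out_eq' ((1 : SL(2, ℤ)) : Cos N))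
    simpa using this
  simp only [eval_sub, eval_X, eval_C, conjFun, gamma0_inv y _ (inv_mem hmem), sub_self]

theorem hasQExp_one_of_invariant {f : ℍ → ℂ} {z : LaurentSeries ℂ}
    (hinv : ∀ (s : SL(2, ℤ)) (w : ℍ), f (s • w) = f w) (hf : HasQExp (N : ℝ) f z) :
    ∃ z₀ : LaurentSeries ℂ, HasQExp 1 f z₀ := by
  have h2 := ModularCosets.hasQExp_T_smul hf
  simp only [hinv] at h2
  have hN : (0 : ℝ) < N := by exact_mod_cast NeZero.pos N
  have htw : ModularCosets.twist (ModularCosets.zetaU N) z = z := h2.unique hN hf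
  obtain ⟨z₀, hz₀⟩ := ModularCosets.exists_qScale_eq (NeZero.ne N) fun k hk =>
    ModularCosets.coeff_eq_zero_of_twist_eq (ModularCosets.zetaU_primitive N) htw hk
  exact ⟨z₀, ModularCosets.hasQExp_one_of_qScale (hz₀.symm ▸ hf)⟩

/-- Functions meromorphic on `ℍ` with an expansion at `i ∞` in `q ^ (1 / N)`. -/
def rawRing (N : ℕ) [NeZero N] : Subring (ℍ → ℂ) where
  carrier := {f | IsMeroRaw f ∧ ∃ z, HasQExp (N : ℝ) f z}
  one_mem' := ⟨isMero_one.raw, 1, hasQExp_one _⟩
  zero_mem' := ⟨isMero_zero.raw, 0, hasQExp_zero _⟩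
  add_mem' := fun {_ _} hf hg => ⟨hf.1.add hg.1, hf.2.choose + hg.2.choose,
    hf.2.choose_spec.add hg.2.choose_spec⟩
  mul_mem' := fun {_ _} hf hg => ⟨hf.1.mul hg.1, hf.2.choose * hg.2.choose,
    hf.2.choose_spec.mul hg.2.choose_spec⟩
  neg_mem' := fun {_} hf => ⟨hf.1.neg, -hf.2.choose, hf.2.choose_spec.neg⟩

theorem conjFun_mem_rawRing (y : FC N) (x : Cos N) : conjFun y x ∈ rawRing N :=
  ⟨(isMero_ev y).raw.comp_sl _, (isModFun_ev y).exists_hasQExp _⟩

theorem isModFun_nfH_conjCoeff (y : FC N) (k : ℕ) : IsModFun 1 (nfH (conjCoeff y k)) := by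
  obtain ⟨hraw, z, hz⟩ := conjCoeff_mem y (rawRing N) (conjFun_mem_rawRing y) k
  refine IsModFun.of_nfH hraw (fun γ w => conjCoeff_inv y k γ w) fun γ => ?_
  obtain ⟨z₀, hz₀⟩ := hasQExp_one_of_invariant (conjCoeff_inv y k) hz
  simp only [conjCoeff_inv, Nat.cast_one]
  exact ⟨z₀, hz₀⟩

/-- Functions analytic at a point. -/
def analyticRing (z : ℍ) : Subring (ℍ → ℂ) where
  carrier := {f | AnalyticAt ℂ (f ∘ ofComplex) (z : ℂ)}
  one_mem' := analyticAt_const
  zero_mem' := analyticAt_const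
  add_mem' := fun hf hg => hf.add hg
  mul_mem' := fun hf hg => hf.mul hg
  neg_mem' := fun hf => hf.neg

/-- Functions bounded at `i ∞` and analytic high up. -/
def boundedRing : Subring (ℍ → ℂ) where
  carrier := {f | IsBoundedAtImInfty f ∧ ∀ᶠ z : ℍ in atImInfty, AnalyticAt ℂ (f ∘ ofComplex) (z : ℂ)}
  one_mem' := ⟨Filter.const_boundedAtFilter _ _, Eventually.of_forall fun _ => analyticAt_const⟩
  zero_mem' := ⟨Filter.const_boundedAtFilter _ _, Eventually.of_forall fun _ => analyticAt_const⟩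
  add_mem' := fun hf hg => ⟨hf.1.add hg.1, (hf.2.and hg.2).mono fun _ h => h.1.add h.2⟩
  mul_mem' := fun hf hg => ⟨hf.1.mul hg.1, (hf.2.and hg.2).mono fun _ h => h.1.mul h.2⟩
  neg_mem' := fun hf => ⟨hf.1.neg, hf.2.mono fun _ h => h.neg⟩

theorem analyticAt_ev_of_ord_nonneg {y : FC N} {z : ℍ} (h : y = 0 ∨ 0 ≤ (placeZ z).ord y) :
    AnalyticAt ℂ (ev (y : LaurentSeries ℂ) ∘ ofComplex) (z : ℂ) := by
  rcases eq_or_ne y 0 with rfl | hy
  · rw [show ev ((0 : FC N) : LaurentSeries ℂ) = fun _ => 0 from ev_zero']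
    exact analyticAt_const
  rw [← (isMero_ev y z).meromorphicOrderAt_nonneg_iff_analyticAt]
  have h1 : 0 ≤ ordH (ev (y : LaurentSeries ℂ)) z := by
    rw [ord_placeZ z hy]
    exact mul_nonneg (by positivity) (h.resolve_left hy)
  obtain ⟨m, hm⟩ := WithTop.ne_top_iff_exists.mp (meromorphicOrderAt_ev_ne_top hy z)
  rw [ordH, ← hm] at h1
  rw [← hm]
  exact WithTop.coe_le_coe.mpr h1

theorem isBounded_of_cuspOrd_nonneg {y : FC N} (hy : y ≠ 0) {γ : SL(2, ℤ)}
    (h : 0 ≤ cuspOrd N γ y) :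
    IsBoundedAtImInfty fun z => ev (y : LaurentSeries ℂ) (γ • z) := by
  obtain ⟨c, -, hc⟩ := hasCuspOrder_cuspOrd hy γ
  obtain ⟨k, hk⟩ := Int.eq_ofNat_of_zero_le h
  have hh : (0 : ℝ) < (cuspWidth N γ : ℝ) := by exact_mod_cast (cuspWidth_spec γ).1
  rcases Nat.eq_zero_or_pos k with rfl | hk0
  · refine (hc.congr fun z => ?_).isBigO_one ℝ
    rw [hk, Nat.cast_zero, neg_zero, FLTAgent.Modular.qPow_zero, mul_one]
  · have h2 := hc.mul (ModularPlaces.tendsto_qPow hh hk0)
    refine (h2.congr fun z => ?_).isBigO_one ℝ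
    rw [mul_assoc, ← FLTAgent.Modular.qPow_add, hk, neg_add_cancel, FLTAgent.Modular.qPow_zero,
      mul_one]

end FLTAgent.ModularPlaces
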