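import Fermat.Agent.ModularPlaces.Lattice
import Fermat.Agent.ModularPlaces.Orders

/-!
# The fibres of `j` on `ℍ`

`jE = E₄³/Δ` is invariant (`jE_smul`) and `jE_injective_mod`: two points with the same `j` differ
by an element of `SL(2, ℤ)`. Equal `j` gives two proportional lattices with the same `g₂`, `g₃`,
hence equal lattices (`lattice_eq_of_invariants`).
-/

set_option autoImplicit false

noncomputable section

open UpperHalfPlane Filter Topology
open scoped MatrixGroups

namespace FLTAgent.ModularPlaces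

/-- The `j`-function as a quotient of level one forms. -/
def jE (z : ℍ) : ℂ := ModularForm.E₄ z ^ 3 / ModularForm.discriminant z

theorem levelOne_smul {F : Type*} [FunLike F ℍ ℂ] {k : ℤ}
    [SlashInvariantFormClass F 𝒮ℒ k] (f : F) (γ : SL(2, ℤ)) (z : ℍ) :
    f (γ • z) = den γ (z : ℂ) ^ k * f z := by
  have h := SlashInvariantForm.slash_action_eqn'' (Γ := 𝒮ℒ) f
    (γ := (γ : GL (Fin 2) ℝ)) ⟨γ, rfl⟩ z
  rw [ModularGroup.sl_moeb, h]
  simp [UpperHalfPlane.denom, den]

theorem jE_smul (γ : SL(2, ℤ)) (z : ℍ) : jE (γ • z) = jE z := by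
  have hd := den_ne_zero γ z.im_pos
  have hΔ := levelOne_smul CuspForm.discriminant γ z
  rw [CuspForm.coe_discriminant] at hΔ
  rw [jE, jE, levelOne_smul ModularForm.E₄ γ z, hΔ, mul_pow, ← zpow_natCast (den γ z ^ (4 : ℤ)),
    ← zpow_mul]
  norm_num
  rw [mul_div_mul_left _ _ (pow_ne_zero 12 hd)]

theorem tendsto_E {k : ℕ} (hk : 3 ≤ k) (hk2 : Even k) :
    Tendsto (ModularForm.E hk : ℍ → ℂ) atImInfty (𝓝 1) := by
  have hev : ∀ z : ℍ, ModularForm.E hk z = _ := fun z =>
    EisensteinSeries.q_expansion_riemannZeta hk hk2 z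
  have hper := SlashInvariantFormClass.periodic_comp_ofComplex (ModularForm.E hk)
    (h := 1) one_mem_strictPeriods_SL
  have h0 := EisensteinSeries.E_qExpansion_coeff_zero hk hk2
  rw [qExpansion_coeff_zero] at h0
  · rw [← h0]
    have hbd := ModularFormClass.bdd_at_infty (ModularForm.E hk)
    have han := UpperHalfPlane.differentiableAt_cuspFunction one_pos hper
      (ModularFormClass.holo (ModularForm.E hk)) hbd (q := 0) (by simp)
    have ht := han.continuousAt.tendsto.comp (qParam_tendsto_atImInfty one_pos)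
    have : UpperHalfPlane.cuspFunction 1 (ModularForm.E hk) 0 = valueAtInfty (ModularForm.E hk) :=
      UpperHalfPlane.cuspFunction_apply_zero one_pos
        (ModularFormClass.analyticAt_cuspFunction_zero _ one_pos one_mem_strictPeriods_SL) hper
    rw [← this]
    exact ht.congr fun z => UpperHalfPlane.eq_cuspFunction z one_ne_zero hper
  · exact one_pos
  · exact ModularFormClass.analyticAt_cuspFunction_zero _ one_pos one_mem_strictPeriods_SL
  · exact hper

theorem tendsto_discriminant :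
    Tendsto ModularForm.discriminant atImInfty (𝓝 0) :=
  ModularForm.discriminant_isZeroAtImInfty

/-! ### Lattices -/

/-- The lattice `ℤ a z + ℤ a` for `a ≠ 0`. -/
def scaledPair (z : ℍ) (a : ℂ) (ha : a ≠ 0) : PeriodPair where
  ω₁ := a * z
  ω₂ := a
  indep := by
    rw [LinearIndependent.pair_iff]
    intro s t h
    simp only [Complex.real_smul] at h
    have h' : ((s : ℂ) * z + t) * a = 0 := by linear_combination h
    have h'' : (s : ℂ) * z + t = 0 := (mul_eq_zero.mp h').resolve_right ha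
    have hs : s = 0 := by
      have := congrArg Complex.im h''
      simpa [z.im_pos.ne'] using this
    subst hs
    exact ⟨rfl, by simpa using h''⟩

theorem G_scaledPair (z : ℍ) {a : ℂ} (ha : a ≠ 0) {k : ℕ} (hk : 3 ≤ k) :
    (scaledPair z a ha).G k = (a ^ k)⁻¹ * (2 * riemannZeta k * ModularForm.E hk z) := by
  have h1 : (2 : ℂ) * riemannZeta k * ModularForm.E hk z
      = ∑' v : Fin 2 → ℤ, EisensteinSeries.eisSummand k v z := by
    rw [tsum_eisSummand_eq_riemannZeta_mul_eisensteinSeries hk z,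
      show ModularForm.E hk z = (1 / 2 : ℂ) • eisensteinSeries (N := 1) 0 k z from rfl, smul_eq_mul]
    ring
  rw [h1, ← tsum_mul_left, PeriodPair.G,
    ← ((scaledPair z a ha).latticeEquivProd.toEquiv.trans
      (finTwoArrowEquiv ℤ).symm).symm.tsum_eq]
  refine tsum_congr fun v => ?_
  have := (scaledPair z a ha).latticeEquiv_symm_apply (v 0, v 1)
  simp only [Equiv.symm_trans_apply, Equiv.symm_symm, finTwoArrowEquiv_apply,
    LinearEquiv.coe_toEquiv_symm, EquivLike.coe_coe]
  erw [this]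
  rw [EisensteinSeries.eisSummand, zpow_neg, zpow_natCast, ← mul_inv, ← mul_pow]
  simp only [scaledPair]
  ring_nf

theorem exists_scaling {x y x' y' D D' : ℂ} (hD : D ≠ 0) (hD' : D' ≠ 0)
    (h : x' ^ 3 / D' = x ^ 3 / D) (hy : y' ^ 2 / D' = y ^ 2 / D) :
    ∃ a : ℂ, a ≠ 0 ∧ x' = a ^ 4 * x ∧ y' = a ^ 6 * y := by
  obtain ⟨m, hm⟩ := IsAlgClosed.exists_pow_nat_eq (k := ℂ) (D' / D) (n := 12) (by norm_num)
  have hm0 : m ≠ 0 := by
    rintro rfl
    simp [hD, hD', eq_comm] at hm
  rw [div_eq_div_iff hD' hD] at h hy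
  rw [eq_div_iff hD] at hm
  have hx3 : (x' / m ^ 4) ^ 3 = x ^ 3 := by
    rw [div_pow, div_eq_iff (pow_ne_zero 3 (pow_ne_zero 4 hm0))]
    refine mul_right_cancel₀ hD ?_
    linear_combination h - x ^ 3 * hm
  have hy2 : (y' / m ^ 6) ^ 2 = y ^ 2 := by
    rw [div_pow, div_eq_iff (pow_ne_zero 2 (pow_ne_zero 6 hm0))]
    refine mul_right_cancel₀ hD ?_
    linear_combination hy - y ^ 2 * hm
  obtain ⟨w, hw3, hw⟩ : ∃ w : ℂ, w ^ 3 = 1 ∧ x' / m ^ 4 = w * x := by
    rcases eq_or_ne x 0 with rfl | hx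
    · refine ⟨1, one_pow 3, ?_⟩
      simpa using hx3
    · exact ⟨(x' / m ^ 4) / x, by rw [div_pow, hx3, div_self (pow_ne_zero 3 hx)],
        (div_mul_cancel₀ _ hx).symm⟩
  obtain ⟨e, he4, he⟩ : ∃ e : ℂ, e ^ 4 = 1 ∧ y' / m ^ 6 = e ^ 6 * y := by
    rcases sq_eq_sq_iff_eq_or_eq_neg.mp hy2 with h' | h'
    · exact ⟨1, one_pow 4, by rw [h']; ring⟩
    · exact ⟨Complex.I, Complex.I_pow_four,
        by rw [h', show Complex.I ^ 6 = (Complex.I ^ 2) ^ 3 by ring, Complex.I_sq]; ring⟩
  refine ⟨m * (w * e), ?_, ?_, ?_⟩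
  · refine mul_ne_zero hm0 (mul_ne_zero ?_ ?_)
    · rintro rfl; simp at hw3
    · rintro rfl; simp at he4
  · rw [div_eq_iff (pow_ne_zero 4 hm0)] at hw
    rw [hw, mul_pow, mul_pow, he4, show w ^ 4 = w ^ 3 * w by ring, hw3]; ring
  · rw [div_eq_iff (pow_ne_zero 6 hm0)] at he
    rw [he, mul_pow, mul_pow, show w ^ 6 = (w ^ 3) ^ 2 by ring, hw3]; ring

/-- Points with the same `j` are in one `SL(2, ℤ)`-orbit. -/
theorem jE_injective_mod {z z' : ℍ} (h : jE z = jE z') : ∃ γ : SL(2, ℤ), γ • z = z' := by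
  have hD := ModularForm.discriminant_ne_zero z
  have hD' := ModularForm.discriminant_ne_zero z'
  have h6 : ModularForm.E₆ z' ^ 2 / ModularForm.discriminant z'
      = ModularForm.E₆ z ^ 2 / ModularForm.discriminant z := by
    have e : ∀ w : ℍ, ModularForm.E₆ w ^ 2 / ModularForm.discriminant w = jE w - 1728 := by
      intro w
      have h1 := ModularForm.discriminant_eq_E₄_cube_sub_E₆_sq w
      rw [jE, div_sub' (ModularForm.discriminant_ne_zero w)]
      congr 1
      rw [h1]; ring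
    rw [e, e, h]
  obtain ⟨a, ha, h4', h6'⟩ := exists_scaling hD hD' h.symm h6
  have hA : a⁻¹ ≠ 0 := inv_ne_zero ha
  let L := scaledPair z a⁻¹ hA
  let L' := scaledPair z' 1 one_ne_zero
  have h2 : L.g₂ = L'.g₂ := by
    simp only [PeriodPair.g₂, L, L', G_scaledPair z hA (show 3 ≤ 4 by norm_num),
      G_scaledPair z' one_ne_zero (show 3 ≤ 4 by norm_num)]
    rw [h4']; simp; ring
  have h3 : L.g₃ = L'.g₃ := by
    simp only [PeriodPair.g₃, L, L', G_scaledPair z hA (show 3 ≤ 6 by norm_num),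
      G_scaledPair z' one_ne_zero (show 3 ≤ 6 by norm_num)]
    rw [h6']; simp; ring
  have hL := lattice_eq_of_invariants L L' h2 h3
  obtain ⟨p, q, hpq⟩ : ∃ p q : ℤ, (p : ℂ) * (a⁻¹ * z) + q * a⁻¹ = z' := by
    have : (z' : ℂ) ∈ L.lattice := by rw [hL]; simpa [L', scaledPair] using L'.ω₁_mem_lattice
    exact PeriodPair.mem_lattice.mp this
  obtain ⟨r, s, hrs⟩ : ∃ r s : ℤ, (r : ℂ) * (a⁻¹ * z) + s * a⁻¹ = 1 := by
    have : (1 : ℂ) ∈ L.lattice := by rw [hL]; simpa [L', scaledPair] using L'.ω₂_mem_lattice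
    exact PeriodPair.mem_lattice.mp this
  obtain ⟨t, u, htu⟩ : ∃ t u : ℤ, (t : ℂ) * (1 * z') + u * 1 = a⁻¹ * z := by
    have : a⁻¹ * z ∈ L'.lattice := by rw [← hL]; simpa [L, scaledPair] using L.ω₁_mem_lattice
    exact PeriodPair.mem_lattice.mp this
  obtain ⟨v, w, hvw⟩ : ∃ v w : ℤ, (v : ℂ) * (1 * z') + w * 1 = a⁻¹ := by
    have : a⁻¹ ∈ L'.lattice := by rw [← hL]; simpa [L, scaledPair] using L.ω₂_mem_lattice
    exact PeriodPair.mem_lattice.mp this
  have key : ∀ e f : ℤ, (e : ℂ) * z + f = 0 → e = 0 ∧ f = 0 := by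
    intro e f h0
    have he : e = 0 := by
      have h1 := congrArg Complex.im h0
      simp [z.im_pos.ne'] at h1
      exact h1
    subst he
    exact ⟨rfl, by simpa using h0⟩
  obtain ⟨k1, k2⟩ := key (t * p + u * r - 1) (t * q + u * s) (by
    refine mul_left_cancel₀ hA ?_
    push_cast
    linear_combination htu + (t : ℂ) * hpq + (u : ℂ) * hrs)
  obtain ⟨k3, k4⟩ := key (v * p + w * r) (v * q + w * s - 1) (by
    refine mul_left_cancel₀ hA ?_
    push_cast
    linear_combination hvw + (v : ℂ) * hpq + (w : ℂ) * hrs)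
  have hdet : (t * w - u * v) * (p * s - q * r) = 1 := by
    have e1 : t * p + u * r = 1 := by linarith
    have e4 : v * q + w * s = 1 := by linarith
    linear_combination (v * q + w * s) * e1 + e4 - (v * p + w * r) * k2
  have hz' : (z' : ℂ) * ((r : ℂ) * z + s) = p * z + q := by
    have h1 : a = r * z + s := by
      have := congrArg (a * ·) hrs
      simp only [mul_add, mul_one] at this
      rw [← this]; field_simp
    have h2 := congrArg (a * ·) hpq
    simp only [mul_add] at h2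
    rw [← h1, mul_comm, ← h2]; field_simp
  have hd : p * s - q * r = 1 := by
    rcases Int.eq_one_or_neg_one_of_mul_eq_one' hdet with ⟨_, h'⟩ | ⟨_, h'⟩
    · exact h'
    exfalso
    have him : (z' : ℂ).im * Complex.normSq ((r : ℂ) * z + s)
        = ((p * s - q * r : ℤ) : ℝ) * (z : ℂ).im := by
      have h3 := congrArg (fun x => (x * (starRingEnd ℂ) ((r : ℂ) * z + s)).im) hz'
      simp only [mul_assoc, Complex.mul_conj] at h3
      rw [Complex.im_mul_ofReal] at h3
      rw [h3]
      push_cast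
      simp [Complex.mul_im, Complex.add_re, Complex.add_im, Complex.mul_re]
      ring
    rw [h'] at him
    have h5 := Complex.normSq_nonneg ((r : ℂ) * z + s)
    have := z.im_pos
    have := z'.im_pos
    push_cast at him
    simp only [UpperHalfPlane.coe_im] at him
    nlinarith [mul_nonneg z'.im_pos.le h5]
  obtain ⟨g, hg⟩ : ∃ g : SL(2, ℤ), (g.1 : Matrix (Fin 2) (Fin 2) ℤ) = !![p, q; r, s] :=
    ⟨⟨!![p, q; r, s], by rw [Matrix.det_fin_two_of]; exact hd⟩, rfl⟩
  refine ⟨g, ?_⟩
  apply UpperHalfPlane.ext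
  rw [coe_smul_eq_mob, mob, hg]
  have hne : (r : ℂ) * z + s ≠ 0 := by
    have h9 := den_ne_zero g z.im_pos
    simpa [den, hg] using h9
  simp only [Matrix.of_apply, Matrix.cons_val', Matrix.cons_val_zero, Matrix.cons_val_one,
    Matrix.cons_val_fin_one, Matrix.empty_val']
  rw [div_eq_iff hne, hz']

end FLTAgent.ModularPlaces
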