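import Mathlib

/-!
# A lattice is determined by `g₂` and `g₃`

`lattice_eq_of_invariants`: two period pairs with the same invariants span the same lattice.
The differential equation forces the regular parts of the two Weierstrass functions to agree near
`0` (`eventually_regP_eq`); the functions then agree everywhere, so they have the same poles.
-/

set_option autoImplicit false

noncomputable section

open Filter Topology
open scoped PeriodPair

namespace FLTAgent.ModularPlaces

variable (L L' : PeriodPair)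

/-- The regular part of `℘` at the origin. -/
def regP (z : ℂ) : ℂ := L.weierstrassPExcept 0 z

theorem analyticAt_regP : AnalyticAt ℂ (regP L) 0 := L.analyticAt_weierstrassPExcept 0

theorem weierstrassP_eq_regP (z : ℂ) : L.weierstrassP z = regP L z + (z ^ 2)⁻¹ := by
  have := L.weierstrassPExcept_def ⟨0, zero_mem _⟩ z
  simp only [regP]
  rw [show L.weierstrassPExcept 0 z = _ from this]
  simp

theorem eventually_notMem_lattice : ∀ᶠ z in 𝓝[≠] (0 : ℂ), z ∉ L.lattice := by
  filter_upwards [nhdsWithin_le_nhds (L.compl_lattice_sdiff_singleton_mem_nhds 0),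
    self_mem_nhdsWithin] with z hz hne hmem
  exact hz ⟨hmem, hne⟩

theorem eventually_deriv_weierstrassP :
    ∀ᶠ z in 𝓝[≠] (0 : ℂ), L.derivWeierstrassP z = deriv (regP L) z - 2 * (z ^ 3)⁻¹ := by
  filter_upwards [nhdsWithin_le_nhds (analyticAt_regP L).eventually_analyticAt,
    self_mem_nhdsWithin] with z hz hne
  rw [← L.deriv_weierstrassP]
  have hf : L.weierstrassP = fun w => regP L w + (w ^ 2)⁻¹ := funext (weierstrassP_eq_regP L)
  have hz2 : HasDerivAt (fun w : ℂ => (w ^ 2)⁻¹) (-(2 * z) / (z ^ 2) ^ 2) z := by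
    simpa using (hasDerivAt_pow 2 z).fun_inv (pow_ne_zero 2 hne)
  rw [hf, (hz.differentiableAt.hasDerivAt.fun_add hz2).deriv, sub_eq_add_neg]
  congr 1
  field_simp [show z ≠ 0 from hne]

theorem eventually_regP_eq (h2 : L.g₂ = L'.g₂) (h3 : L.g₃ = L'.g₃) :
    ∀ᶠ z in 𝓝 (0 : ℂ), regP L z = regP L' z := by
  by_contra hne
  set d : ℂ → ℂ := fun z => regP L z - regP L' z with hd
  have hda : AnalyticAt ℂ d 0 := (analyticAt_regP L).sub (analyticAt_regP L')
  obtain ⟨n, h, hh, hh0, hnh⟩ := hda.exists_eventuallyEq_pow_smul_nonzero_iff.mpr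
    (fun hc => hne (hc.mono fun z hz => sub_eq_zero.mp hz))
  simp only [sub_zero, smul_eq_mul] at hnh
  set P := regP L
  set Q := regP L'
  let lhs : ℂ → ℂ := fun z =>
    ((n : ℂ) * h z + z * deriv h z) * (z ^ 3 * (deriv P z + deriv Q z) - 4)
  let rhs : ℂ → ℂ := fun z =>
    h z * (4 * ((z ^ 2 * P z + 1) ^ 2 + (z ^ 2 * P z + 1) * (z ^ 2 * Q z + 1)
      + (z ^ 2 * Q z + 1) ^ 2) - L.g₂ * z ^ 4)
  have key : ∀ᶠ z in 𝓝[≠] (0 : ℂ), lhs z = rhs z := by
    filter_upwards [eventually_deriv_weierstrassP L, eventually_deriv_weierstrassP L',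
      eventually_notMem_lattice L, eventually_notMem_lattice L',
      nhdsWithin_le_nhds hnh.eventually_nhds, nhdsWithin_le_nhds hh.eventually_analyticAt,
      nhdsWithin_le_nhds (analyticAt_regP L).eventually_analyticAt,
      nhdsWithin_le_nhds (analyticAt_regP L').eventually_analyticAt,
      self_mem_nhdsWithin] with z e1 e2 m1 m2 e3 hhz hP hQ hz
    have hz0 : z ≠ 0 := hz
    have e4 : deriv P z - deriv Q z = (n : ℂ) * z ^ (n - 1) * h z + z ^ n * deriv h z := by
      rw [← deriv_sub hP.differentiableAt hQ.differentiableAt,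
        show deriv (P - Q) z = deriv (fun w => w ^ n * h w) z from Filter.EventuallyEq.deriv_eq e3]
      exact ((hasDerivAt_pow n z).mul hhz.differentiableAt.hasDerivAt).deriv
    have hpow : z * ((n : ℂ) * z ^ (n - 1)) = n * z ^ n := by
      rcases Nat.eq_zero_or_pos n with rfl | hn
      · simp
      · obtain ⟨m, rfl⟩ : ∃ m, n = m + 1 := ⟨n - 1, by omega⟩
        simp only [Nat.add_sub_cancel, pow_succ]; ring
    have e5 := L.derivWeierstrassP_sq z m1
    have e6 := L'.derivWeierstrassP_sq z m2
    rw [e1, weierstrassP_eq_regP] at e5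
    rw [e2, weierstrassP_eq_regP, ← h2, ← h3] at e6
    have e7 := e3.self_of_nhds
    simp only [hd] at e7
    refine mul_left_cancel₀ (pow_ne_zero (n + 2) hz0) ?_
    simp only [lhs, rhs]
    field_simp at e5 e6
    have e8 : z ^ n * ((n : ℂ) * h z + z * deriv h z) = z * (deriv P z - deriv Q z) := by
      rw [e4]; linear_combination (-h z) * hpow
    have e9 : z ^ n * h z = P z - Q z := e7.symm
    simp only [P, Q] at *
    linear_combination e5 - e6 + z ^ 2 * (z ^ 3 * (deriv (regP L) z + deriv (regP L') z) - 4) * e8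
      - z ^ 2 * (4 * ((z ^ 2 * regP L z + 1) ^ 2 + (z ^ 2 * regP L z + 1) * (z ^ 2 * regP L' z + 1)
        + (z ^ 2 * regP L' z + 1) ^ 2) - L.g₂ * z ^ 4) * e9
  have hlim : lhs 0 = rhs 0 := by
    have c1 : ContinuousAt lhs 0 := by
      have := hh.deriv.continuousAt
      have := hh.continuousAt
      have := (analyticAt_regP L).deriv.continuousAt
      have := (analyticAt_regP L').deriv.continuousAt
      fun_prop
    have c2 : ContinuousAt rhs 0 := by
      have := hh.continuousAt
      have := (analyticAt_regP L).continuousAt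
      have := (analyticAt_regP L').continuousAt
      fun_prop
    exact tendsto_nhds_unique ((c1.tendsto.mono_left nhdsWithin_le_nhds).congr' key)
      (c2.tendsto.mono_left nhdsWithin_le_nhds)
  simp only [lhs, rhs] at hlim
  have h12 : ((n : ℂ) + 3) * h 0 = 0 := by linear_combination -hlim / 4
  rcases mul_eq_zero.mp h12 with h' | h'
  · have : ((n + 3 : ℕ) : ℂ) = 0 := by simpa using h'
    exact absurd (Nat.cast_eq_zero.mp this) (by omega)
  · exact hh0 h'

theorem lattice_le_of_invariants (h2 : L.g₂ = L'.g₂) (h3 : L.g₃ = L'.g₃) :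
    L.lattice ≤ L'.lattice := by
  intro l hl
  by_contra hl'
  set g : ℂ → ℂ := L.weierstrassP - L'.weierstrassP with hg
  have hmero : Meromorphic g := L.meromorphic_weierstrassP.sub L'.meromorphic_weierstrassP
  have h0 : meromorphicOrderAt g 0 = ⊤ := by
    rw [meromorphicOrderAt_eq_top_iff]
    filter_upwards [nhdsWithin_le_nhds (eventually_regP_eq L L' h2 h3)] with z hz
    rw [hg, Pi.sub_apply, weierstrassP_eq_regP, weierstrassP_eq_regP, hz, sub_self]
  have hl0 : meromorphicOrderAt g l = ⊤ := by
    by_contra hne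
    exact (MeromorphicOn.meromorphicOrderAt_ne_top_of_isPreconnected (U := Set.univ) (fun x _ => hmero x)
      isPreconnected_univ (Set.mem_univ l) (Set.mem_univ 0) hne) h0
  rw [meromorphicOrderAt_eq_top_iff] at hl0
  have heq : L.weierstrassP =ᶠ[𝓝[≠] l] L'.weierstrassP := hl0.mono fun z hz => sub_eq_zero.mp hz
  have h1 := L.order_weierstrassP l hl
  rw [meromorphicOrderAt_congr heq] at h1
  have h4 := (L'.analyticOnNhd_weierstrassP l hl').meromorphicOrderAt_nonneg
  rw [h1] at h4
  exact absurd h4 (by decide)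

/-- Lattices with the same `g₂` and `g₃` are equal. -/
theorem lattice_eq_of_invariants (h2 : L.g₂ = L'.g₂) (h3 : L.g₃ = L'.g₃) :
    L.lattice = L'.lattice :=
  le_antisymm (lattice_le_of_invariants L L' h2 h3) (lattice_le_of_invariants L' L h2.symm h3.symm)

end FLTAgent.ModularPlaces
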