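import Mathlib
import Fermat.Prelude.Def_AlgebraicCurve_DivisorClassGroup

/-!
# Places from order functions

`IsOrderFun.exists_place`: a nonzero integer valued valuation on a field, trivial on the
constants, is a positive multiple of `Place.ord` for some place; its valuation ring is discrete,
with uniformiser an element of least positive value.
-/

set_option autoImplicit false

noncomputable section

open AlgebraicCurve

namespace FLTAgent.ModularPlaces

variable {K F : Type*} [Field K] [Field F] [Algebra K F]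

/-- An integer valued valuation on `F`, trivial on `K`, given by its values on nonzero elements. -/
structure IsOrderFun (K : Type*) {F : Type*} [Field K] [Field F] [Algebra K F] (φ : F → ℤ) :
    Prop where
  map_mul : ∀ x y : F, x ≠ 0 → y ≠ 0 → φ (x * y) = φ x + φ y
  map_add : ∀ x y : F, x ≠ 0 → y ≠ 0 → x + y ≠ 0 → min (φ x) (φ y) ≤ φ (x + y)
  map_const : ∀ c : K, c ≠ 0 → φ (algebraMap K F c) = 0

namespace IsOrderFun

variable {φ : F → ℤ} (hφ : IsOrderFun K φ)

include hφ

theorem map_one : φ 1 = 0 := by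
  have := hφ.map_const 1 one_ne_zero
  simpa using this

theorem map_neg_one : φ (-1) = 0 := by
  have h := hφ.map_mul (-1) (-1) (by norm_num) (by norm_num)
  rw [neg_one_mul, neg_neg, hφ.map_one] at h
  omega

theorem map_neg {x : F} (hx : x ≠ 0) : φ (-x) = φ x := by
  rw [← neg_one_mul x, hφ.map_mul _ _ (by norm_num) hx, hφ.map_neg_one, zero_add]

theorem map_inv {x : F} (hx : x ≠ 0) : φ x⁻¹ = -φ x := by
  have h := hφ.map_mul x x⁻¹ hx (inv_ne_zero hx)
  rw [mul_inv_cancel₀ hx, hφ.map_one] at h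
  omega

theorem map_pow {x : F} (hx : x ≠ 0) (n : ℕ) : φ (x ^ n) = n * φ x := by
  induction n with
  | zero => simp [hφ.map_one]
  | succ n ih =>
    rw [pow_succ, hφ.map_mul _ _ (pow_ne_zero n hx) hx, ih]; push_cast; ring

theorem map_zpow {x : F} (hx : x ≠ 0) (n : ℤ) : φ (x ^ n) = n * φ x := by
  obtain ⟨k, rfl | rfl⟩ := n.eq_nat_or_neg
  · rw [zpow_natCast, hφ.map_pow hx]
  · rw [zpow_neg, zpow_natCast, hφ.map_inv (pow_ne_zero k hx), hφ.map_pow hx]; ring

theorem map_zero_or {x y : F} (hx : x = 0 ∨ 0 ≤ φ x) (hy : y = 0 ∨ 0 ≤ φ y) :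
    x + y = 0 ∨ 0 ≤ φ (x + y) := by
  rcases eq_or_ne x 0 with rfl | hx0
  · rwa [zero_add]
  rcases eq_or_ne y 0 with rfl | hy0
  · rwa [add_zero]
  by_cases h : x + y = 0
  · exact Or.inl h
  · exact Or.inr ((le_min (hx.resolve_left hx0) (hy.resolve_left hy0)).trans
      (hφ.map_add x y hx0 hy0 h))

/-- The valuation ring of an order function. -/
def valuationRing : ValuationSubring F where
  carrier := {x | x = 0 ∨ 0 ≤ φ x}
  zero_mem' := Or.inl rfl
  one_mem' := Or.inr (by rw [hφ.map_one])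
  add_mem' := fun hx hy => hφ.map_zero_or hx hy
  neg_mem' := by
    intro x hx
    rcases eq_or_ne x 0 with rfl | hx0
    · exact Or.inl neg_zero
    · exact Or.inr (by rw [hφ.map_neg hx0]; exact hx.resolve_left hx0)
  mul_mem' := by
    intro x y hx hy
    rcases eq_or_ne x 0 with rfl | hx0
    · exact Or.inl (zero_mul y)
    rcases eq_or_ne y 0 with rfl | hy0
    · exact Or.inl (mul_zero x)
    exact Or.inr (by
      rw [hφ.map_mul x y hx0 hy0]
      exact add_nonneg (hx.resolve_left hx0) (hy.resolve_left hy0))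
  mem_or_inv_mem' := by
    intro x
    rcases eq_or_ne x 0 with rfl | hx0
    · exact Or.inl (Or.inl rfl)
    rcases le_total 0 (φ x) with h | h
    · exact Or.inl (Or.inr h)
    · exact Or.inr (Or.inr (by rw [hφ.map_inv hx0]; omega))

theorem mem_valuationRing {x : F} : x ∈ hφ.valuationRing ↔ x = 0 ∨ 0 ≤ φ x := Iff.rfl

/-- An order function is a positive multiple of the order at a place. -/
theorem exists_place (hne : ∃ x : F, x ≠ 0 ∧ φ x ≠ 0) :
    ∃ (v : Place K F) (d : ℕ), 0 < d ∧ ∀ x : F, x ≠ 0 → φ x = d * v.ord x := by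
  classical
  have hpos : ∃ n : ℕ, 0 < n ∧ ∃ x : F, x ≠ 0 ∧ φ x = n := by
    obtain ⟨x, hx, hne⟩ := hne
    rcases lt_or_gt_of_ne hne with h | h
    · exact ⟨(-φ x).toNat, by omega, x⁻¹, inv_ne_zero hx, by rw [hφ.map_inv hx]; omega⟩
    · exact ⟨(φ x).toNat, by omega, x, hx, by omega⟩
  obtain ⟨d, ⟨hd, π, hπ0, hπ⟩, hmin⟩ :
      ∃ d : ℕ, (0 < d ∧ ∃ x : F, x ≠ 0 ∧ φ x = d) ∧
        ∀ m : ℕ, m < d → ¬(0 < m ∧ ∃ x : F, x ≠ 0 ∧ φ x = m) :=
    ⟨Nat.find hpos, Nat.find_spec hpos, fun m hm => Nat.find_min hpos hm⟩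
  have hdvd : ∀ x : F, x ≠ 0 → (d : ℤ) ∣ φ x := by
    intro x hx
    have h0 : x * π ^ (-(φ x / d)) ≠ 0 := mul_ne_zero hx (zpow_ne_zero _ hπ0)
    have h1 : φ (x * π ^ (-(φ x / d))) = φ x % d := by
      rw [hφ.map_mul _ _ hx (zpow_ne_zero _ hπ0), hφ.map_zpow hπ0, hπ, Int.emod_def]; ring
    have h2 : 0 ≤ φ x % d := Int.emod_nonneg _ (by omega)
    have h3 : φ x % d < d := Int.emod_lt_of_pos _ (by omega)
    refine Int.dvd_of_emod_eq_zero ?_
    by_contra h
    exact hmin (φ x % d).toNat (by omega) ⟨by omega, _, h0, by rw [h1]; omega⟩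
  have hπmem : π ∈ hφ.valuationRing := Or.inr (by omega)
  have hunit : ∀ {x : F} (hx : x ∈ hφ.valuationRing), x ≠ 0 → φ x = 0 →
      IsUnit (⟨x, hx⟩ : hφ.valuationRing) := by
    intro x hx hx0 h
    refine IsUnit.of_mul_eq_one (⟨x⁻¹, Or.inr (by rw [hφ.map_inv hx0]; omega)⟩ : hφ.valuationRing) ?_
    exact Subtype.ext (mul_inv_cancel₀ hx0)
  have hfac : ∀ {x : F}, x ≠ 0 → ∃ (k : ℤ) (u : F), φ x = d * k ∧ u ≠ 0 ∧ φ u = 0 ∧
      x = u * π ^ k := by
    intro x hx
    obtain ⟨k, hk⟩ := hdvd x hx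
    refine ⟨k, x * π ^ (-k), hk, mul_ne_zero hx (zpow_ne_zero _ hπ0), ?_, ?_⟩
    · rw [hφ.map_mul _ _ hx (zpow_ne_zero _ hπ0), hφ.map_zpow hπ0, hπ, hk]; ring
    · rw [mul_assoc, ← zpow_add₀ hπ0, neg_add_cancel, zpow_zero, mul_one]
  have hirr : Irreducible (⟨π, hπmem⟩ : hφ.valuationRing) := by
    have hnu : ∀ {x : hφ.valuationRing}, IsUnit x → φ (x : F) = 0 := by
      rintro x ⟨u, rfl⟩
      have h1 : ((u : hφ.valuationRing) : F) * ((u⁻¹ : hφ.valuationRingˣ) : hφ.valuationRing) = 1 :=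
        congrArg Subtype.val u.mul_inv
      have ha0 := left_ne_zero_of_mul_eq_one h1
      have hb0 := right_ne_zero_of_mul_eq_one h1
      have h2 := hφ.map_mul _ _ ha0 hb0
      rw [h1, hφ.map_one] at h2
      have h3 := (u : hφ.valuationRing).2.resolve_left ha0
      have h4 := ((u⁻¹ : hφ.valuationRingˣ) : hφ.valuationRing).2.resolve_left hb0
      omega
    refine ⟨fun h => ?_, fun a b hab => ?_⟩
    · have := hnu h
      simp only at this
      omega
    · have hab' : π = (a : F) * b := congrArg Subtype.val hab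
      have ha0 : (a : F) ≠ 0 := left_ne_zero_of_mul (hab' ▸ hπ0)
      have hb0 : (b : F) ≠ 0 := right_ne_zero_of_mul (hab' ▸ hπ0)
      have h2 := hφ.map_mul _ _ ha0 hb0
      rw [← hab', hπ] at h2
      have ha := a.2.resolve_left ha0
      have hb := b.2.resolve_left hb0
      obtain ⟨ka, hka⟩ := hdvd _ ha0
      rcases eq_or_ne (φ (a : F)) 0 with h | h
      · exact Or.inl (hunit a.2 ha0 h)
      · refine Or.inr (hunit b.2 hb0 ?_)
        have : 1 ≤ ka := by
          by_contra h'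
          have : (d : ℤ) * ka ≤ 0 := mul_nonpos_of_nonneg_of_nonpos (by omega) (by omega)
          omega
        have : (d : ℤ) * 1 ≤ d * ka := mul_le_mul_of_nonneg_left this (by omega)
        omega
  have hdvr : IsDiscreteValuationRing hφ.valuationRing := by
    refine IsDiscreteValuationRing.ofHasUnitMulPowIrreducibleFactorization
      ⟨⟨π, hπmem⟩, hirr, fun {x} hx => ?_⟩
    have hx0 : (x : F) ≠ 0 := fun h => hx (Subtype.ext h)
    obtain ⟨k, u, hk, hu0, hu, hxu⟩ := hfac hx0
    have hxnn := x.2.resolve_left hx0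
    have hk0 : 0 ≤ k := by
      by_contra h'
      have : (d : ℤ) * k < 0 := mul_neg_of_pos_of_neg (by omega) (by omega)
      omega
    obtain ⟨n, rfl⟩ := Int.eq_ofNat_of_zero_le hk0
    refine ⟨n, (hunit (Or.inr hu.ge) hu0 hu).unit, Subtype.ext ?_⟩
    rw [hxu, zpow_natCast]
    simp [mul_comm]
  let v : Place K F :=
    { toValuationSubring := hφ.valuationRing
      algebraMap_mem' := fun a => by
        rcases eq_or_ne a 0 with rfl | ha
        · exact Or.inl (map_zero (algebraMap K F))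
        · exact Or.inr (hφ.map_const a ha).ge
      ne_top' := fun h => by
        have := h ▸ ValuationSubring.mem_top π⁻¹
        rcases this with h' | h'
        · exact inv_ne_zero hπ0 h'
        · rw [hφ.map_inv hπ0, hπ] at h'; omega
      isPrincipalIdealRing' := inferInstance }
  refine ⟨v, d, hd, fun x hx => ?_⟩
  obtain ⟨k, u, hk, hu0, hu, hxu⟩ := hfac hx
  rw [hk, hxu]
  congr 1
  exact (v.ord_unit_smul_zpow (hunit (Or.inr hu.ge) hu0 hu).unit hirr k).symm

end IsOrderFun

end FLTAgent.ModularPlaces
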