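import Fermat.Agent.ModularPlaces.OrdPlace
import Fermat.Agent.ModularPlaces.CuspOrders
import Fermat.Agent.ModularPlaces.Fields
import Fermat.Agent.ModularPlaces.LevelOneRat

/-!
# Places attached to points and cusps

For `z ∈ ℍ` and a cusp `γ ∞`, the order functions on the function field of `X₀(N)` over `ℂ`
(`ordH`, `cuspOrd`) give places `placeZ z`, `placeCusp γ` with positive factors `degZ`, `degCusp`
(`ord_placeZ`, `ord_placeCusp`). `ellOrder` divides `degZ`, `j` has its poles at the cusps, and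
the places depend only on the `Γ₀(N)`-orbit (`placeZ_smul`, `placeCusp_mul`).
-/

set_option autoImplicit false

noncomputable section

open UpperHalfPlane CongruenceSubgroup Filter Topology Function AlgebraicCurve ModularCurve
open scoped MatrixGroups

namespace FLTAgent.ModularPlaces

open FLTAgent.Modular

variable {N : ℕ} [NeZero N]

local notation "E" y => ev ((y : FC N) : LaurentSeries ℂ)

theorem ev_jC : (E jC N) = jFun := ev_jq

theorem jC_sub_ne_zero (c : ℂ) : jC N - algebraMap ℂ (FC N) c ≠ 0 := fun h =>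
  transcendental_jC N (sub_eq_zero.mp h ▸ isAlgebraic_algebraMap c)

theorem jC_ne_zero : jC N ≠ 0 := by
  have := jC_sub_ne_zero (N := N) 0
  simpa using this

theorem ev_jC_sub (c : ℂ) : (E (jC N - algebraMap ℂ (FC N) c)) = fun z => jFun z - c :=
  ev_eq_of_isMero (isMero_of_analyticAt fun z => (analyticAt_jFun z).sub analyticAt_const)
    (hasQExp_jFun.sub (hasQExp_const 1 c))

theorem gamma0_inv (y : FC N) : ∀ g ∈ Gamma0 N, ∀ w : ℍ, (E y) (g • w) = (E y) w :=
  fun g hg w => (isModFun_ev y).smul ⟨g, hg⟩ w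

theorem isOrderFun_ordH (z : ℍ) : IsOrderFun ℂ (fun y : FC N => ordH (E y) z) where
  map_mul _ _ hx hy := ordH_ev_mul' hx hy z
  map_add x y hx hy hxy := by
    have h0 := meromorphicOrderAt_add ((isMero_ev x).meromorphicAt z) ((isMero_ev y).meromorphicAt z)
    have hsum : meromorphicOrderAt ((E (x + y)) ∘ ofComplex) (z : ℂ)
        = meromorphicOrderAt (((E x) ∘ ofComplex) + ((E y) ∘ ofComplex)) (z : ℂ) :=
      meromorphicOrderAt_congr (ev_add_eventuallyEq x y z)
    rw [← hsum] at h0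
    obtain ⟨a, ha⟩ := WithTop.ne_top_iff_exists.mp (meromorphicOrderAt_ev_ne_top hx z)
    obtain ⟨b, hb⟩ := WithTop.ne_top_iff_exists.mp (meromorphicOrderAt_ev_ne_top hy z)
    obtain ⟨c, hc⟩ := WithTop.ne_top_iff_exists.mp (meromorphicOrderAt_ev_ne_top hxy z)
    rw [← ha, ← hb, ← hc, ← WithTop.coe_min, WithTop.coe_le_coe] at h0
    show min (ordH _ z) (ordH _ z) ≤ ordH _ z
    rw [ordH, ordH, ordH, ← ha, ← hb, ← hc]
    exact h0
  map_const c hc := by
    classical
    show ordH _ z = 0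
    rw [ordH, ev_algebraMap_apply,
      show ((fun _ : ℍ => c) ∘ ofComplex) = fun _ : ℂ => c from rfl, meromorphicOrderAt_const,
      if_neg hc]
    rfl

/-- The order of `j - j z₀`. -/
theorem ordH_jC_sub (z : ℍ) :
    ordH (E (jC N - algebraMap ℂ (FC N) (jE z))) z = ellOrder 1 z := by
  rw [ev_jC_sub, jFun_eq_jE]
  exact ordH_jE_sub z

/-- The place at `z`, with the gcd of the orders at `z`. -/
theorem exists_placeZ (z : ℍ) : ∃ (v : Place ℂ (FC N)) (d : ℕ), 0 < d ∧ ellOrder N z ∣ d ∧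
    ∀ y : FC N, y ≠ 0 → ordH (E y) z = d * v.ord y := by
  obtain ⟨v, d, hd, h⟩ := (isOrderFun_ordH (N := N) z).exists_place
    ⟨jC N - algebraMap ℂ (FC N) (jE z), jC_sub_ne_zero _, by
      rw [ordH_jC_sub]
      exact_mod_cast (ellOrder_pos 1 z).ne'⟩
  refine ⟨v, d, hd, ?_, h⟩
  obtain ⟨y, hy, hy1⟩ := FF.exists_ord_eq v 1
  have h1 := ellOrder_dvd N (gamma0_inv y) z ((isMero_ev y).meromorphicAt z)
  rw [h y hy, hy1, mul_one] at h1
  exact_mod_cast h1

/-- The place at `z`. -/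
def placeZ (z : ℍ) : Place ℂ (FC N) := (exists_placeZ z).choose

/-- The gcd of the orders at `z`. -/
def degZ (N : ℕ) [NeZero N] (z : ℍ) : ℕ := (exists_placeZ (N := N) z).choose_spec.choose

theorem degZ_pos (z : ℍ) : 0 < degZ N z := (exists_placeZ (N := N) z).choose_spec.choose_spec.1

theorem ellOrder_dvd_degZ (z : ℍ) : ellOrder N z ∣ degZ N z :=
  (exists_placeZ (N := N) z).choose_spec.choose_spec.2.1

theorem ord_placeZ (z : ℍ) {y : FC N} (hy : y ≠ 0) :
    ordH (E y) z = degZ N z * (placeZ z).ord y :=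
  (exists_placeZ (N := N) z).choose_spec.choose_spec.2.2 y hy

theorem placeZ_smul {γ : SL(2, ℤ)} (hγ : γ ∈ Gamma0 N) (z : ℍ) :
    (placeZ (γ • z) : Place ℂ (FC N)) = placeZ z := by
  apply FF.place_eq_of_ord_nonneg
  intro y hy0
  rcases eq_or_ne y 0 with rfl | hy
  · simp
  have h1 := ord_placeZ (γ • z) hy
  rw [ordH_smul_of_invariant (gamma0_inv y γ hγ), ord_placeZ z hy] at h1
  have h2 : 0 ≤ (degZ N z : ℤ) * (placeZ z).ord y := by
    rw [h1]; exact mul_nonneg (by positivity) hy0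
  exact nonneg_of_mul_nonneg_right h2 (by exact_mod_cast degZ_pos z)

/-! ### Cusps -/

theorem ev_mul_comp_smul_eventually (x y : FC N) (γ : SL(2, ℤ)) :
    ∀ᶠ z in atImInfty, (E (x * y)) (γ • z) = (E x) (γ • z) * (E y) (γ • z) := by
  obtain ⟨n, hn⟩ := (isModFun_ev x).meroCusp γ
  obtain ⟨m, hm⟩ := (isModFun_ev y).meroCusp γ
  filter_upwards [((isMero_ev x).comp_sl γ).eventually_analyticAt_of_bounded hn,
    ((isMero_ev y).comp_sl γ).eventually_analyticAt_of_bounded hm] with z hx hy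
  have hr : IsMeroRaw ((E x) * (E y)) := (isMero_ev x).raw.mul (isMero_ev y).raw
  have h := congrFun (nfH_comp_glSmul hr (det_pos_SL γ)) z
  rw [ev_mul]
  refine (h.symm.trans ?_)
  rw [nfH_apply_of_analyticAt]
  · rfl
  · exact hx.mul hy

theorem ev_add_comp_smul_eventually (x y : FC N) (γ : SL(2, ℤ)) :
    ∀ᶠ z in atImInfty, (E (x + y)) (γ • z) = (E x) (γ • z) + (E y) (γ • z) := by
  obtain ⟨n, hn⟩ := (isModFun_ev x).meroCusp γ
  obtain ⟨m, hm⟩ := (isModFun_ev y).meroCusp γ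
  filter_upwards [((isMero_ev x).comp_sl γ).eventually_analyticAt_of_bounded hn,
    ((isMero_ev y).comp_sl γ).eventually_analyticAt_of_bounded hm] with z hx hy
  have hr : IsMeroRaw ((E x) + (E y)) := (isMero_ev x).raw.add (isMero_ev y).raw
  have h := congrFun (nfH_comp_glSmul hr (det_pos_SL γ)) z
  rw [ev_add]
  refine (h.symm.trans ?_)
  rw [nfH_apply_of_analyticAt]
  · rfl
  · exact hx.add hy

theorem exists_cuspOrd {y : FC N} (hy : y ≠ 0) (γ : SL(2, ℤ)) :
    ∃ n : ℤ, HasCuspOrder N γ (E y) n :=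
  exists_hasCuspOrder (isMero_ev y) (isModFun_ev y).meroCusp (gamma0_inv y)
    (meromorphicOrderAt_ev_ne_top hy) γ

open Classical in
/-- The order at the cusp `γ ∞`. -/
def cuspOrd (N : ℕ) [NeZero N] (γ : SL(2, ℤ)) (y : FC N) : ℤ :=
  if hy : y ≠ 0 then (exists_cuspOrd hy γ).choose else 0

theorem hasCuspOrder_cuspOrd {y : FC N} (hy : y ≠ 0) (γ : SL(2, ℤ)) :
    HasCuspOrder N γ (E y) (cuspOrd N γ y) := by
  rw [cuspOrd, dif_pos hy]
  exact (exists_cuspOrd hy γ).choose_spec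

theorem cuspOrd_eq {y : FC N} (hy : y ≠ 0) {γ : SL(2, ℤ)} {n : ℤ}
    (h : HasCuspOrder N γ (E y) n) : cuspOrd N γ y = n :=
  (hasCuspOrder_cuspOrd hy γ).unique h

theorem isOrderFun_cuspOrd (γ : SL(2, ℤ)) : IsOrderFun ℂ (cuspOrd N γ) where
  map_mul x y hx hy := by
    obtain ⟨c, hc, h1⟩ := hasCuspOrder_cuspOrd hx γ
    obtain ⟨d, hd, h2⟩ := hasCuspOrder_cuspOrd hy γ
    refine cuspOrd_eq (mul_ne_zero hx hy) ⟨c * d, mul_ne_zero hc hd, ?_⟩
    refine (h1.mul h2).congr' ?_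
    filter_upwards [ev_mul_comp_smul_eventually x y γ] with z hz
    rw [hz, neg_add, FLTAgent.Modular.qPow_add]
    ring
  map_add x y hx hy hxy := by
    obtain ⟨c, hc, h1⟩ := hasCuspOrder_cuspOrd hx γ
    obtain ⟨d, hd, h2⟩ := hasCuspOrder_cuspOrd hy γ
    obtain ⟨e, he, h3⟩ := hasCuspOrder_cuspOrd hxy γ
    by_contra hlt
    rw [not_le, lt_min_iff] at hlt
    have hh : (0 : ℝ) < (cuspWidth N γ : ℝ) := by exact_mod_cast (cuspWidth_spec γ).1
    obtain ⟨k, hk⟩ := Int.eq_ofNat_of_zero_le (sub_nonneg.mpr hlt.1.le)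
    obtain ⟨l, hl⟩ := Int.eq_ofNat_of_zero_le (sub_nonneg.mpr hlt.2.le)
    have h4 := (h1.mul (ModularPlaces.tendsto_qPow hh (k := k) (by omega))).add
      (h2.mul (ModularPlaces.tendsto_qPow hh (k := l) (by omega)))
    rw [mul_zero, mul_zero, add_zero] at h4
    refine he (tendsto_nhds_unique h3 (h4.congr' ?_))
    filter_upwards [ev_add_comp_smul_eventually x y γ] with z hz
    rw [hz, add_mul, mul_assoc, mul_assoc, ← FLTAgent.Modular.qPow_add, ← FLTAgent.Modular.qPow_add,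
      show -cuspOrd N γ x + (k : ℤ) = -cuspOrd N γ (x + y) by omega,
      show -cuspOrd N γ y + (l : ℤ) = -cuspOrd N γ (x + y) by omega]
  map_const c hc := by
    refine cuspOrd_eq (fun h => hc ((algebraMap ℂ (FC N)).injective (h.trans (map_zero _).symm)))
      ⟨c, hc, ?_⟩
    refine Tendsto.congr (fun z => ?_) tendsto_const_nhds
    rw [ev_algebraMap_apply, neg_zero, FLTAgent.Modular.qPow_zero, mul_one]

theorem hasCuspOrder_jC_sub (γ : SL(2, ℤ)) (c : ℂ) :
    HasCuspOrder N γ (fun z => jFun z - c) (-(cuspWidth N γ : ℤ)) := by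
  have hh : ((cuspWidth N γ : ℝ) : ℂ) ≠ 0 := by exact_mod_cast (cuspWidth_spec γ).1.ne'
  refine ⟨1, one_ne_zero, ?_⟩
  have hq : Tendsto (fun z : ℍ => qPow 1 1 z) atImInfty (𝓝 0) := by
    simpa [qPow_one_eq_qParam] using qParam_tendsto_atImInfty one_pos
  have h1 := tendsto_jFun_mul_qPow.sub (hq.const_mul c)
  rw [mul_zero, sub_zero] at h1
  refine h1.congr fun z => ?_
  simp only []
  rw [neg_neg, jFun_smul,
    show qPow (cuspWidth N γ : ℝ) (cuspWidth N γ : ℤ) z = qPow 1 1 z by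
      rw [qPow, qPow]; congr 1; push_cast at hh ⊢; field_simp]
  ring

theorem cuspOrd_jC_sub (γ : SL(2, ℤ)) (c : ℂ) :
    cuspOrd N γ (jC N - algebraMap ℂ (FC N) c) = -(cuspWidth N γ : ℤ) :=
  cuspOrd_eq (jC_sub_ne_zero c) (by rw [ev_jC_sub]; exact hasCuspOrder_jC_sub γ c)

theorem cuspOrd_jC (γ : SL(2, ℤ)) : cuspOrd N γ (jC N) = -(cuspWidth N γ : ℤ) := by
  have := cuspOrd_jC_sub (N := N) γ 0
  rwa [map_zero, sub_zero] at this

theorem exists_placeCusp (γ : SL(2, ℤ)) : ∃ (v : Place ℂ (FC N)) (d : ℕ), 0 < d ∧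
    ∀ y : FC N, y ≠ 0 → cuspOrd N γ y = d * v.ord y :=
  (isOrderFun_cuspOrd γ).exists_place ⟨jC N, jC_ne_zero, by
    have := (cuspWidth_spec (N := N) γ).1
    rw [cuspOrd_jC]; omega⟩

/-- The place at the cusp `γ ∞`. -/
def placeCusp (γ : SL(2, ℤ)) : Place ℂ (FC N) := (exists_placeCusp γ).choose

/-- The gcd of the orders at the cusp. -/
def degCusp (N : ℕ) [NeZero N] (γ : SL(2, ℤ)) : ℕ := (exists_placeCusp (N := N) γ).choose_spec.choose

theorem degCusp_pos (γ : SL(2, ℤ)) : 0 < degCusp N γ :=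
  (exists_placeCusp (N := N) γ).choose_spec.choose_spec.1

theorem ord_placeCusp (γ : SL(2, ℤ)) {y : FC N} (hy : y ≠ 0) :
    cuspOrd N γ y = degCusp N γ * (placeCusp γ).ord y :=
  (exists_placeCusp (N := N) γ).choose_spec.choose_spec.2 y hy

theorem placeCusp_ord_jC_neg (γ : SL(2, ℤ)) : (placeCusp γ : Place ℂ (FC N)).ord (jC N) < 0 := by
  have h := ord_placeCusp γ (jC_ne_zero (N := N))
  rw [cuspOrd_jC] at h
  have := (cuspWidth_spec (N := N) γ).1
  by_contra h'
  have := mul_nonneg (show (0 : ℤ) ≤ degCusp N γ by positivity) (not_lt.mp h')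
  omega

theorem placeCusp_mul {g : SL(2, ℤ)} (hg : g ∈ Gamma0 N) (γ : SL(2, ℤ)) (n : ℤ) :
    (placeCusp (g * γ * ModularGroup.T ^ n) : Place ℂ (FC N)) = placeCusp γ := by
  have key : ∀ y : FC N, y ≠ 0 → cuspOrd N (g * γ * ModularGroup.T ^ n) y = cuspOrd N γ y := by
    intro y hy
    obtain ⟨c, hc, h⟩ := hasCuspOrder_cuspOrd hy γ
    have hw : cuspWidth N (g * γ * ModularGroup.T ^ n) = cuspWidth N γ := by
      unfold cuspWidth
      congr 1
      ext w
      have he : g * γ * ModularGroup.T ^ n * ModularGroup.T ^ (w : ℤ)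
          * (g * γ * ModularGroup.T ^ n)⁻¹ = g * (γ * ModularGroup.T ^ (w : ℤ) * γ⁻¹) * g⁻¹ := by
        group
      simp only [Set.mem_ofPred_eq]
      rw [he, Subgroup.mul_mem_cancel_right _ (inv_mem hg), Subgroup.mul_mem_cancel_left _ hg]
    have hT : Tendsto (fun z : ℍ => ModularGroup.T ^ n • z) atImInfty atImInfty := by
      refine (Filter.HasBasis.tendsto_iff (Filter.atTop_basis.comap _)
        (Filter.atTop_basis.comap _)).mpr fun A _ => ⟨A, trivial, fun z hz => ?_⟩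
      show A ≤ (ModularGroup.T ^ n • z).im
      rw [ModularGroup.im_T_zpow_smul]
      exact hz
    set e : ℂ := Periodic.qParam (cuspWidth N γ : ℝ) (n : ℂ) ^ (-cuspOrd N γ y) with he
    have he0 : e ≠ 0 := zpow_ne_zero _ (Periodic.qParam_ne_zero _)
    refine cuspOrd_eq hy ⟨c * e⁻¹, mul_ne_zero hc (inv_ne_zero he0), ?_⟩
    refine ((h.comp hT).mul_const e⁻¹).congr fun z => ?_
    simp only [Function.comp_apply]
    rw [hw, mul_smul, mul_smul, gamma0_inv y g hg, mul_assoc]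
    congr 1
    rw [qPow_eq_qParam_zpow, qPow_eq_qParam_zpow, he, ModularGroup.coe_T_zpow_smul_eq,
      Periodic.qParam, Periodic.qParam, Periodic.qParam, ← div_eq_mul_inv, ← div_zpow,
      ← Complex.exp_sub]
    congr 2
    ring
  apply FF.place_eq_of_ord_nonneg
  intro y hy0
  rcases eq_or_ne y 0 with rfl | hy
  · simp
  have h1 := key y hy
  rw [ord_placeCusp _ hy, ord_placeCusp γ hy] at h1
  have h2 : 0 ≤ (degCusp N γ : ℤ) * (placeCusp γ).ord y := by
    rw [← h1]; exact mul_nonneg (by positivity) hy0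
  exact nonneg_of_mul_nonneg_right h2 (by exact_mod_cast degCusp_pos γ)

end FLTAgent.ModularPlaces
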